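import Fermat.Agent.Roth.Finite
import Fermat.Agent.Thue.Equation
import Mathlib.Analysis.SpecificLimits.Basic

/-!
# Corollaries of Roth's theorem

A separable binary form of degree `n` without rational zeros takes values of size at most
`C * max |x| |y| ^ e`, `e < n - 2`, only finitely often, and `∑ b ^ (-3 ^ k)` is transcendental.
-/

set_option autoImplicit false

noncomputable section

namespace FA.Roth

open Polynomial Finset

/-- Outside a cone a binary form is as large as the power of its first variable. -/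
theorem exists_form_ge {f : ℤ[X]} (hf : f ≠ 0) :
    ∃ K : ℝ, 1 ≤ K ∧ ∀ x y : ℤ, K * |(y : ℝ)| ≤ |(x : ℝ)| →
      |(x : ℝ)| ^ f.natDegree ≤ 2 * |(Thue.form f x y : ℝ)| := by
  set n := f.natDegree with hn
  set S := ∑ i ∈ range n, |(f.coeff i : ℝ)| with hS
  have hS0 : 0 ≤ S := sum_nonneg fun _ _ => abs_nonneg _
  refine ⟨2 * S + 1, by linarith, fun x y hxy => ?_⟩
  have hterm : ∀ i ∈ range n, |(f.coeff i : ℝ) * (x : ℝ) ^ i * (y : ℝ) ^ (n - i)| ≤
      |(f.coeff i : ℝ)| * (|(x : ℝ)| ^ n / (2 * S + 1)) := by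
    intro i hi
    obtain ⟨d, hd⟩ : ∃ d, n - i = d + 1 := ⟨n - i - 1, by have := mem_range.1 hi; omega⟩
    rw [abs_mul, abs_mul, abs_pow, abs_pow, mul_assoc]
    refine mul_le_mul_of_nonneg_left ?_ (abs_nonneg _)
    rw [le_div_iff₀ (by linarith)]
    have hyx : |(y : ℝ)| ≤ |(x : ℝ)| :=
      le_trans (le_mul_of_one_le_left (abs_nonneg (y : ℝ))
        (show (1 : ℝ) ≤ 2 * S + 1 by linarith)) hxy
    calc |(x : ℝ)| ^ i * |(y : ℝ)| ^ (n - i) * (2 * S + 1)
        = |(x : ℝ)| ^ i * (|(y : ℝ)| ^ d * ((2 * S + 1) * |(y : ℝ)|)) := by rw [hd, pow_succ]; ring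
      _ ≤ |(x : ℝ)| ^ i * (|(x : ℝ)| ^ d * |(x : ℝ)|) := by
          gcongr
      _ = |(x : ℝ)| ^ n := by
          rw [← pow_succ, ← pow_add, ← hd]
          congr 1
          have := mem_range.1 hi
          omega
  have hsum : |∑ i ∈ range n, (f.coeff i : ℝ) * (x : ℝ) ^ i * (y : ℝ) ^ (n - i)| ≤
      |(x : ℝ)| ^ n / 2 := by
    refine (abs_sum_le_sum_abs _ _).trans ((sum_le_sum hterm).trans ?_)
    rw [← sum_mul, ← hS, mul_div_assoc', div_le_iff₀ (by linarith)]
    nlinarith [pow_nonneg (abs_nonneg (x : ℝ)) n]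
  have hlead : |(x : ℝ)| ^ n ≤ |(f.coeff n : ℝ) * (x : ℝ) ^ n| := by
    rw [abs_mul, abs_pow]
    exact le_mul_of_one_le_left (by positivity)
      (by exact_mod_cast Int.one_le_abs (leadingCoeff_ne_zero.2 hf))
  have hF : (Thue.form f x y : ℝ) =
      (∑ i ∈ range n, (f.coeff i : ℝ) * (x : ℝ) ^ i * (y : ℝ) ^ (n - i)) +
        (f.coeff n : ℝ) * (x : ℝ) ^ n := by
    rw [Thue.form, ← hn, sum_range_succ]
    simp
  rw [hF]
  have h := abs_sub_abs_le_abs_add ((f.coeff n : ℝ) * (x : ℝ) ^ n)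
    (∑ i ∈ range n, (f.coeff i : ℝ) * (x : ℝ) ^ i * (y : ℝ) ^ (n - i))
  rw [add_comm] at h
  linarith

theorem lt_of_rpow_le {Y C e d : ℝ} (hY : 0 < Y) (hd : e < d)
    (h : Y ^ d ≤ C * Y ^ e) : Y ≤ max C 0 ^ (1 / (d - e)) := by
  have h1 : Y ^ (d - e) ≤ max C 0 := by
    rw [Real.rpow_sub hY, div_le_iff₀ (Real.rpow_pos_of_pos hY e)]
    exact h.trans (mul_le_mul_of_nonneg_right (le_max_left _ _) (Real.rpow_pos_of_pos hY e).le)
  have h2 := Real.rpow_le_rpow (Real.rpow_nonneg hY.le _) h1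
    (show 0 ≤ 1 / (d - e) by have := sub_pos.2 hd; positivity)
  rwa [← Real.rpow_mul hY.le, mul_one_div_cancel (sub_pos.2 hd).ne', Real.rpow_one] at h2

/-- Binary forms take small values only finitely often. -/
theorem finite_small_values {f : ℤ[X]} (hsep : (f.map (Int.castRingHom ℂ)).Separable)
    (hroot : ∀ r : ℚ, (f.map (Int.castRingHom ℚ)).eval r ≠ 0) {C e : ℝ}
    (he : e < (f.natDegree : ℝ) - 2) (hdeg : 3 ≤ f.natDegree) :
    {p : ℤ × ℤ | |(Thue.form f p.1 p.2 : ℝ)| ≤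
      C * max |(p.1 : ℝ)| |(p.2 : ℝ)| ^ e}.Finite := by
  classical
  set n := f.natDegree with hn
  set e' := max e 0 with he'
  have hn3 : (3 : ℝ) ≤ n := by exact_mod_cast hdeg
  have he'n : e' < (n : ℝ) - 2 := max_lt he (by linarith)
  have hf0 : f ≠ 0 := fun h => by rw [hn, h, natDegree_zero] at hdeg; omega
  set C' := max C 0 with hC'
  have hC'0 : 0 ≤ C' := le_max_right _ _
  obtain ⟨K, hK1, hK⟩ := exists_form_ge hf0
  obtain ⟨Cn, hCn, hnear⟩ := Thue.exists_root_near hsep (by omega)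
  set κ := (2 + ((n : ℝ) - e')) / 2 with hκ
  have hκ2 : 2 < κ := by linarith
  set Cc := Cn * (C' * K ^ e') with hCc
  have hCc0 : 0 ≤ Cc := mul_nonneg hCn.le (mul_nonneg hC'0 (Real.rpow_nonneg (by linarith) _))
  set g := f.map (Int.castRingHom ℂ) with hg
  have hroots : ∀ z : ℂ, ∃ (F : Finset ℚ) (Y : ℝ), g.IsRoot z → ∀ x y : ℤ, Y < |(y : ℝ)| →
      ‖((x : ℂ) / y) - z‖ * |(y : ℝ)| ^ ((n : ℝ) - e') ≤ Cc → ((x : ℚ) / y) ∈ F := by
    intro z
    by_cases hz : g.IsRoot z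
    swap
    · exact ⟨∅, 0, fun h => absurd h hz⟩
    by_cases him : z.im = 0
    · have hzα : z = ((z.re : ℝ) : ℂ) := Complex.ext rfl (by simp [him])
      have halg : IsAlgebraic ℚ z.re := by
        refine (isAlgebraic_algebraMap_iff (A := ℂ) Complex.ofReal_injective).1 ?_
        rw [Complex.coe_algebraMap, ← hzα]
        refine ⟨f.map (Int.castRingHom ℚ),
          (Polynomial.map_ne_zero_iff Int.cast_injective).2 hf0, ?_⟩
        rw [aeval_def, eval₂_map, Subsingleton.elim ((algebraMap ℚ ℂ).comp (Int.castRingHom ℚ))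
          (Int.castRingHom ℂ), ← eval_map]
        exact hz
      refine ⟨(finite_approximations halg hκ2).toFinset,
        max 1 ((max Cc 0) ^ (1 / (((n : ℝ) - e') - κ))), fun _ x y hy hle => ?_⟩
      rw [Set.Finite.mem_toFinset]
      show |z.re - (((x : ℚ) / y : ℚ) : ℝ)| < _
      have hy0 : (0 : ℝ) < |(y : ℝ)| := lt_of_lt_of_le one_pos ((le_max_left _ _).trans hy.le)
      have hyz : y ≠ 0 := by intro h; simp [h] at hy0
      have hden : ((((x : ℚ) / y : ℚ).den : ℕ) : ℝ) ≤ |(y : ℝ)| := by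
        have h := Rat.den_dvd x y
        rw [Rat.divInt_eq_div] at h
        rw [← Int.cast_abs]
        exact_mod_cast Int.le_of_dvd (abs_pos.2 hyz) ((dvd_abs _ _).2 h)
      refine lt_of_lt_of_le ?_ (Real.rpow_le_rpow_of_nonpos
        (by exact_mod_cast ((x : ℚ) / y : ℚ).pos) hden (by linarith))
      have h1 : |z.re - (((x : ℚ) / y : ℚ) : ℝ)| = ‖((x : ℂ) / y) - z‖ := by
        rw [abs_sub_comm, ← Real.norm_eq_abs, ← Complex.norm_real]
        conv_rhs => rw [hzα]
        push_cast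
        rfl
      rw [h1]
      by_contra hcon
      refine absurd ((le_max_right _ _).trans_lt hy) (not_lt.2 (lt_of_rpow_le hy0 (by linarith) ?_))
      have h2 := (mul_le_mul_of_nonneg_right (not_lt.1 hcon)
        (Real.rpow_nonneg hy0.le ((n : ℝ) - e'))).trans hle
      rw [← Real.rpow_add hy0] at h2
      have h3 := mul_le_mul_of_nonneg_right h2 (Real.rpow_nonneg hy0.le κ)
      rw [← Real.rpow_add hy0] at h3
      rwa [show -κ + ((n : ℝ) - e') + κ = (n : ℝ) - e' by ring] at h3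
    · refine ⟨∅, max 1 (Cc / |z.im|), fun _ x y hy hle => ?_⟩
      exfalso
      have hy1 : (1 : ℝ) ≤ |(y : ℝ)| := (le_max_left _ _).trans hy.le
      have h1 : |z.im| ≤ ‖((x : ℂ) / y) - z‖ := by
        refine le_trans (le_of_eq ?_) (Complex.abs_im_le_norm _)
        rw [show ((x : ℂ) / y) = (((x : ℝ) / y : ℝ) : ℂ) by push_cast; rfl]
        simp
      have h2 := (le_max_right _ _).trans_lt hy
      rw [div_lt_iff₀ (abs_pos.2 him)] at h2
      have h3 : |(y : ℝ)| ≤ |(y : ℝ)| ^ ((n : ℝ) - e') :=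
        Real.self_le_rpow_of_one_le hy1 (by linarith)
      have h4 := mul_le_mul h1 h3 (abs_nonneg _) (norm_nonneg _)
      linarith
  choose F Y hFY using hroots
  set R := g.roots.toFinset with hR
  have hg0 : g ≠ 0 := (Polynomial.map_ne_zero_iff Int.cast_injective).2 hf0
  set D := C' * K ^ e' with hD
  set B₁ := max 1 (max (2 * C') 0 ^ (1 / ((n : ℝ) - e'))) with hB₁
  set W : ℚ → ℝ := fun t =>
    max (D / |(((f.map (Int.castRingHom ℚ)).eval t : ℚ) : ℝ)|) 0 ^ (1 / ((n : ℝ) - e')) with hW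
  have hW0 : ∀ t, 0 ≤ W t := fun t => Real.rpow_nonneg (le_max_right _ _) _
  set B₂ := B₁ + ∑ z ∈ R, (|Y z| + ∑ t ∈ F z, W t) with hB₂
  have hB₁₂ : B₁ ≤ B₂ := le_add_of_nonneg_right
    (sum_nonneg fun z _ => add_nonneg (abs_nonneg _) (sum_nonneg fun t _ => hW0 t))
  obtain ⟨M, hM⟩ := exists_nat_ge (K * B₂)
  refine ((Set.finite_Icc (-(M : ℤ)) M).prod (Set.finite_Icc (-(M : ℤ)) M)).subset ?_
  rintro ⟨x, y⟩ hxy
  simp only [Set.mem_ofPred_eq] at hxy
  suffices h : max |(x : ℝ)| |(y : ℝ)| ≤ K * B₂ by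
    have h' := h.trans hM
    simp only [max_le_iff] at h'
    refine ⟨?_, ?_⟩ <;> simp only [Set.mem_Icc, ← abs_le]
    · exact_mod_cast h'.1
    · exact_mod_cast h'.2
  set m := max |(x : ℝ)| |(y : ℝ)| with hm
  rcases lt_or_ge m 1 with hm1 | hm1
  · have : (1 : ℝ) ≤ K * B₂ := one_le_mul_of_one_le_of_one_le hK1
      ((le_max_left _ _).trans hB₁₂)
    linarith
  have hFb : |(Thue.form f x y : ℝ)| ≤ C' * m ^ e' := hxy.trans (mul_le_mul (le_max_left _ _)
    (Real.rpow_le_rpow_of_exponent_le hm1 (le_max_left _ _))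
    (Real.rpow_nonneg (by linarith) _) hC'0)
  rcases le_or_gt (K * |(y : ℝ)|) |(x : ℝ)| with hcone | hcone
  · have hmx : m = |(x : ℝ)| :=
      max_eq_left (le_trans (le_mul_of_one_le_left (abs_nonneg _) hK1) hcone)
    have h1 : m ≤ B₁ := by
      refine (lt_of_rpow_le (C := 2 * C') (e := e') (d := n) (by linarith) (by linarith) ?_).trans
        (le_max_right _ _)
      rw [Real.rpow_natCast, hmx]
      have := hK x y hcone
      rw [hmx] at hFb
      linarith
    exact h1.trans (hB₁₂.trans (le_mul_of_one_le_left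
      (le_trans zero_le_one ((le_max_left _ _).trans hB₁₂)) hK1))
  · have hmy : m ≤ K * |(y : ℝ)| :=
      max_le hcone.le (le_mul_of_one_le_left (abs_nonneg _) hK1)
    have hy0 : (0 : ℝ) < |(y : ℝ)| := by
      by_contra h
      have := (abs_nonneg (y : ℝ)).antisymm' (not_lt.1 h)
      rw [this, mul_zero] at hmy
      linarith
    have hyz : y ≠ 0 := by intro h; simp [h] at hy0
    have hFy : |(Thue.form f x y : ℝ)| ≤ D * |(y : ℝ)| ^ e' := by
      refine hFb.trans ((mul_le_mul_of_nonneg_left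
        (Real.rpow_le_rpow (by linarith) hmy (le_max_right _ _)) hC'0).trans (le_of_eq ?_))
      rw [Real.mul_rpow (by linarith) hy0.le, hD]
      ring
    suffices h : |(y : ℝ)| ≤ B₂ from
      hmy.trans (mul_le_mul_of_nonneg_left h (by linarith))
    obtain ⟨z, hz, hzle⟩ := hnear ((x : ℂ) / y)
    have hzR : z ∈ R := Multiset.mem_toFinset.2 ((mem_roots hg0).2 hz)
    have hterm : |Y z| + ∑ t ∈ F z, W t ≤ ∑ z ∈ R, (|Y z| + ∑ t ∈ F z, W t) :=
      single_le_sum (f := fun z => |Y z| + ∑ t ∈ F z, W t)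
        (fun w _ => add_nonneg (abs_nonneg _) (sum_nonneg fun t _ => hW0 t)) hzR
    have hB₁0 : 0 ≤ B₁ := le_trans zero_le_one (le_max_left _ _)
    have hsum0 : 0 ≤ ∑ t ∈ F z, W t := sum_nonneg fun t _ => hW0 t
    rcases le_or_gt |(y : ℝ)| (Y z) with hsmall | hlarge
    · linarith [le_abs_self (Y z)]
    have hev : ‖g.eval ((x : ℂ) / y)‖ * |(y : ℝ)| ^ n = |(Thue.form f x y : ℝ)| := by
      have h := congrArg norm (Thue.form_eq_mul (K := ℂ) f x y hyz)
      rw [norm_mul, norm_pow, Complex.norm_intCast, Complex.norm_intCast] at h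
      rw [h, mul_comm]
    have hclose : ‖((x : ℂ) / y) - z‖ * |(y : ℝ)| ^ ((n : ℝ) - e') ≤ Cc := by
      rw [Real.rpow_sub hy0, Real.rpow_natCast, mul_div_assoc',
        div_le_iff₀ (Real.rpow_pos_of_pos hy0 _)]
      refine (mul_le_mul_of_nonneg_right hzle (by positivity)).trans ?_
      rw [mul_assoc, hev, hCc, mul_assoc]
      exact mul_le_mul_of_nonneg_left hFy hCn.le
    have hmem := hFY z hz x y hlarge hclose
    have hv : |(y : ℝ)| ^ n *
        |(((f.map (Int.castRingHom ℚ)).eval ((x : ℚ) / y) : ℚ) : ℝ)| ≤ D * |(y : ℝ)| ^ e' := by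
      have h := congrArg (fun q : ℚ => |(q : ℝ)|) (Thue.form_eq_mul (K := ℚ) f x y hyz)
      simp only [Rat.cast_intCast, Rat.cast_mul, Rat.cast_pow, abs_mul, abs_pow] at h
      rwa [← h]
    have hpos : 0 < |(((f.map (Int.castRingHom ℚ)).eval ((x : ℚ) / y) : ℚ) : ℝ)| :=
      abs_pos.2 (Rat.cast_ne_zero.2 (hroot _))
    have hb : |(y : ℝ)| ≤ W ((x : ℚ) / y) := by
      refine lt_of_rpow_le hy0 (by linarith) ?_
      rw [Real.rpow_natCast, div_mul_eq_mul_div, le_div_iff₀ hpos]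
      exact hv
    have hWs : W ((x : ℚ) / y) ≤ ∑ t ∈ F z, W t :=
      single_le_sum (f := W) (fun t _ => hW0 t) hmem
    linarith [abs_nonneg (Y z)]

/-- `∑ b ^ (-3 ^ k)` is transcendental. -/
theorem transcendental_tsum {b : ℕ} (hb : 2 ≤ b) :
    Transcendental ℚ (∑' k : ℕ, ((b : ℝ) ^ (3 ^ k))⁻¹) := by
  intro halg
  set a : ℕ → ℝ := fun k => ((b : ℝ) ^ (3 ^ k))⁻¹ with ha
  have hb2 : (2 : ℝ) ≤ b := by exact_mod_cast hb
  have hb0 : (0 : ℝ) < b := by linarith
  have hapos : ∀ k, 0 < a k := fun k => by positivity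
  have hgeo : ∀ N i, a (N + i) ≤ a N * (1 / 2) ^ i := by
    intro N i
    induction i with
    | zero => simp
    | succ i ih =>
      rw [pow_succ, ← mul_assoc]
      refine le_trans ?_ (mul_le_mul_of_nonneg_right ih (by norm_num))
      show ((b : ℝ) ^ 3 ^ (N + (i + 1)))⁻¹ ≤ ((b : ℝ) ^ 3 ^ (N + i))⁻¹ * (1 / 2)
      rw [one_div, ← mul_inv, ← Nat.add_assoc]
      refine inv_anti₀ (by positivity) ?_
      calc (b : ℝ) ^ 3 ^ (N + i) * 2 ≤ (b : ℝ) ^ 3 ^ (N + i) * b := by gcongr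
        _ = (b : ℝ) ^ (3 ^ (N + i) + 1) := (pow_succ _ _).symm
        _ ≤ (b : ℝ) ^ 3 ^ (N + i + 1) := by
            refine pow_le_pow_right₀ (by linarith) ?_
            rw [pow_succ]
            have : 0 < 3 ^ (N + i) := by positivity
            omega
  have hsum : Summable a := Summable.of_nonneg_of_le (fun k => (hapos k).le)
    (fun k => by simpa using hgeo 0 k) (summable_geometric_two.mul_left _)
  set α := ∑' k, a k with hα
  have htail : ∀ N, 0 < α - ∑ k ∈ range N, a k ∧ α - ∑ k ∈ range N, a k ≤ a N * 2 := by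
    intro N
    have h := hsum.sum_add_tsum_nat_add N
    have hs' : Summable fun k => a (k + N) := (summable_nat_add_iff N).2 hsum
    have e : α - ∑ k ∈ range N, a k = ∑' k, a (k + N) := by rw [hα, ← h]; ring
    rw [e]
    refine ⟨hs'.tsum_pos (fun k => (hapos _).le) 0 (hapos _), ?_⟩
    refine (hs'.tsum_le_tsum (fun k => by rw [add_comm]; exact hgeo N k)
      (summable_geometric_two.mul_left _)).trans (le_of_eq ?_)
    rw [tsum_mul_left, tsum_geometric_two]
  set s : ℕ → ℚ := fun N => ∑ k ∈ range (N + 1), ((b : ℚ) ^ (3 ^ k))⁻¹ with hs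
  have hsR : ∀ N, (s N : ℝ) = ∑ k ∈ range (N + 1), a k := fun N => by simp [s, a]
  have hden : ∀ N, ((s N).den : ℝ) ≤ (b : ℝ) ^ 3 ^ N := by
    intro N
    have e : s N = ((∑ k ∈ range (N + 1), (b : ℤ) ^ (3 ^ N - 3 ^ k) : ℤ) : ℚ) /
        (((b : ℤ) ^ 3 ^ N : ℤ) : ℚ) := by
      push_cast
      rw [sum_div]
      refine sum_congr rfl fun k hk => ?_
      have hk' : 3 ^ k ≤ 3 ^ N := Nat.pow_le_pow_right (by norm_num)
        (Nat.lt_succ_iff.1 (mem_range.1 hk))
      rw [eq_div_iff (by positivity), inv_mul_eq_div, div_eq_iff (by positivity), ← pow_add,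
        Nat.sub_add_cancel hk']
    have h := Rat.den_dvd (∑ k ∈ range (N + 1), (b : ℤ) ^ (3 ^ N - 3 ^ k)) ((b : ℤ) ^ 3 ^ N)
    rw [Rat.divInt_eq_div, ← e] at h
    have h2 := Int.le_of_dvd (by positivity) h
    exact_mod_cast h2
  have hfin := finite_approximations (κ := 5 / 2) halg (by norm_num)
  refine Set.infinite_of_injective_forall_mem (f := fun N => s (N + 2))
    (fun p q hpq => ?_) (fun N => ?_) hfin
  · have hmono : StrictMono s := strictMono_nat_of_lt_succ fun N => by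
      simp only [s]
      rw [sum_range_succ _ (N + 1)]
      exact lt_add_of_pos_right _ (by positivity)
    simpa using hmono.injective hpq
  · show |α - (s (N + 2) : ℝ)| < _
    obtain ⟨h1, h2⟩ := htail (N + 3)
    rw [hsR, abs_of_pos h1]
    refine h2.trans_lt (lt_of_lt_of_le ?_ (Real.rpow_le_rpow_of_nonpos
      (by exact_mod_cast (s (N + 2)).pos) (hden (N + 2)) (by norm_num)))
    show ((b : ℝ) ^ 3 ^ (N + 3))⁻¹ * 2 < _
    set q := 3 ^ (N + 2) with hq
    have hq2 : 9 ≤ q := (show 9 = 3 ^ 2 by norm_num) ▸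
      Nat.pow_le_pow_right (by norm_num) (by omega)
    have hq3 : 3 ^ (N + 3) = 3 * q := by rw [hq]; ring
    rw [hq3, ← Real.rpow_natCast _ (3 * q), ← Real.rpow_natCast _ q, ← Real.rpow_neg hb0.le,
      ← Real.rpow_mul hb0.le]
    calc (b : ℝ) ^ (-((3 * q : ℕ) : ℝ)) * 2 ≤ (b : ℝ) ^ (-((3 * q : ℕ) : ℝ)) * (b : ℝ) ^ (1 : ℝ) :=
          mul_le_mul_of_nonneg_left (by rw [Real.rpow_one]; exact hb2) (by positivity)
      _ < _ := by
          rw [← Real.rpow_add hb0]
          refine Real.rpow_lt_rpow_of_exponent_lt (by linarith) ?_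
          have : (9 : ℝ) ≤ q := by exact_mod_cast hq2
          push_cast
          linarith

end FA.Roth

end
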