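import Fermat.Agent.Roth.Finite
import Mathlib.Analysis.SpecificLimits.Basic
import Mathlib.NumberTheory.Real.Irrational
import Mathlib.RingTheory.Coprime.Lemmas

/-!
# Applications of Ridout's theorem

The distance of `(a / b) ^ n` to the nearest integer (Mahler), approximation by `b`-adic
fractions, and the transcendence of lacunary series such as Kempner's `∑ b ^ (-2 ^ k)`.
-/

set_option autoImplicit false

noncomputable section

namespace FA.Roth

open Finset

/-- The part of `n` supported on `S` divides `n`. -/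
theorem prod_factorization_dvd (S : Finset ℕ) (n : ℕ) :
    ∏ l ∈ S, l ^ n.factorization l ∣ n := by
  rcases Nat.eq_zero_or_pos n with rfl | hn
  · exact dvd_zero _
  have h1 : ∏ l ∈ S, l ^ n.factorization l =
      ∏ l ∈ S ∩ n.factorization.support, l ^ n.factorization l := by
    refine (prod_subset inter_subset_left fun l hl hl' => ?_).symm
    rw [mem_inter, Finsupp.mem_support_iff] at hl'
    push Not at hl'
    rw [hl' hl, pow_zero]
  rw [h1]
  conv_rhs => rw [← Nat.prod_factorization_pow_eq_self hn.ne']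
  exact prod_dvd_prod_of_subset _ _ _ inter_subset_right

/-- A divisor of a power is supported on the primes of the base. -/
theorem prod_factorization_eq {a d n : ℕ} (ha : a ≠ 0) (hd : d ∣ a ^ n) :
    ∏ l ∈ a.primeFactors, l ^ d.factorization l = d := by
  have hd0 : d ≠ 0 := ne_zero_of_dvd_ne_zero (pow_ne_zero n ha) hd
  refine Eq.trans ?_ (Nat.prod_factorization_pow_eq_self hd0)
  rw [Finsupp.prod]
  refine (prod_subset (fun l hl => ?_) fun l _ hl => ?_).symm
  · rw [Nat.support_factorization, Nat.mem_primeFactors] at hl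
    exact Nat.mem_primeFactors.2 ⟨hl.1, hl.1.dvd_of_dvd_pow (hl.2.1.trans hd), ha⟩
  · rw [Finsupp.notMem_support_iff.1 hl, pow_zero]

/-- Ridout's theorem in terms of the parts supported on a finite set of primes. -/
theorem finite_sPart {α : ℝ} (hα : IsAlgebraic ℚ α) (S : Finset ℕ) (hS : ∀ l ∈ S, 0 < l) {κ : ℝ}
    (hκ : 2 < κ) :
    {x : ℚ | |α - x| ≤ 1 ∧ |α - x| <
      ((∏ l ∈ S, l ^ x.num.natAbs.factorization l : ℕ) : ℝ) *
        ((∏ l ∈ S, l ^ x.den.factorization l : ℕ) : ℝ) * (x.den : ℝ) ^ (-κ)}.Finite := by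
  refine (finite_good hα (g := fun l : S => (l : ℕ)) (fun l => hS l l.2) hκ).subset
    fun x hx => ⟨hx.1, fun l => x.num.natAbs.factorization l, fun l => x.den.factorization l,
      ?_, ?_, ?_⟩
  · rw [prod_coe_sort S fun l => l ^ x.num.natAbs.factorization l, Int.natCast_dvd]
    exact prod_factorization_dvd S _
  · rw [prod_coe_sort S fun l => l ^ x.den.factorization l, one_mul]
    exact prod_factorization_dvd S _
  · rw [prod_coe_sort S fun l => l ^ x.num.natAbs.factorization l,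
      prod_coe_sort S fun l => l ^ x.den.factorization l]
    exact hx.2

theorem finite_lt_exp {δ ε : ℝ} (hδ : 0 < δ) (hε : 0 < ε) :
    {n : ℕ | δ < Real.exp (-(ε * n))}.Finite := by
  obtain ⟨N, hN⟩ := exists_nat_gt (-Real.log δ / ε)
  refine (Set.finite_Iic N).subset fun n hn => ?_
  have h := Real.log_lt_log hδ (Set.mem_ofPred_eq ▸ hn)
  rw [Real.log_exp] at h
  rw [div_lt_iff₀ hε] at hN
  refine Nat.le_of_lt_succ ?_
  have h1 : ε * n < ε * (N + 1) := by nlinarith
  exact_mod_cast lt_of_mul_lt_mul_left h1 hε.le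

/-- **Mahler's theorem**: the powers of a non-integral rational are not very near integers. -/
theorem finite_near_int {a b : ℕ} (hb : 2 ≤ b) (hab : b < a) (hcop : Nat.Coprime a b) {ε : ℝ}
    (hε : 0 < ε) :
    {n : ℕ | ∃ N : ℤ, |((a : ℝ) / b) ^ n - N| < Real.exp (-(ε * n))}.Finite := by
  classical
  set g : Option a.primeFactors → ℕ := fun i => i.elim b Subtype.val with hg_def
  have hg : ∀ i, 0 < g i := by
    rintro (_ | l)
    · exact (by omega : 0 < b)
    · exact (Nat.mem_primeFactors.1 l.2).1.pos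
  have ha1 : (1 : ℝ) < a := by exact_mod_cast (show 1 < a by omega)
  have hla : 0 < Real.log a := Real.log_pos ha1
  set κ := 2 + ε / Real.log a with hκ
  have hκ2 : 2 < κ := by have := div_pos hε hla; linarith
  have hfin := finite_good (α := 1) isAlgebraic_one hg hκ2
  refine ((Set.finite_singleton 0).union ((hfin.subset (Set.sep_subset _ fun x => x ≠ 1)).biUnion
    fun x hx => finite_lt_exp (δ := |(1 : ℝ) - x|) ?_ hε)).subset ?_
  · rw [abs_pos, sub_ne_zero]
    intro h
    exact hx.2 (by exact_mod_cast h.symm)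
  rintro n ⟨N, hN⟩
  rcases Nat.eq_zero_or_pos n with rfl | hn
  · exact Or.inl rfl
  refine Or.inr ?_
  set x : ℚ := (((b : ℤ) ^ n * N : ℤ) : ℚ) / (((a : ℤ) ^ n : ℤ) : ℚ) with hx
  have haQ : (((a : ℤ) ^ n : ℤ) : ℚ) ≠ 0 := by
    exact_mod_cast pow_ne_zero n (show a ≠ 0 by omega)
  have hden : x.den ∣ a ^ n := by
    have h := Rat.den_dvd ((b : ℤ) ^ n * N) ((a : ℤ) ^ n)
    rw [Rat.divInt_eq_div, ← hx] at h
    exact_mod_cast h
  have hid : x.num * (a : ℤ) ^ n = (b : ℤ) ^ n * N * x.den := by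
    have h : (x.num : ℚ) * (((a : ℤ) ^ n : ℤ) : ℚ) =
        (((b : ℤ) ^ n * N : ℤ) : ℚ) * (x.den : ℚ) := by
      rw [← Rat.mul_den_eq_num x, hx]
      field_simp
    exact_mod_cast h
  have hnum : (b : ℤ) ^ n ∣ x.num :=
    ((Nat.Coprime.isCoprime hcop).symm.pow).dvd_of_dvd_mul_right ⟨N * x.den, by rw [hid]; ring⟩
  have hbR : (0 : ℝ) < b := by exact_mod_cast (show 0 < b by omega)
  have haR : (0 : ℝ) < a := by linarith
  have hdist : |(1 : ℝ) - x| = ((b : ℝ) / a) ^ n * |((a : ℝ) / b) ^ n - N| := by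
    rw [← abs_of_nonneg (pow_nonneg (div_nonneg hbR.le haR.le) n), ← abs_mul]
    congr 1
    rw [hx]
    push_cast
    rw [div_pow, div_pow]
    field_simp
  have hba : ((b : ℝ) / a) ^ n ≤ 1 := pow_le_one₀ (by positivity)
    ((div_le_one haR).2 (by exact_mod_cast hab.le))
  have hsmall : |(1 : ℝ) - x| < ((b : ℝ) / a) ^ n * Real.exp (-(ε * n)) := by
    rw [hdist]
    exact mul_lt_mul_of_pos_left hN (pow_pos (div_pos hbR haR) n)
  have hlt : |(1 : ℝ) - x| < Real.exp (-(ε * n)) :=
    hsmall.trans_le (mul_le_of_le_one_left (Real.exp_pos _).le hba)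
  refine Set.mem_biUnion (x := x) ⟨⟨?_, ?_⟩, ?_⟩ hlt
  · exact hlt.le.trans (Real.exp_le_one_iff.2 (by
      have : (0 : ℝ) ≤ ε * n := by positivity
      linarith))
  · refine ⟨fun i => i.elim n fun _ => 0,
      fun i => i.elim 0 fun l => x.den.factorization l, ?_, ?_, ?_⟩
    · simpa [g, Fintype.prod_option] using hnum
    · simp only [g, Fintype.prod_option, Option.elim, pow_zero, one_mul]
      rw [prod_coe_sort a.primeFactors fun l => l ^ x.den.factorization l,
        prod_factorization_eq (show a ≠ 0 by omega) hden]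
    · simp only [g, Fintype.prod_option, Option.elim, pow_zero, prod_const_one, mul_one, one_mul]
      rw [prod_coe_sort a.primeFactors fun l => l ^ x.den.factorization l,
        prod_factorization_eq (show a ≠ 0 by omega) hden]
      push_cast
      refine hsmall.trans_le ?_
      have hd0 : (0 : ℝ) < x.den := by exact_mod_cast x.pos
      have hda : (x.den : ℝ) ≤ (a : ℝ) ^ n := by
        exact_mod_cast Nat.le_of_dvd (pow_pos (show 0 < a by omega) n) hden
      rw [div_pow, mul_assoc, div_mul_eq_mul_div, div_le_iff₀ (pow_pos haR n), mul_assoc]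
      refine mul_le_mul_of_nonneg_left ?_ (pow_nonneg hbR.le n)
      rw [← Real.rpow_one_add' hd0.le (by linarith)]
      have h1 : ((a : ℝ) ^ n) ^ (1 + -κ) ≤ (x.den : ℝ) ^ (1 + -κ) :=
        Real.rpow_le_rpow_of_nonpos hd0 hda (by linarith)
      refine le_trans (le_of_eq ?_) (mul_le_mul_of_nonneg_right h1 (pow_nonneg haR.le n))
      rw [← Real.rpow_add_one (pow_pos haR n).ne',
        Real.rpow_def_of_pos (pow_pos haR n), Real.log_pow, hκ]
      congr 1
      field_simp
      ring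
  · intro h1
    have h2 : (b : ℤ) ^ n * N = (a : ℤ) ^ n := by
      have h3 := hid
      rw [show x.num = 1 by rw [h1]; rfl, show x.den = 1 by rw [h1]; rfl] at h3
      simpa using h3.symm
    have h4 : (b : ℤ) ∣ (a : ℤ) ^ n := h2 ▸ (dvd_pow_self (b : ℤ) hn.ne').mul_right N
    have h5 : b ∣ a ^ n := by exact_mod_cast h4
    have h6 : b = 1 := Nat.Coprime.eq_one_of_dvd (hcop.symm.pow_right n) h5
    omega

/-- The condition of the formula for `g(k)` in Waring's problem holds for large `k`. -/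
theorem finite_waring :
    {k : ℕ | 2 ^ k < 3 ^ k % 2 ^ k + 3 ^ k / 2 ^ k}.Finite := by
  have hε : 0 < Real.log (4 / 3 : ℝ) := Real.log_pos (by norm_num)
  refine (finite_near_int (a := 3) (b := 2) le_rfl (by norm_num) (by norm_num) hε).subset
    fun k hk => ?_
  refine ⟨((3 ^ k / 2 ^ k : ℕ) : ℤ) + 1, ?_⟩
  set Q := 3 ^ k / 2 ^ k with hQ
  set r := 3 ^ k % 2 ^ k with hr
  have hk' : 2 ^ k < r + Q := hk
  have h2 : (0 : ℝ) < 2 ^ k := by positivity
  have hrk : (r : ℝ) + 1 ≤ 2 ^ k := by exact_mod_cast Nat.mod_lt (3 ^ k) (Nat.two_pow_pos k)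
  have hsum : (r : ℝ) + 2 ^ k * Q = 3 ^ k := by exact_mod_cast Nat.mod_add_div (3 ^ k) (2 ^ k)
  have hlt : (2 : ℝ) ^ k < r + Q := by exact_mod_cast hk'
  rw [show Real.exp (-(Real.log (4 / 3 : ℝ) * k)) = (3 / 4 : ℝ) ^ k by
    rw [neg_mul_eq_neg_mul, mul_comm, Real.exp_nat_mul, ← Real.log_inv,
      Real.exp_log (by norm_num)]
    norm_num]
  push_cast
  have e : ((3 : ℝ) / 2) ^ k - (Q + 1) = -((2 ^ k - r) / 2 ^ k) := by
    rw [div_pow]
    field_simp
    linarith
  rw [e, abs_neg, abs_of_nonneg (div_nonneg (by linarith) h2.le), div_lt_iff₀ h2, ← mul_pow]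
  calc (2 : ℝ) ^ k - r < Q := by linarith
    _ ≤ 3 ^ k / 2 ^ k := by rw [le_div_iff₀ h2]; linarith [Nat.cast_nonneg (α := ℝ) r]
    _ = (3 / 4 * 2) ^ k := by rw [← div_pow]; norm_num

/-- An algebraic number is approximated by `b`-adic fractions to no exponent beyond `1`. -/
theorem finite_adic {α : ℝ} (hα : IsAlgebraic ℚ α) {b : ℕ} (hb : 2 ≤ b) {κ : ℝ} (hκ : 1 < κ) :
    {n : ℕ | ∃ m : ℤ, α ≠ (m : ℝ) / (b : ℝ) ^ n ∧
      |α - (m : ℝ) / (b : ℝ) ^ n| < (b : ℝ) ^ (-(κ * n))}.Finite := by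
  classical
  have hb1 : (1 : ℝ) < b := by exact_mod_cast hb
  have hlb : 0 < Real.log b := Real.log_pos hb1
  have hg : ∀ l : b.primeFactors, 0 < (l : ℕ) := fun l => (Nat.mem_primeFactors.1 l.2).1.pos
  have hfin := finite_good (κ := κ + 1) hα hg (by linarith)
  refine ((hfin.subset (Set.sep_subset _ fun x : ℚ => α ≠ x)).biUnion fun x hx =>
    finite_lt_exp (δ := |α - x|) (abs_pos.2 (sub_ne_zero.2 hx.2))
      (mul_pos (lt_trans one_pos hκ) hlb)).subset ?_
  rintro n ⟨m, hne, hlt⟩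
  set x : ℚ := ((m : ℤ) : ℚ) / (((b : ℤ) ^ n : ℤ) : ℚ) with hx
  have hxR : (x : ℝ) = (m : ℝ) / (b : ℝ) ^ n := by simp [x]
  rw [← hxR] at hne hlt
  have hden : x.den ∣ b ^ n := by
    have h := Rat.den_dvd m ((b : ℤ) ^ n)
    rw [Rat.divInt_eq_div, ← hx] at h
    exact_mod_cast h
  have hexp : (b : ℝ) ^ (-(κ * n)) = Real.exp (-(κ * Real.log b * n)) := by
    rw [Real.rpow_def_of_pos (by linarith)]
    ring_nf
  refine Set.mem_biUnion (x := x) ⟨⟨hlt.le.trans (Real.rpow_le_one_of_one_le_of_nonpos hb1.le ?_),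
    0, fun l => x.den.factorization l, by simp, ?_, ?_⟩, hne⟩ (hlt.trans_eq hexp)
  · have : (0 : ℝ) ≤ κ * n := mul_nonneg (by linarith) (Nat.cast_nonneg n)
    linarith
  · rw [prod_coe_sort b.primeFactors fun l => l ^ x.den.factorization l,
      prod_factorization_eq (show b ≠ 0 by omega) hden, one_mul]
  · rw [prod_coe_sort b.primeFactors fun l => l ^ x.den.factorization l,
      prod_factorization_eq (show b ≠ 0 by omega) hden]
    have hd0 : (0 : ℝ) < x.den := by exact_mod_cast x.pos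
    simp only [Pi.zero_apply, pow_zero, prod_const_one, Nat.cast_one, one_mul]
    rw [← Real.rpow_one_add' hd0.le (by linarith)]
    refine hlt.trans_le ?_
    rw [show 1 + -(κ + 1) = -κ by ring, show -(κ * n) = (n : ℝ) * -κ by ring,
      Real.rpow_natCast_mul (by linarith)]
    exact Real.rpow_le_rpow_of_nonpos hd0
      (by exact_mod_cast Nat.le_of_dvd (pow_pos (show 0 < b by omega) n) hden) (by linarith)

/-- Lacunary series are transcendental. -/
theorem transcendental_tsum_of_gap {b : ℕ} (hb : 2 ≤ b) {c : ℝ} (hc : 1 < c) {e : ℕ → ℕ}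
    (he : ∀ k, 0 < e k) (hgap : ∀ k, c * (e k : ℝ) ≤ e (k + 1)) :
    Transcendental ℚ (∑' k : ℕ, ((b : ℝ) ^ e k)⁻¹) := by
  intro halg
  have hb2 : (2 : ℝ) ≤ b := by exact_mod_cast hb
  have hb0 : (0 : ℝ) < b := by linarith
  have hmono : StrictMono e := strictMono_nat_of_lt_succ fun k => by
    have h : (e k : ℝ) < e (k + 1) :=
      lt_of_lt_of_le (lt_mul_of_one_lt_left (by exact_mod_cast he k) hc) (hgap k)
    exact_mod_cast h
  set a : ℕ → ℝ := fun k => ((b : ℝ) ^ e k)⁻¹ with ha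
  have hapos : ∀ k, 0 < a k := fun k => by positivity
  have hgeo : ∀ N i, a (N + i) ≤ a N * (1 / 2) ^ i := by
    intro N i
    induction i with
    | zero => simp
    | succ i ih =>
      rw [pow_succ, ← mul_assoc]
      refine le_trans ?_ (mul_le_mul_of_nonneg_right ih (by norm_num))
      show ((b : ℝ) ^ e (N + (i + 1)))⁻¹ ≤ ((b : ℝ) ^ e (N + i))⁻¹ * (1 / 2)
      rw [one_div, ← mul_inv, ← Nat.add_assoc]
      refine inv_anti₀ (by positivity) ?_
      calc (b : ℝ) ^ e (N + i) * 2 ≤ (b : ℝ) ^ e (N + i) * b := by gcongr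
        _ = (b : ℝ) ^ (e (N + i) + 1) := (pow_succ _ _).symm
        _ ≤ _ := pow_le_pow_right₀ (by linarith) (hmono (Nat.lt_succ_self _))
  have hsum : Summable a := Summable.of_nonneg_of_le (fun k => (hapos k).le)
    (fun k => by simpa using hgeo 0 k) (summable_geometric_two.mul_left _)
  set α := ∑' k, a k with hα
  have htail : ∀ N, 0 < α - ∑ k ∈ range N, a k ∧ α - ∑ k ∈ range N, a k ≤ a N * 2 := by
    intro N
    have h := hsum.sum_add_tsum_nat_add N
    have hs' : Summable fun k => a (k + N) := (summable_nat_add_iff N).2 hsum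
    have e' : α - ∑ k ∈ range N, a k = ∑' k, a (k + N) := by rw [hα, ← h]; ring
    rw [e']
    refine ⟨hs'.tsum_pos (fun k => (hapos _).le) 0 (hapos _), ?_⟩
    refine (hs'.tsum_le_tsum (fun k => by rw [add_comm]; exact hgeo N k)
      (summable_geometric_two.mul_left _)).trans (le_of_eq ?_)
    rw [tsum_mul_left, tsum_geometric_two]
  set κ := (1 + c) / 2 with hκ
  obtain ⟨K, hK⟩ := exists_nat_gt (1 / (c - κ))
  refine Set.infinite_of_injective_forall_mem (f := fun N => e (N + K))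
    (fun p q hpq => by simpa using hmono.injective hpq) (fun N => ?_)
    (finite_adic halg hb (show 1 < κ by linarith))
  refine ⟨∑ k ∈ range (N + K + 1), (b : ℤ) ^ (e (N + K) - e k), ?_⟩
  set M := N + K with hM
  have hs : ((∑ k ∈ range (M + 1), (b : ℤ) ^ (e M - e k) : ℤ) : ℝ) / (b : ℝ) ^ e M =
      ∑ k ∈ range (M + 1), a k := by
    push_cast
    rw [sum_div]
    refine sum_congr rfl fun k hk => ?_
    have hk' : e k ≤ e M := hmono.monotone (Nat.lt_succ_iff.1 (mem_range.1 hk))
    show (b : ℝ) ^ (e M - e k) / (b : ℝ) ^ e M = ((b : ℝ) ^ e k)⁻¹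
    rw [eq_comm, eq_div_iff (by positivity), inv_mul_eq_div, div_eq_iff (by positivity),
      ← pow_add, Nat.sub_add_cancel hk']
  obtain ⟨h1, h2⟩ := htail (M + 1)
  rw [hs]
  refine ⟨fun h => by linarith, ?_⟩
  rw [abs_of_pos h1]
  refine h2.trans_lt ?_
  show ((b : ℝ) ^ e (M + 1))⁻¹ * 2 < _
  rw [← Real.rpow_natCast _ (e (M + 1)), ← Real.rpow_neg hb0.le]
  refine lt_of_le_of_lt (mul_le_mul_of_nonneg_left (show (2 : ℝ) ≤ (b : ℝ) ^ (1 : ℝ) by
    rwa [Real.rpow_one]) (by positivity)) ?_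
  rw [← Real.rpow_add hb0]
  refine Real.rpow_lt_rpow_of_exponent_lt (by linarith) ?_
  have hKM : (K : ℝ) ≤ e M := by
    exact_mod_cast (Nat.le_add_left K N).trans hmono.le_apply
  have h3 : 1 < (c - κ) * e M := by
    have h4 := lt_of_lt_of_le hK hKM
    rwa [div_lt_iff₀ (by linarith), mul_comm] at h4
  linarith [hgap M]

end FA.Roth

end
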