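import Fermat.Agent.Roth.Multi
import Fermat.Agent.Thue.Auxiliary
import Mathlib.RingTheory.AdjoinRoot
import Mathlib.Analysis.SpecialFunctions.Trigonometric.Bounds
import Mathlib.Analysis.SpecialFunctions.Trigonometric.DerivHyp
import Mathlib.Analysis.SpecialFunctions.Trigonometric.Series

/-!
# The auxiliary polynomial of Roth's theorem

A Chernoff bound shows that few multi-indices have weight less than `m (1 / 2 - ε)`; Siegel's
lemma then gives a polynomial in `m` variables with small coefficients all whose derivatives of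
such weight vanish at `(α, ..., α)` and whose monomials have weights near `m / 2`.
-/

set_option autoImplicit false

noncomputable section

namespace FA.Roth

open MvPolynomial Finset Matrix
open scoped Matrix.Norms.Elementwise

theorem hasse_monomial {σ R : Type*} [Fintype σ] [CommRing R] (j s : σ →₀ ℕ) (c : R) :
    hasse j (monomial s c) = monomial (s - j) (((∏ h, (s h).choose (j h) : ℕ) : R) * c) := by
  classical
  ext ν
  rw [coeff_hasse, coeff_monomial, coeff_monomial]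
  by_cases hle : j ≤ s
  · by_cases hν : s - j = ν
    · subst hν
      rw [add_tsub_cancel_of_le hle, if_pos rfl, if_pos rfl]
      congr 2
      exact prod_congr rfl fun h _ => by rw [Finsupp.tsub_apply, Nat.add_sub_cancel' (hle h)]
    · rw [if_neg hν, if_neg, mul_zero]
      rintro rfl
      exact hν (add_tsub_cancel_left j ν)
  · obtain ⟨h, hh⟩ : ∃ h, ¬j h ≤ s h := by by_contra! h'; exact hle h'
    have h0 : ∏ h, (s h).choose (j h) = 0 :=
      prod_eq_zero (mem_univ h) (Nat.choose_eq_zero_of_lt (not_le.1 hh))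
    rw [h0, if_neg (fun e : s = j + ν => hle (by rw [e]; exact le_self_add)), mul_zero,
      Nat.cast_zero, zero_mul, ite_self]

/-- The moment generating function of a uniform variable on `{0, 1 / r, ..., 1}`. -/
theorem sum_exp_le {r : ℕ} (hr : 0 < r) (t : ℝ) :
    ∑ i : Fin (r + 1), Real.exp (-(t * ((i : ℕ) / (r : ℝ) - 1 / 2))) ≤
      (r + 1) * Real.exp (t ^ 2 / 8) := by
  set u : Fin (r + 1) → ℝ := fun i => t * ((i : ℕ) / (r : ℝ) - 1 / 2) with hu
  have hr' : (0 : ℝ) < r := by exact_mod_cast hr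
  have hrev : ∀ i, u i.rev = -u i := fun i => by
    have h : ((i.rev : ℕ) : ℝ) = r - (i : ℕ) := by
      rw [Fin.val_rev, Nat.succ_sub_succ, Nat.cast_sub (Nat.lt_succ_iff.1 i.isLt)]
    show t * ((i.rev : ℕ) / (r : ℝ) - 1 / 2) = -(t * ((i : ℕ) / (r : ℝ) - 1 / 2))
    rw [h]
    field_simp
    ring
  have h2 : ∑ i, Real.exp (-u i) = ∑ i, Real.cosh (u i) := by
    have h1 : ∑ i, Real.exp (-u i) = ∑ i, Real.exp (u i) :=
      (Fintype.sum_equiv Fin.revPerm _ _ fun i => by simp [hrev])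
    simp only [Real.cosh_eq, ← sum_div, sum_add_distrib, ← h1]
    ring
  rw [h2]
  refine (sum_le_card_nsmul _ _ (Real.exp (t ^ 2 / 8)) fun i _ => ?_).trans (by simp)
  refine (Real.cosh_le_exp_half_sq _).trans (Real.exp_le_exp.2 ?_)
  have h3 : ((i : ℕ) / (r : ℝ) - 1 / 2) ^ 2 ≤ 1 / 4 := by
    have h0 : (0 : ℝ) ≤ (i : ℕ) / (r : ℝ) := by positivity
    have h1 : ((i : ℕ) : ℝ) / r ≤ 1 := by
      rw [div_le_one hr']
      exact_mod_cast Nat.lt_succ_iff.1 i.isLt
    nlinarith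
  calc (u i) ^ 2 / 2 = t ^ 2 * ((i : ℕ) / (r : ℝ) - 1 / 2) ^ 2 / 2 := by rw [hu]; ring
    _ ≤ t ^ 2 * (1 / 4) / 2 := by gcongr
    _ = t ^ 2 / 8 := by ring

/-- Few multi-indices have small weight. -/
theorem card_lowWeight_le {m : ℕ} {r : Fin m → ℕ} (hr : ∀ h, 0 < r h) {ε : ℝ} (hε : 0 ≤ ε) :
    (Fintype.card {j : ∀ h, Fin (r h + 1) //
      ∑ h, ((j h : ℕ) : ℝ) / r h < m * (1 / 2 - ε)} : ℝ) ≤
      (∏ h, ((r h : ℝ) + 1)) * Real.exp (-(2 * ε ^ 2 * m)) := by
  classical
  set t := 4 * ε with ht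
  have hprod : ∑ j : ∀ h, Fin (r h + 1), ∏ h, Real.exp (-(t * ((j h : ℕ) / (r h : ℝ) - 1 / 2))) ≤
      (∏ h, ((r h : ℝ) + 1)) * Real.exp (2 * ε ^ 2 * m) := by
    rw [← Fintype.piFinset_univ, ← prod_univ_sum (f := fun h (i : Fin (r h + 1)) =>
      Real.exp (-(t * ((i : ℕ) / (r h : ℝ) - 1 / 2))))]
    refine (prod_le_prod (fun h _ => sum_nonneg fun _ _ => (Real.exp_pos _).le)
      fun h _ => sum_exp_le (hr h) t).trans (le_of_eq ?_)
    rw [prod_mul_distrib, ← Real.exp_sum, sum_const, Finset.card_univ, Fintype.card_fin,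
      nsmul_eq_mul, ht]
    ring_nf
  rw [Fintype.card_subtype]
  set J := univ.filter fun j : ∀ h, Fin (r h + 1) => ∑ h, ((j h : ℕ) : ℝ) / r h < m * (1 / 2 - ε)
  have hlow : (J.card : ℝ) * Real.exp (4 * ε ^ 2 * m) ≤
      ∑ j : ∀ h, Fin (r h + 1), ∏ h, Real.exp (-(t * ((j h : ℕ) / (r h : ℝ) - 1 / 2))) := by
    refine le_trans ?_ (sum_le_sum_of_subset_of_nonneg (subset_univ J)
      fun _ _ _ => prod_nonneg fun _ _ => (Real.exp_pos _).le)
    rw [← nsmul_eq_mul]
    refine card_nsmul_le_sum _ _ _ fun j hj => ?_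
    rw [← Real.exp_sum, Real.exp_le_exp, sum_neg_distrib, ← mul_sum, sum_sub_distrib, sum_const,
      Finset.card_univ, Fintype.card_fin, nsmul_eq_mul, ht]
    have := (mem_filter.1 hj).2
    nlinarith
  have h := mul_le_mul_of_nonneg_right (hlow.trans hprod) (Real.exp_pos (-(4 * ε ^ 2 * m))).le
  rw [mul_assoc (J.card : ℝ), ← Real.exp_add, mul_assoc (∏ h, ((r h : ℝ) + 1)), ← Real.exp_add,
    add_neg_cancel, Real.exp_zero, mul_one] at h
  rw [show 2 * ε ^ 2 * (m : ℝ) + -(4 * ε ^ 2 * m) = -(2 * ε ^ 2 * m) by ring] at h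
  exact h

/-- **The auxiliary polynomial.** -/
theorem exists_auxiliary {μ : Polynomial ℤ} (hmon : μ.Monic) {n : ℕ} (hn : μ.natDegree = n)
    (hn0 : 0 < n) {ε : ℝ} (hε : 0 < ε) (hε2 : ε < 1 / 2) {m : ℕ}
    (hm : ((n : ℝ) + 1) / ε ^ 2 < m) :
    ∃ C : ℝ, 1 ≤ C ∧ ∀ r : Fin m → ℕ, (∀ h, 0 < r h) →
      ∃ P : MvPolynomial (Fin m) ℤ, P ≠ 0 ∧ BoxDeg r P ∧ len P ≤ C ^ ∑ h, r h ∧
        (∀ s, coeff s P ≠ 0 →
          m * (1 / 2 - ε) ≤ weight r s ∧ weight r s ≤ m * (1 / 2 + ε)) ∧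
        ∀ {K : Type*} [CommRing K] (α : K), Polynomial.aeval α μ = 0 → ∀ j : Fin m →₀ ℕ,
          weight r j < m * (1 / 2 - ε) → aeval (fun _ => α) (hasse j P) = 0 := by
  classical
  obtain ⟨c, c₀, hc₀, hpow, hc⟩ := Thue.exists_power_coeff hmon hn hn0
  refine ⟨8 * c₀, by linarith, fun r hr => ?_⟩
  set S := ∑ h, r h
  let box := ∀ h, Fin (r h + 1)
  let toF : box → (Fin m →₀ ℕ) := fun i => Finsupp.equivFunOnFinite.symm fun h => (i h : ℕ)
  have htoF : Function.Injective toF := fun a b h => funext fun k => Fin.ext (by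
    simpa [toF] using DFunLike.congr_fun h k)
  have htoFle : ∀ i h, toF i h ≤ r h := fun i h => Nat.lt_succ_iff.1 (i h).isLt
  let J := {j : box // ∑ h, ((j h : ℕ) : ℝ) / r h < m * (1 / 2 - ε)}
  let mid : Finset box := univ.filter fun i => m * (1 / 2 - ε) ≤ ∑ h, ((i h : ℕ) : ℝ) / r h ∧
    ∑ h, ((i h : ℕ) : ℝ) / r h ≤ m * (1 / 2 + ε)
  let Mat : Matrix (J × Fin n) mid ℤ := fun jl i =>
    ((∏ h, (i.1 h : ℕ).choose (jl.1.1 h : ℕ) : ℕ) : ℤ) *
      c (∑ h, ((i.1 h : ℕ) - (jl.1.1 h : ℕ))) jl.2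
  have hm0 : (0 : ℝ) < m := lt_of_le_of_lt (by positivity) hm
  have hcard : (Fintype.card box : ℝ) = ∏ h, ((r h : ℝ) + 1) := by simp [box]
  have hN : (Fintype.card box : ℝ) ≤ 2 ^ S := by
    rw [hcard, ← prod_pow_eq_pow_sum]
    exact prod_le_prod (fun h _ => by positivity) fun h _ => by
      exact_mod_cast Nat.lt_two_pow_self (n := r h)
  have hout : Fintype.card box ≤ Fintype.card mid + 2 * Fintype.card J := by
    have hw : ∀ i : box, ∑ h, (((i h).rev : ℕ) : ℝ) / r h = m - ∑ h, ((i h : ℕ) : ℝ) / r h := by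
      intro i
      rw [eq_sub_iff_add_eq, ← sum_add_distrib]
      refine (sum_congr rfl fun h _ => ?_).trans (by simp : ∑ _h : Fin m, (1 : ℝ) = m)
      have hrh : (0 : ℝ) < r h := by exact_mod_cast hr h
      rw [← add_div, div_eq_one_iff_eq hrh.ne', Fin.val_rev, Nat.succ_sub_succ,
        Nat.cast_sub (Nat.lt_succ_iff.1 (i h).isLt), sub_add_cancel]
    let lo : Finset box := univ.filter fun i => ∑ h, ((i h : ℕ) : ℝ) / r h < m * (1 / 2 - ε)
    have hsub : (univ : Finset box) ⊆ mid ∪ (lo ∪ lo.image fun i h => (i h).rev) := by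
      intro i _
      by_cases h1 : ∑ h, ((i h : ℕ) : ℝ) / r h < m * (1 / 2 - ε)
      · exact mem_union_right _ (mem_union_left _ (mem_filter.2 ⟨mem_univ i, h1⟩))
      by_cases h2 : ∑ h, ((i h : ℕ) : ℝ) / r h ≤ m * (1 / 2 + ε)
      · exact mem_union_left _ (mem_filter.2 ⟨mem_univ i, not_lt.1 h1, h2⟩)
      refine mem_union_right _ (mem_union_right _ (mem_image.2 ⟨fun h => (i h).rev,
        mem_filter.2 ⟨mem_univ _, ?_⟩, funext fun h => Fin.rev_rev (i h)⟩))
      rw [hw]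
      linarith [not_le.1 h2]
    rw [← Finset.card_univ, Fintype.card_coe, Fintype.card_subtype]
    refine (card_le_card hsub).trans ((card_union_le _ _).trans (Nat.add_le_add_left
      ((card_union_le _ _).trans ?_) _))
    have h3 : (lo.image fun i h => (i h).rev).card ≤ lo.card := card_image_le
    show lo.card + (lo.image fun i h => (i h).rev).card ≤ 2 * lo.card
    omega
  have hhalf : 2 * (Fintype.card (J × Fin n) : ℝ) ≤ Fintype.card mid := by
    rw [Fintype.card_prod, Fintype.card_fin, Nat.cast_mul]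
    have h0 : (Fintype.card box : ℝ) ≤ Fintype.card mid + 2 * Fintype.card J := by
      exact_mod_cast hout
    rw [hcard] at h0
    have h1 := card_lowWeight_le hr hε.le
    have hx : 0 < 2 * ε ^ 2 * m := by positivity
    have h2 : Real.exp (-(2 * ε ^ 2 * m)) ≤ (2 * ε ^ 2 * m)⁻¹ := by
      rw [Real.exp_neg]
      exact inv_anti₀ hx (by linarith [Real.add_one_le_exp (2 * ε ^ 2 * (m : ℝ))])
    have h3 : 2 * ((n : ℝ) + 1) * (2 * ε ^ 2 * m)⁻¹ ≤ 1 := by
      rw [← div_eq_mul_inv, div_le_one hx]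
      rw [div_lt_iff₀ (by positivity)] at hm
      linarith
    have h4 : 2 * ((Fintype.card J : ℝ) * ((n : ℝ) + 1)) ≤ ∏ h, ((r h : ℝ) + 1) :=
      calc 2 * ((Fintype.card J : ℝ) * ((n : ℝ) + 1)) ≤
            2 * ((∏ h, ((r h : ℝ) + 1)) * (2 * ε ^ 2 * m)⁻¹ * ((n : ℝ) + 1)) := by
            gcongr
            exact h1.trans (mul_le_mul_of_nonneg_left h2 (by positivity))
        _ = (∏ h, ((r h : ℝ) + 1)) * (2 * ((n : ℝ) + 1) * (2 * ε ^ 2 * m)⁻¹) := by ring
        _ ≤ _ := mul_le_of_le_one_right (by positivity) h3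
    linarith
  have hJ0 : 0 < Fintype.card (J × Fin n) := by
    rw [Fintype.card_prod, Fintype.card_fin]
    refine Nat.mul_pos (Fintype.card_pos_iff.2 ⟨⟨fun h => 0, ?_⟩⟩) hn0
    simp
    nlinarith
  have hlt : Fintype.card (J × Fin n) < Fintype.card mid := by
    have : (2 * Fintype.card (J × Fin n) : ℕ) ≤ Fintype.card mid := by exact_mod_cast hhalf
    omega
  obtain ⟨t, ht0, htM, htb⟩ := Int.Matrix.exists_ne_zero_int_vec_norm_le Mat hlt hJ0
  have hMb : max 1 ‖Mat‖ ≤ (2 * c₀) ^ S := by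
    refine max_le (one_le_pow₀ (by linarith))
      ((Matrix.norm_le_iff (by positivity)).2 fun jl i => ?_)
    rw [Int.norm_eq_abs]
    simp only [Mat]
    push_cast
    rw [abs_mul, mul_pow]
    refine mul_le_mul ?_ ((hc _ _ jl.2.isLt).trans (pow_le_pow_right₀ hc₀
      (sum_le_sum fun h _ => (Nat.sub_le _ _).trans (htoFle i.1 h)))) (abs_nonneg _) (by positivity)
    rw [abs_of_nonneg (by positivity), ← prod_pow_eq_pow_sum]
    refine prod_le_prod (fun h _ => by positivity) fun h _ => ?_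
    exact_mod_cast (Nat.choose_le_two_pow _ _).trans (Nat.pow_le_pow_right two_pos (htoFle i.1 h))
  have hN' : (Fintype.card mid : ℝ) ≤ 2 ^ S := le_trans (by
    exact_mod_cast (Fintype.card_subtype_le _)) hN
  have hbase : (Fintype.card mid : ℝ) * max 1 ‖Mat‖ ≤ (4 * c₀) ^ S := by
    refine (mul_le_mul hN' hMb (zero_le_one.trans (le_max_left _ _)) (by positivity)).trans
      (le_of_eq ?_)
    rw [← mul_pow]
    ring_nf
  have ht : ‖t‖ ≤ (4 * c₀) ^ S := by
    have h1 : (Fintype.card (J × Fin n) : ℝ) < Fintype.card mid := by exact_mod_cast hlt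
    refine htb.trans ((Real.rpow_le_rpow (by positivity) hbase
      (div_nonneg (Nat.cast_nonneg _) (by linarith))).trans ?_)
    refine (Real.rpow_le_rpow_of_exponent_le (one_le_pow₀ (by linarith)) ?_).trans
      (le_of_eq (Real.rpow_one _))
    rw [div_le_one (by linarith)]
    linarith
  set P : MvPolynomial (Fin m) ℤ := ∑ i : mid, monomial (toF i.1) (t i) with hP
  have hcoeff : ∀ i : mid, coeff (toF i.1) P = t i := fun i => by
    simp only [P, coeff_sum, coeff_monomial, htoF.eq_iff, Subtype.val_inj]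
    rw [sum_eq_single_of_mem i (mem_univ i) fun b _ hb => if_neg hb, if_pos rfl]
  have hmem : ∀ s, coeff s P ≠ 0 → ∃ i : mid, toF i.1 = s := fun s hs => by
    simp only [P, coeff_sum, coeff_monomial] at hs
    obtain ⟨i, -, hi⟩ := exists_ne_zero_of_sum_ne_zero hs
    exact ⟨i, by_contra fun e => hi (if_neg e)⟩
  have hbox : BoxDeg r P := fun s hs h => by
    obtain ⟨i, rfl⟩ := hmem s hs
    exact htoFle i.1 h
  refine ⟨P, fun e => ht0 (funext fun i => ?_), hbox, ?_, fun s hs => ?_, fun {K} _ α hα j hj => ?_⟩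
  · rw [← hcoeff i, e]
    simp
  · refine (len_sum_le _ _).trans ((sum_le_sum fun i _ => len_monomial_le _ _).trans
      ((sum_le_card_nsmul _ _ ((4 * c₀) ^ S) fun i _ => ?_).trans ?_))
    · rw [← Int.norm_eq_abs]
      exact (norm_le_pi_norm t i).trans ht
    · rw [nsmul_eq_mul, Finset.card_univ, show (8 : ℝ) * c₀ = 2 * (4 * c₀) by ring,
        mul_pow (2 : ℝ) (4 * c₀)]
      exact mul_le_mul_of_nonneg_right hN' (pow_nonneg (show (0 : ℝ) ≤ 4 * c₀ by linarith) S)
  · obtain ⟨i, rfl⟩ := hmem s hs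
    exact (mem_filter.1 i.2).2
  · by_cases hne : hasse j P = 0
    · rw [hne, map_zero]
    have hle := hbox.le_of_hasse_ne_zero hne
    set j' : box := fun h => ⟨j h, Nat.lt_succ_of_le (hle h)⟩
    have hpow' : ∀ k, α ^ k = ∑ l : Fin n, (c k l : K) * α ^ (l : ℕ) := fun k => by
      let g : AdjoinRoot μ →+* K :=
        AdjoinRoot.lift (algebraMap ℤ K) α (by rwa [← Polynomial.aeval_def])
      have h := congrArg g (hpow (AdjoinRoot.root μ)
        (AdjoinRoot.aeval_eq μ ▸ AdjoinRoot.mk_self) k)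
      simpa [g, map_sum, map_mul, map_intCast] using h
    have hterm : ∀ i : mid, aeval (fun _ : Fin m => α) (hasse j (monomial (toF i.1) (t i))) =
        ∑ l : Fin n, ((Mat (⟨j', hj⟩, l) i * t i : ℤ) : K) * α ^ (l : ℕ) := by
      intro i
      rw [hasse_monomial, aeval_monomial, Finsupp.prod_fintype _ _ (fun _ => pow_zero _),
        prod_pow_eq_pow_sum, hpow' _, mul_sum]
      refine sum_congr rfl fun l _ => ?_
      simp [Mat, toF, j']
      ring
    rw [map_sum, map_sum, sum_congr rfl fun i _ => hterm i, sum_comm]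
    refine sum_eq_zero fun l _ => ?_
    rw [← sum_mul, ← Int.cast_sum]
    have h0 := congrFun htM (⟨j', hj⟩, l)
    simp only [mulVec, dotProduct, Pi.zero_apply] at h0
    rw [h0, Int.cast_zero, zero_mul]

end FA.Roth

end
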