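import Fermat.Agent.Roth.Multi
import Mathlib.Analysis.Normed.Field.Basic
import Mathlib.Analysis.SpecialFunctions.Exp
import Mathlib.RingTheory.MvPolynomial.Tower

/-!
# The value of the auxiliary polynomial near the point of vanishing

The estimates are uniform in a normed field in which the integers have their usual bounds.
-/

set_option autoImplicit false

noncomputable section

namespace FA.Roth

open MvPolynomial Finset

variable {K : Type*} [NormedField K]

/-- The value of an integer polynomial with bounded partial degrees. -/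
theorem norm_aeval_le_prod (hK : ∀ z : ℤ, ‖(z : K)‖ ≤ |(z : ℝ)|) {σ : Type*} [Fintype σ]
    {r : σ → ℕ} {P : MvPolynomial σ ℤ} (hP : BoxDeg r P) (x : σ → K) :
    ‖aeval x P‖ ≤ len P * ∏ k, max 1 ‖x k‖ ^ r k := by
  rw [aeval_def, eval₂_eq', len, sum_mul]
  refine (norm_sum_le _ _).trans (sum_le_sum fun s hs => ?_)
  rw [norm_mul, norm_prod, algebraMap_int_eq, eq_intCast]
  refine mul_le_mul (hK _) (prod_le_prod (fun k _ => norm_nonneg _) fun k _ => ?_)
    (prod_nonneg fun _ _ => norm_nonneg _) (abs_nonneg _)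
  rw [norm_pow]
  exact (pow_le_pow_left₀ (norm_nonneg _) (le_max_right _ _) _).trans
    (pow_le_pow_right₀ (le_max_left _ _) (hP s (mem_support_iff.1 hs) k))

theorem norm_aeval_le (hK : ∀ z : ℤ, ‖(z : K)‖ ≤ |(z : ℝ)|) {σ : Type*} [Fintype σ]
    {r : σ → ℕ} {P : MvPolynomial σ ℤ} (hP : BoxDeg r P) {A : ℝ} (hA : 1 ≤ A) {x : σ → K}
    (hx : ∀ k, ‖x k‖ ≤ A) : ‖aeval x P‖ ≤ len P * A ^ ∑ k, r k := by
  refine (norm_aeval_le_prod hK hP x).trans (mul_le_mul_of_nonneg_left ?_ (len_nonneg P))
  rw [← prod_pow_eq_pow_sum]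
  exact prod_le_prod (fun k _ => by positivity) fun k _ =>
    pow_le_pow_left₀ (zero_le_one.trans (le_max_left _ _)) (max_le hA (hx k)) _

/-- A derivative of small order of the auxiliary polynomial is small at good approximations. -/
theorem norm_aeval_hasse_le (hK : ∀ z : ℤ, ‖(z : K)‖ ≤ |(z : ℝ)|) {m : ℕ} {r : Fin m → ℕ}
    {P : MvPolynomial (Fin m) ℤ} (hP : BoxDeg r P) {α : K} {A θ : ℝ} (hA1 : 1 ≤ A)
    (hαA : ‖α‖ ≤ A) (hvan : ∀ ν, weight r ν < θ → aeval (fun _ => α) (hasse ν P) = 0)
    {x : Fin m → K} {E : ℝ} (hE : 0 ≤ E) (hr : ∀ h, 0 < r h) (L : Fin m → ℝ)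
    (hL : ∀ h, E ≤ r h * L h) (hx : ∀ h, ‖x h - α‖ ≤ Real.exp (-L h))
    (μ : Fin m →₀ ℕ) :
    ‖aeval x (hasse μ P)‖ ≤
      (8 * A) ^ (∑ h, r h) * len P * Real.exp (-((θ - weight r μ) * E)) := by
  classical
  set S := ∑ h, r h
  set G := hasse μ P
  set GR := MvPolynomial.map (Int.castRingHom K) G with hGR
  set T := taylor (fun _ : Fin m => α) GR with hT
  have hev : aeval x G = eval (fun h => x h - α) T := by
    have hcomp : (aeval fun h => x h - α).comp (taylor fun _ : Fin m => α) = aeval x :=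
      MvPolynomial.algHom_ext fun h => by simp [taylor]
    have h := DFunLike.congr_fun hcomp GR
    rw [AlgHom.comp_apply] at h
    rw [← aeval_map_algebraMap K x G, algebraMap_int_eq, ← hGR, ← h]
    rfl
  have hcoef : ∀ ν, coeff ν T = aeval (fun _ : Fin m => α) (hasse ν G) := fun ν => by
    rw [hT, coeff_taylor, hGR, hasse_map, eval_map, aeval_def, algebraMap_int_eq]
  have hsupp : T.support ⊆ ((Fintype.piFinset fun h : Fin m => range (r h + 1)).map
      Finsupp.equivFunOnFinite.symm.toEmbedding) := fun ν hν => by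
    rw [mem_map_equiv, Equiv.symm_symm, Fintype.mem_piFinset]
    intro h
    rw [mem_range, Nat.lt_succ_iff]
    rw [mem_support_iff, hcoef] at hν
    exact (hP.hasse μ).le_of_hasse_ne_zero (fun e => hν (by rw [e, map_zero])) h
  rw [hev, eval_eq']
  refine (norm_sum_le _ _).trans ((sum_le_card_nsmul _ _
    ((4 * A) ^ S * len P * Real.exp (-((θ - weight r μ) * E))) fun ν _ => ?_).trans ?_)
  · rw [hcoef, norm_mul]
    rcases lt_or_ge (weight r (μ + ν)) θ with hlt | hge
    · rw [hasse_hasse, map_smul, hvan _ hlt, smul_zero, norm_zero, zero_mul]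
      exact mul_nonneg (mul_nonneg (by positivity) (len_nonneg P)) (Real.exp_pos _).le
    refine mul_le_mul ?_ ?_ (norm_nonneg _)
      (mul_nonneg (by positivity) (len_nonneg P))
    · refine (norm_aeval_le hK ((hP.hasse μ).hasse ν) hA1 fun _ => hαA).trans ?_
      rw [show (4 : ℝ) * A = 2 * 2 * A by ring, mul_pow, mul_pow, mul_assoc, mul_comm (A ^ S),
        ← mul_assoc]
      refine mul_le_mul_of_nonneg_right ((len_hasse_le (hP.hasse μ) ν).trans ?_) (by positivity)
      rw [mul_assoc]
      exact mul_le_mul_of_nonneg_left (len_hasse_le hP μ) (by positivity)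
    · rw [norm_prod]
      refine (prod_le_prod (fun h _ => norm_nonneg _) fun h _ => (norm_pow _ _).trans_le
        (pow_le_pow_left₀ (norm_nonneg _) (hx h) _)).trans ?_
      simp only [← Real.exp_nat_mul]
      rw [← Real.exp_sum, Real.exp_le_exp]
      rw [weight_add] at hge
      calc ∑ h, (ν h : ℝ) * -L h ≤ ∑ h, -((ν h : ℝ) / r h * E) := sum_le_sum fun h _ => by
            have hrh : (0 : ℝ) < r h := by exact_mod_cast hr h
            rw [mul_neg, neg_le_neg_iff, div_mul_eq_mul_div, div_le_iff₀ hrh, mul_assoc,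
              mul_comm (L h)]
            exact mul_le_mul_of_nonneg_left (hL h) (Nat.cast_nonneg _)
        _ = -(weight r ν * E) := by rw [sum_neg_distrib, weight, sum_mul]
        _ ≤ _ := neg_le_neg (mul_le_mul_of_nonneg_right (by linarith) hE)
  · have hcard : T.support.card ≤ 2 ^ S := by
      refine (card_le_card hsupp).trans ?_
      rw [card_map, Fintype.card_piFinset, ← prod_pow_eq_pow_sum]
      exact prod_le_prod' fun h _ => by
        rw [card_range]
        exact Nat.lt_two_pow_self
    rw [nsmul_eq_mul, show (8 : ℝ) * A = 2 * (4 * A) by ring, mul_pow (2 : ℝ) (4 * A)]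
    simp only [mul_assoc ((2 : ℝ) ^ S)]
    exact mul_le_mul_of_nonneg_right (by exact_mod_cast hcard)
      (mul_nonneg (mul_nonneg (by positivity) (len_nonneg P)) (Real.exp_pos _).le)

end FA.Roth

end
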