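import Mathlib.Analysis.SpecialFunctions.Log.Basic
import Mathlib.Data.Fin.Rev
import Mathlib.Algebra.Order.Floor.Semiring

/-!
# The choice of the approximations and of the degrees in Roth's method

From objects of arbitrarily large size `l` one chooses `m` with rapidly decreasing sizes and
degrees `r h` with all products `r h * l (x h)` nearly equal.
-/

set_option autoImplicit false

noncomputable section

namespace FA.Roth

variable {T : Type*} {p : T → Prop} {l : T → ℝ}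

/-- Objects with rapidly increasing sizes. -/
theorem exists_seq (h : ∀ B : ℝ, ∃ x, p x ∧ B ≤ l x) {c : ℝ} (hc : 1 ≤ c) (M : ℝ) :
    ∃ u : ℕ → T, (∀ i, p (u i)) ∧ (∀ i, max M 1 ≤ l (u i)) ∧
      ∀ i j, i < j → c * l (u i) ≤ l (u j) := by
  choose f hf hfb using h
  set u : ℕ → T := fun i => Nat.rec (f (max M 1)) (fun _ x => f (max (max M 1) (c * l x))) i
  have hus : ∀ i, u (i + 1) = f (max (max M 1) (c * l (u i))) := fun i => rfl
  have hM : ∀ i, max M 1 ≤ l (u i) := by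
    rintro (_ | i)
    · exact hfb _
    · rw [hus]; exact (le_max_left _ _).trans (hfb _)
  have h1 : ∀ i, c * l (u i) ≤ l (u (i + 1)) := fun i => by
    rw [hus]; exact (le_max_right _ _).trans (hfb _)
  refine ⟨u, ?_, hM, ?_⟩
  · rintro (_ | i)
    · exact hf _
    · exact hus i ▸ hf _
  · intro i j hij
    induction j, hij using Nat.le_induction with
    | base => exact h1 i
    | succ j _ ih =>
      refine ih.trans (le_trans ?_ (h1 j))
      exact le_mul_of_one_le_left (zero_le_one.trans ((le_max_right _ _).trans (hM j))) hc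

/-- The approximations and the degrees. -/
theorem exists_parameters (h : ∀ B : ℝ, ∃ x, p x ∧ B ≤ l x) (m : ℕ) {ε σ : ℝ} (hε : 0 < ε)
    (hσ : 0 < σ) (hσ1 : σ < 1) (M : ℝ) :
    ∃ (x : Fin m → T) (r : Fin m → ℕ) (R : ℕ) (L₁ : ℝ), 0 < R ∧ 1 ≤ L₁ ∧ M ≤ L₁ ∧
      (∀ h, p (x h)) ∧ (∀ h, L₁ ≤ l (x h)) ∧ (∀ h, 0 < r h) ∧ (∀ h, r h ≤ R) ∧
      (∀ h h', h < h' → (r h : ℝ) ≤ σ * r h') ∧
      (∀ h, (R : ℝ) * L₁ ≤ r h * l (x h)) ∧
      (∀ h, (r h : ℝ) * l (x h) ≤ (1 + ε) * (R * L₁)) := by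
  have hc : 1 ≤ 2 / σ := by rw [one_le_div hσ]; linarith
  obtain ⟨u, hu, huM, hgrow⟩ := exists_seq h hc M
  set x : Fin m → T := fun h => u (Fin.rev h : Fin m)
  set L : Fin m → ℝ := fun h => l (x h)
  set L₁ := l (u 0)
  set Lm := l (u (m - 1))
  have hu1 : ∀ i, 1 ≤ l (u i) := fun i => (le_max_right _ _).trans (huM i)
  have hL0 : 0 < L₁ := lt_of_lt_of_le one_pos (hu1 0)
  have hmono : ∀ i, L₁ ≤ l (u i) := fun i => by
    rcases Nat.eq_zero_or_pos i with rfl | hi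
    · exact le_rfl
    · exact le_trans (le_mul_of_one_le_left hL0.le hc) (hgrow 0 i hi)
  have hLm : ∀ h, L h ≤ Lm := fun h => by
    rcases lt_or_eq_of_le (show ((Fin.rev h : Fin m) : ℕ) ≤ m - 1 by omega) with hlt | heq
    · exact le_trans (le_mul_of_one_le_left (zero_le_one.trans (hu1 _)) hc) (hgrow _ _ hlt)
    · simp only [L, x, heq, Lm, le_refl]
  set R := ⌈(1 / ε + 2 / σ) * Lm / L₁⌉₊ with hR
  set E := (R : ℝ) * L₁ with hE
  have hLm0 : 0 < Lm := lt_of_lt_of_le one_pos (hu1 _)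
  have hσ2 : 0 < 2 / σ := by positivity
  have hpos : 0 < (1 / ε + 2 / σ) * Lm / L₁ := by positivity
  have hELm : (1 / ε + 2 / σ) * Lm ≤ E := by
    have := Nat.le_ceil ((1 / ε + 2 / σ) * Lm / L₁)
    rwa [div_le_iff₀ hL0] at this
  have hE0 : 0 < E := (mul_pos (by positivity) hLm0).trans_le hELm
  have hLpos : ∀ h, 0 < L h := fun h => lt_of_lt_of_le one_pos (hu1 _)
  have hEε : ∀ h, L h ≤ ε * E := fun h => by
    have h1 : Lm / ε ≤ E := le_trans (by
      rw [div_eq_mul_inv, mul_comm, ← one_div]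
      exact mul_le_mul_of_nonneg_right (by linarith) hLm0.le) hELm
    rw [div_le_iff₀' hε] at h1
    exact (hLm h).trans h1
  have hEσ : ∀ h, 2 / σ * L h ≤ E := fun h =>
    (mul_le_mul (by linarith [one_div_pos.2 hε]) (hLm h) (hLpos h).le (by positivity)).trans hELm
  refine ⟨x, fun h => ⌈E / L h⌉₊, R, L₁, Nat.ceil_pos.2 hpos, hu1 0,
    (le_max_left _ _).trans (huM 0), fun h => hu _, fun h => hmono _,
    fun h => Nat.ceil_pos.2 (div_pos hE0 (hLpos h)), fun h => ?_, fun h h' hh => ?_, fun h => ?_,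
    fun h => ?_⟩
  · refine Nat.ceil_le.2 ?_
    rw [div_le_iff₀ (hLpos h)]
    exact mul_le_mul_of_nonneg_left (hmono _) (Nat.cast_nonneg _)
  · have h1 := (Nat.ceil_lt_add_one (div_pos hE0 (hLpos h)).le).le
    have h2 : 2 / σ * L h' ≤ L h := hgrow _ _ (Fin.rev_lt_rev.2 hh)
    have h3 : 2 / σ ≤ ((⌈E / L h'⌉₊ : ℕ) : ℝ) := le_trans
      ((le_div_iff₀ (hLpos h')).2 (hEσ h')) (Nat.le_ceil _)
    have h4 : E / L h ≤ σ / 2 * (E / L h') := by
      rw [← mul_div_assoc, div_le_div_iff₀ (hLpos h) (hLpos h')]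
      have h5 := mul_le_mul_of_nonneg_left h2 (mul_nonneg (half_pos hσ).le hE0.le)
      have h6 : σ / 2 * E * (2 / σ * L h') = E * L h' := by field_simp
      linarith
    have h7 := mul_le_mul_of_nonneg_left (Nat.le_ceil (E / L h')) (half_pos hσ).le
    have h8 : σ / 2 * (2 / σ) = 1 := by field_simp
    have h9 := mul_le_mul_of_nonneg_left h3 (half_pos hσ).le
    calc ((⌈E / L h⌉₊ : ℕ) : ℝ) ≤ E / L h + 1 := h1
      _ ≤ σ * (⌈E / L h'⌉₊ : ℕ) := by linarith
  · have := Nat.le_ceil (E / L h)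
    rwa [div_le_iff₀ (hLpos h)] at this
  · have h1 := (Nat.ceil_lt_add_one (div_pos hE0 (hLpos h)).le).le
    have h2 := mul_le_mul_of_nonneg_right h1 (hLpos h).le
    rw [add_mul, div_mul_cancel₀ _ (hLpos h).ne', one_mul] at h2
    show ((⌈E / L h⌉₊ : ℕ) : ℝ) * L h ≤ (1 + ε) * E
    linarith [hEε h]

end FA.Roth

end
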