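import Fermat.Agent.Roth.Lemma
import Fermat.Agent.Roth.Auxiliary
import Fermat.Agent.Roth.Estimate
import Fermat.Agent.Roth.Parameters
import Mathlib.Analysis.SpecialFunctions.Log.Basic
import Mathlib.Analysis.SpecialFunctions.Pow.Real

/-!
# The theorems of Roth and Ridout

For a real algebraic number `α`, bases `g` and `κ > 2` only finitely many rationals `x` near `α`
satisfy `|α - x| < P Q den x ^ (-κ)` with products `P`, `Q` of powers of the bases dividing the
numerator and the denominator: many of them with rapidly increasing denominators would make a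
derivative of the auxiliary polynomial a non-zero rational that is too small for the powers of
the bases dividing it.
-/

set_option autoImplicit false

noncomputable section

namespace FA.Roth

open MvPolynomial Finset

/-- The numerator of a value of an integer polynomial. -/
theorem den_mul_aeval {m : ℕ} {r : Fin m → ℕ} {G : MvPolynomial (Fin m) ℤ} (hG : BoxDeg r G)
    (x : Fin m → ℚ) : (∏ h, ((x h).den : ℚ) ^ r h) * aeval x G =
      ((∑ s ∈ G.support,
        coeff s G * ∏ h, (x h).num ^ s h * ((x h).den : ℤ) ^ (r h - s h) : ℤ) : ℚ) := by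
  rw [aeval_def, eval₂_eq', mul_sum, Int.cast_sum]
  refine sum_congr rfl fun s hs => ?_
  rw [algebraMap_int_eq, eq_intCast, Int.cast_mul, Int.cast_prod, mul_left_comm, ← prod_mul_distrib]
  congr 1
  refine prod_congr rfl fun h _ => ?_
  have hd : ((x h).den : ℚ) ≠ 0 := by exact_mod_cast (x h).den_nz
  have hsr : s h ≤ r h := hG s (mem_support_iff.1 hs) h
  push_cast
  rw [show ((x h).den : ℚ) ^ r h = ((x h).den : ℚ) ^ (r h - s h) * ((x h).den : ℚ) ^ s h by
    rw [← pow_add, Nat.sub_add_cancel hsr]]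
  conv_lhs => rw [← (x h).num_div_den, div_pow]
  rw [Rat.num_div_den (x h)]
  field_simp

/-- Rationals with bounded denominator in an interval are finite in number. -/
theorem finite_den_le (α B : ℝ) (N : ℕ) :
    {x : ℚ | |α - x| ≤ B ∧ x.den ≤ N}.Finite := by
  obtain ⟨M, hM⟩ := exists_nat_ge ((|α| + |B|) * N)
  refine Set.Finite.of_finite_image (f := fun x : ℚ => (x.num, x.den)) ?_
    fun a _ b _ h => Rat.ext (congrArg Prod.fst h) (congrArg Prod.snd h)
  refine ((Set.finite_Icc (-(M : ℤ)) M).prod (Set.finite_Iic N)).subset ?_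
  rintro _ ⟨x, ⟨hx, hxN⟩, rfl⟩
  refine ⟨abs_le.1 ?_, hxN⟩
  have h1 : |(x : ℝ)| ≤ |α| + |B| := by
    have := abs_sub_abs_le_abs_sub (x : ℝ) α
    rw [abs_sub_comm (x : ℝ) α] at this
    linarith [le_abs_self B]
  have h2 : |(x.num : ℝ)| ≤ M := by
    have : (x.num : ℝ) = (x : ℝ) * x.den := by exact_mod_cast (Rat.mul_den_eq_num x).symm
    rw [this, abs_mul, Nat.abs_cast]
    exact (mul_le_mul h1 (by exact_mod_cast hxN) (Nat.cast_nonneg _) (by positivity)).trans hM
  exact_mod_cast h2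

variable {ι : Type*} [Fintype ι]

/-- `x` is too close to `α` for the powers of the bases `g` dividing its numerator and its
denominator. -/
def Good (g : ι → ℕ) (D : ℕ) (α κ : ℝ) (x : ℚ) : Prop :=
  ∃ a b : ι → ℕ, ((∏ i, g i ^ a i : ℕ) : ℤ) ∣ x.num ∧ (∏ i, g i ^ b i) ∣ D * x.den ∧
    |α - x| < ((∏ i, g i ^ a i : ℕ) : ℝ) * ((∏ i, g i ^ b i : ℕ) : ℝ) * (x.den : ℝ) ^ (-κ)

theorem log_prod_pow {g : ι → ℕ} (hg : ∀ i, 0 < g i) (a : ι → ℕ) :
    Real.log ((∏ i, g i ^ a i : ℕ) : ℝ) = ∑ i, (a i : ℝ) * Real.log (g i) := by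
  push_cast
  rw [Real.log_prod fun i _ => pow_ne_zero _ (Nat.cast_ne_zero.2 (hg i).ne')]
  exact sum_congr rfl fun i _ => Real.log_pow _ _

/-- A power product dividing the numerator of every term of the value of a polynomial. -/
theorem exp_le_den_mul {m : ℕ} {r : Fin m → ℕ} (hr : ∀ h, 0 < r h) {G : MvPolynomial (Fin m) ℤ}
    (hG : BoxDeg r G) {x : Fin m → ℚ} (hGx : aeval x G ≠ 0) {g : ι → ℕ} (hg : ∀ i, 0 < g i)
    {D : ℕ} (hD : 0 < D) {a b : Fin m → ι → ℕ}
    (ha : ∀ h, ((∏ i, g i ^ a h i : ℕ) : ℤ) ∣ (x h).num)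
    (hb : ∀ h, (∏ i, g i ^ b h i) ∣ D * (x h).den) {lam : ι ⊕ ι → ℝ} {c E : ℝ}
    (hlam0 : ∀ j, 0 ≤ lam j) (hE : 0 ≤ E)
    (hla : ∀ h i, lam (Sum.inl i) * E / r h ≤ (a h i : ℝ) * Real.log (g i))
    (hlb : ∀ h i, lam (Sum.inr i) * E / r h ≤ (b h i : ℝ) * Real.log (g i))
    (hsupp : ∀ s, coeff s G ≠ 0 → c ≤ weight r s ∧ weight r s ≤ m - c) :
    Real.exp (c * (∑ j, lam j) * E) ≤
      (D : ℝ) ^ (∑ h, r h) *
        ((∏ h, ((x h).den : ℝ) ^ r h) * |aeval (fun h => (x h : ℝ)) G|) := by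
  classical
  have hne : G.support.Nonempty := by
    rw [Finset.nonempty_iff_ne_empty]
    intro e
    exact hGx (by rw [support_eq_empty.1 e, map_zero])
  set gj : ι ⊕ ι → ℕ := Sum.elim g g with hgj
  have hgj0 : ∀ j, 0 < gj j := by rintro (i | i) <;> exact hg i
  set e : (Fin m →₀ ℕ) → ι ⊕ ι → ℕ := fun s =>
    Sum.elim (fun i => ∑ h, a h i * s h) (fun i => ∑ h, b h i * (r h - s h)) with he
  set M : ι ⊕ ι → ℕ := fun j => G.support.inf' hne fun s => e s j with hM
  set d := ∏ j, gj j ^ M j with hd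
  set z : ℤ := ∑ s ∈ G.support,
    coeff s G * ∏ h, (x h).num ^ s h * ((x h).den : ℤ) ^ (r h - s h) with hz
  have hdvd : (d : ℤ) ∣ (D : ℤ) ^ (∑ h, r h) * z := by
    rw [hz, mul_sum]
    refine dvd_sum fun s hs => ?_
    rw [mul_left_comm]
    refine Dvd.dvd.mul_left ?_ _
    have h1 : d ∣ ∏ j, gj j ^ e s j :=
      prod_dvd_prod_of_dvd _ _ fun j _ => pow_dvd_pow _ (inf'_le _ hs)
    refine (Int.natCast_dvd_natCast.2 h1).trans ?_
    have h2 : ∏ j, gj j ^ e s j =
        ∏ h, (∏ i, g i ^ a h i) ^ s h * (∏ i, g i ^ b h i) ^ (r h - s h) := by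
      simp only [Fintype.prod_sum_type, gj, e, Sum.elim_inl, Sum.elim_inr, prod_mul_distrib,
        ← prod_pow_eq_pow_sum, pow_mul, ← Finset.prod_pow]
      rw [prod_comm, prod_comm (γ := ι)]
    rw [h2, Nat.cast_prod, ← prod_pow_eq_pow_sum, ← prod_mul_distrib]
    refine prod_dvd_prod_of_dvd _ _ fun h _ => ?_
    rw [Nat.cast_mul, Nat.cast_pow, Nat.cast_pow]
    have h3 := mul_dvd_mul (pow_dvd_pow_of_dvd (ha h) (s h))
      (pow_dvd_pow_of_dvd (Int.natCast_dvd_natCast.2 (hb h)) (r h - s h))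
    refine h3.trans ?_
    rw [Nat.cast_mul, mul_pow, mul_left_comm]
    exact mul_dvd_mul_right (pow_dvd_pow _ (Nat.sub_le _ _)) _
  have hzq := den_mul_aeval hG x
  rw [← hz] at hzq
  have hz0 : z ≠ 0 := fun e0 => by
    rw [e0, Int.cast_zero] at hzq
    exact hGx ((mul_eq_zero.1 hzq).resolve_left
      (prod_ne_zero_iff.2 fun h _ => pow_ne_zero _ (by exact_mod_cast (x h).den_nz)))
  have hDz : (d : ℝ) ≤ (D : ℝ) ^ (∑ h, r h) * |(z : ℝ)| := by
    have h1 := Int.le_of_dvd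
      (abs_pos.2 (mul_ne_zero (pow_ne_zero _ (Int.natCast_ne_zero.2 hD.ne')) hz0))
      ((dvd_abs _ _).2 hdvd)
    rw [abs_mul, abs_pow, Nat.abs_cast] at h1
    exact_mod_cast h1
  have hzR : |(z : ℝ)| = (∏ h, ((x h).den : ℝ) ^ r h) * |aeval (fun h => (x h : ℝ)) G| := by
    have hcast : ((aeval x G : ℚ) : ℝ) = aeval (fun h => (x h : ℝ)) G := by
      rw [aeval_def, aeval_def, ← eq_ratCast (Rat.castHom ℝ), eval₂_comp_left]
      congr 1
    rw [← Rat.cast_intCast z, ← hzq, Rat.cast_mul, Rat.cast_prod, hcast, abs_mul,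
      abs_of_nonneg (prod_nonneg fun _ _ => by simp [pow_nonneg])]
    simp
  rw [← hzR]
  refine le_trans ?_ hDz
  rw [← Real.le_log_iff_exp_le (by exact_mod_cast prod_pos fun j _ => pow_pos (hgj0 j) (M j)),
    hd, log_prod_pow hgj0, mul_sum, sum_mul]
  refine sum_le_sum fun j _ => ?_
  obtain ⟨s, hs, hsM⟩ := exists_mem_eq_inf' hne (fun s => e s j)
  obtain ⟨hlo, hhi⟩ := hsupp s (mem_support_iff.1 hs)
  simp only [M, hsM]
  have key : ∀ (v : Fin m → ℕ) (u : Fin m → ℕ), c ≤ ∑ h, (u h : ℝ) / r h →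
      (∀ h, lam j * E / r h ≤ (v h : ℝ) * Real.log (gj j)) →
      c * lam j * E ≤ ((∑ h, v h * u h : ℕ) : ℝ) * Real.log (gj j) := by
    intro v u hu hv
    calc c * lam j * E ≤ (∑ h, (u h : ℝ) / r h) * (lam j * E) := by
          rw [mul_assoc]
          exact mul_le_mul_of_nonneg_right hu (mul_nonneg (hlam0 j) hE)
      _ = ∑ h, (u h : ℝ) * (lam j * E / r h) := by
          rw [sum_mul]; exact sum_congr rfl fun h _ => by ring
      _ ≤ ∑ h, (u h : ℝ) * ((v h : ℝ) * Real.log (gj j)) :=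
          sum_le_sum fun h _ => mul_le_mul_of_nonneg_left (hv h) (Nat.cast_nonneg _)
      _ = _ := by
          push_cast
          rw [sum_mul]; exact sum_congr rfl fun h _ => by ring
  rcases j with i | i
  · exact key (fun h => a h i) (fun h => s h) hlo fun h => hla h i
  · refine key (fun h => b h i) (fun h => r h - s h) ?_ fun h => hlb h i
    have h1 : ∀ h, ((r h - s h : ℕ) : ℝ) / r h = 1 - (s h : ℝ) / r h := fun h => by
      rw [Nat.cast_sub (hG s (mem_support_iff.1 hs) h), sub_div,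
        div_self (Nat.cast_ne_zero.2 (hr h).ne')]
    simp only [h1, sum_sub_distrib, sum_const, Finset.card_univ, Fintype.card_fin, nsmul_eq_mul,
      mul_one]
    rw [weight] at hhi
    linarith

/-- Ridout's theorem for algebraic integers. -/
theorem finite_good_of_isIntegral {α : ℝ} (hα : IsIntegral ℤ α) {g : ι → ℕ} (hg : ∀ i, 0 < g i)
    {D : ℕ} (hD : 0 < D) {κ : ℝ} (hκ : 2 < κ) (B : ℝ) :
    {x : ℚ | |α - x| ≤ B ∧ Good g D α κ x}.Finite := by
  classical
  by_contra hinf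
  set n := (minpoly ℤ α).natDegree with hn
  have hn0 : 0 < n := minpoly.natDegree_pos hα
  set κ₀ := (2 + κ) / 2 with hκ₀
  have hκ₀2 : 2 < κ₀ := by linarith
  set η := (κ - κ₀) / (Fintype.card (ι ⊕ ι) + 1) with hη_def
  have hη : 0 < η := div_pos (by linarith) (by positivity)
  have hKη : (Fintype.card (ι ⊕ ι) : ℝ) * η ≤ κ - κ₀ := by
    have h : ((Fintype.card (ι ⊕ ι) : ℝ) + 1) * η = κ - κ₀ := by
      rw [hη_def]; field_simp
    linarith
  set A := |α| + |B| + 1 with hA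
  have hA1 : 1 ≤ A := by linarith [abs_nonneg α, abs_nonneg B]
  have hD1 : (1 : ℝ) ≤ D := by exact_mod_cast hD
  set lAD := Real.log A + Real.log D
  have hlA0 := Real.log_nonneg hA1
  have hlD0 := Real.log_nonneg hD1
  set gj : ι ⊕ ι → ℕ := Sum.elim g g with hgj
  have hgj0 : ∀ j, 0 ≤ Real.log (gj j) := fun j => Real.log_natCast_nonneg _
  -- the exponents of an element
  have hex : ∀ x : ℚ, ∃ e : ι ⊕ ι → ℕ, |α - x| ≤ B ∧ Good g D α κ x ∧ 1 < x.den →
      ((∏ i, g i ^ e (Sum.inl i) : ℕ) : ℤ) ∣ x.num ∧ (∏ i, g i ^ e (Sum.inr i)) ∣ D * x.den ∧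
      |α - x| < Real.exp ((∑ j, (e j : ℝ) * Real.log (gj j)) - κ * Real.log x.den) ∧
      ∑ j, (e j : ℝ) * Real.log (gj j) ≤ 2 * Real.log x.den + lAD := by
    intro x
    by_cases hx : |α - x| ≤ B ∧ Good g D α κ x ∧ 1 < x.den
    swap
    · exact ⟨0, fun h => absurd h hx⟩
    obtain ⟨hxB, ⟨a, b, ha, hb, hlt⟩, hden⟩ := hx
    refine ⟨Sum.elim a b, fun _ => ⟨ha, hb, ?_, ?_⟩⟩
    · rw [Fintype.sum_sum_type]
      simp only [gj, Sum.elim_inl, Sum.elim_inr]
      rw [← log_prod_pow hg, ← log_prod_pow hg, Real.exp_sub, Real.exp_add,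
        Real.exp_log (by exact_mod_cast prod_pos fun i _ => pow_pos (hg i) (a i)),
        Real.exp_log (by exact_mod_cast prod_pos fun i _ => pow_pos (hg i) (b i))]
      refine hlt.trans_eq ?_
      rw [Real.rpow_def_of_pos (by exact_mod_cast x.pos), mul_neg, Real.exp_neg, mul_comm κ]
      rfl
    · rw [Fintype.sum_sum_type]
      simp only [gj, Sum.elim_inl, Sum.elim_inr]
      rw [← log_prod_pow hg, ← log_prod_pow hg]
      have hnum : x.num ≠ 0 := fun e => by
        rw [Rat.num_eq_zero.1 e] at hden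
        simp at hden
      have hxA : |(x.num : ℝ)| ≤ A * x.den := by
        have h1 : (x.num : ℝ) = (x : ℝ) * x.den := by exact_mod_cast (Rat.mul_den_eq_num x).symm
        rw [h1, abs_mul, Nat.abs_cast]
        refine mul_le_mul_of_nonneg_right ?_ (Nat.cast_nonneg _)
        have := abs_sub_abs_le_abs_sub (x : ℝ) α
        rw [abs_sub_comm (x : ℝ) α] at this
        linarith [le_abs_self B]
      have hd0 : (x.den : ℝ) ≠ 0 := by exact_mod_cast x.den_nz
      have h2 : ((∏ i, g i ^ a i : ℕ) : ℝ) ≤ A * x.den := le_trans (by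
        have := Int.le_of_dvd (abs_pos.2 hnum) ((dvd_abs _ _).2 ha)
        exact_mod_cast this) hxA
      have h3 : ((∏ i, g i ^ b i : ℕ) : ℝ) ≤ D * x.den := by
        exact_mod_cast Nat.le_of_dvd (Nat.mul_pos hD x.pos) hb
      have h4 := Real.log_le_log (by exact_mod_cast prod_pos fun i _ => pow_pos (hg i) (a i)) h2
      have h5 := Real.log_le_log (by exact_mod_cast prod_pos fun i _ => pow_pos (hg i) (b i)) h3
      rw [Real.log_mul (by positivity) hd0] at h4 h5
      linarith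
  choose ex hex using hex
  -- infinitely many have similar exponents
  obtain ⟨N, hN⟩ := exists_nat_gt ((2 + lAD / Real.log 2) / η)
  set col : ℚ → ι ⊕ ι → Fin (N + 1) := fun x j =>
    ⟨min N ⌊(ex x j : ℝ) * Real.log (gj j) / (η * Real.log x.den)⌋₊,
      Nat.lt_succ_of_le (min_le_left _ _)⟩
  set T := {x : ℚ | |α - x| ≤ B ∧ Good g D α κ x ∧ 1 < x.den}
  have hT : T.Infinite := fun hfin => hinf ((hfin.union (finite_den_le α B 1)).subset fun x hx => by
    rcases Nat.lt_or_ge 1 x.den with h | h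
    · exact Or.inl ⟨hx.1, hx.2, h⟩
    · exact Or.inr ⟨hx.1, h⟩)
  obtain ⟨k, hk⟩ : ∃ k, {x ∈ T | col x = k}.Infinite := by
    by_contra! h
    exact hT ((Set.finite_iUnion h).subset fun x hx => Set.mem_iUnion.2 ⟨col x, hx, rfl⟩)
  set lam : ι ⊕ ι → ℝ := fun j => (k j : ℕ) * η with hlam
  have hlam0 : ∀ j, 0 ≤ lam j := fun j => by positivity
  have hlog2 : 0 < Real.log 2 := Real.log_pos one_lt_two
  have hband : ∀ x ∈ {x ∈ T | col x = k},
      (∀ j, lam j * Real.log x.den ≤ (ex x j : ℝ) * Real.log (gj j)) ∧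
      ∑ j, (ex x j : ℝ) * Real.log (gj j) ≤ (∑ j, lam j + (κ - κ₀)) * Real.log x.den := by
    rintro x ⟨hxT, hcol⟩
    obtain ⟨-, -, -, hsum⟩ := hex x hxT
    have hL2 : Real.log 2 ≤ Real.log x.den :=
      Real.log_le_log two_pos (by exact_mod_cast hxT.2.2)
    have hL : 0 < Real.log x.den := hlog2.trans_le hL2
    have hj : ∀ j, lam j * Real.log x.den ≤ (ex x j : ℝ) * Real.log (gj j) ∧
        (ex x j : ℝ) * Real.log (gj j) ≤ (lam j + η) * Real.log x.den := by
      intro j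
      set u := (ex x j : ℝ) * Real.log (gj j) with hu
      have hu0 : 0 ≤ u := mul_nonneg (Nat.cast_nonneg _) (hgj0 j)
      have huN : u / (η * Real.log x.den) < N := by
        refine lt_of_le_of_lt ?_ hN
        have h1 : u ≤ 2 * Real.log x.den + lAD := le_trans
          (single_le_sum (f := fun j => (ex x j : ℝ) * Real.log (gj j))
            (fun j _ => mul_nonneg (Nat.cast_nonneg _) (hgj0 j)) (mem_univ j)) hsum
        have h2 : lAD ≤ lAD / Real.log 2 * Real.log x.den := by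
          refine le_trans (le_of_eq ?_) (mul_le_mul_of_nonneg_left hL2
            (div_nonneg (add_nonneg hlA0 hlD0) hlog2.le))
          rw [div_mul_cancel₀ _ hlog2.ne']
        rw [← div_div, div_right_comm]
        refine div_le_div_of_nonneg_right ?_ hη.le
        rw [div_le_iff₀ hL]
        linarith
      have hfl : min N ⌊u / (η * Real.log x.den)⌋₊ = ⌊u / (η * Real.log x.den)⌋₊ :=
        min_eq_right (Nat.floor_le_of_le huN.le)
      have hkj : ((k j : ℕ) : ℝ) = (⌊u / (η * Real.log x.den)⌋₊ : ℕ) := by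
        rw [← hcol]
        exact_mod_cast hfl
      have h3 := Nat.floor_le (div_nonneg hu0 (mul_pos hη hL).le)
      have h4 := (Nat.lt_floor_add_one (u / (η * Real.log x.den))).le
      rw [← hkj] at h3 h4
      rw [le_div_iff₀ (mul_pos hη hL)] at h3
      rw [div_le_iff₀ (mul_pos hη hL)] at h4
      exact ⟨by simp only [lam]; linarith, by simp only [lam]; linarith⟩
    refine ⟨fun j => (hj j).1, (sum_le_sum fun j _ => (hj j).2).trans ?_⟩
    rw [← sum_mul, sum_add_distrib, sum_const, Finset.card_univ, nsmul_eq_mul]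
    exact mul_le_mul_of_nonneg_right (by linarith) hL.le
  have hpick : ∀ M : ℝ, ∃ x : ℚ, x ∈ {x ∈ T | col x = k} ∧ M ≤ Real.log x.den := fun M => by
    obtain ⟨x, hx, hxd⟩ : ∃ x ∈ {x ∈ T | col x = k}, ⌈Real.exp M⌉₊ < x.den := by
      by_contra! hno
      exact hk ((finite_den_le α B ⌈Real.exp M⌉₊).subset fun x hx => ⟨hx.1.1, hno x hx⟩)
    refine ⟨x, hx, ?_⟩
    rw [Real.le_log_iff_exp_le (by exact_mod_cast x.pos)]
    exact (Nat.le_ceil _).trans (by exact_mod_cast hxd.le)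
  set ε := min ((κ₀ - 2) / (8 * (κ₀ + 1))) (1 / 8) with hε_def
  have hε : 0 < ε := lt_min (div_pos (by linarith) (by linarith)) (by norm_num)
  have hε8 : ε ≤ 1 / 8 := min_le_right _ _
  have hεκ : ε * (8 * (κ₀ + 1)) ≤ κ₀ - 2 := by
    rw [← le_div_iff₀ (by linarith)]
    exact min_le_left _ _
  obtain ⟨m, hm⟩ := exists_nat_gt (((n : ℝ) + 1) / ε ^ 2)
  have hm0 : (0 : ℝ) < m := lt_of_le_of_lt (by positivity) hm
  have hmN : 0 < m := by exact_mod_cast hm0
  obtain ⟨C, hC, haux⟩ := exists_auxiliary (minpoly.monic hα) hn.symm hn0 hε (by linarith) hm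
  obtain ⟨σ, hσ, hσ1, hroth⟩ :=
    exists_smallIndex ℚ m (min 1 (ε * m)) (lt_min one_pos (by positivity)) (min_le_left _ _)
  have hlA : 0 ≤ Real.log (8 * A * C * D) := Real.log_nonneg
    (one_le_mul_of_one_le_of_one_le (one_le_mul_of_one_le_of_one_le (by linarith) hC) hD1)
  set M := max (max (max 1 (Real.log (C ^ m * 2 ^ ((m + 1) ^ 2)) / σ))
    (4 * Real.log (8 * A * C * D) / (κ₀ - 2) + 1)) (lAD / (κ₀ - 2) + 1) with hM
  obtain ⟨x, r, R, L₁, hR0, hL1, hML, hu, hL, hr0, hrR, hratio, hrlo, hrhi⟩ :=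
    exists_parameters (p := fun y => y ∈ {x ∈ T | col x = k})
      (l := fun y => Real.log (y.den : ℕ)) hpick m hε hσ hσ1 M
  set L : Fin m → ℝ := fun h => Real.log (x h).den with hL_def
  have hL0 : 0 < L₁ := by linarith
  have hRpos : (0 : ℝ) < R := by exact_mod_cast hR0
  set E := (R : ℝ) * L₁ with hE
  have hE0 : 0 < E := mul_pos hRpos hL0
  set lt := ∑ j, lam j with hlt
  have hlt0 : 0 ≤ lt := sum_nonneg fun j _ => hlam0 j
  have hltκ : lt < κ₀ := by
    by_contra hcon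
    have h0 : Fin m := ⟨0, hmN⟩
    have h1 := (sum_le_sum fun j _ => (hband _ (hu h0)).1 j).trans (hex _ (hu h0).1).2.2.2
    rw [← sum_mul] at h1
    have h2 : lAD / (κ₀ - 2) + 1 ≤ L₁ := (le_max_right _ _).trans hML
    have h3 : lAD / (κ₀ - 2) < L h0 := by linarith [hL h0]
    rw [div_lt_iff₀ (by linarith)] at h3
    have h4 : κ₀ * L h0 ≤ lt * L h0 :=
      mul_le_mul_of_nonneg_right (not_lt.1 hcon) (hL0.le.trans (hL h0))
    simp only [L] at *
    linarith
  have hden : ∀ h, ((x h).den : ℝ) ^ r h = Real.exp ((r h : ℝ) * L h) := fun h => by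
    rw [Real.exp_nat_mul, Real.exp_log (by exact_mod_cast (x h).pos)]
  obtain ⟨P, hP0, hPbox, hPlen, hPmid, hPvan⟩ := haux r hr0
  have hS : ∑ h, r h ≤ m * R := (sum_le_card_nsmul _ _ R fun h _ => hrR h).trans (by simp)
  have hPlen' : len P ≤ (C ^ m) ^ R := by
    rw [← pow_mul]
    exact hPlen.trans (pow_le_pow_right₀ hC hS)
  have hcond : len P * 2 ^ ((m + 1) ^ 2 * R) ≤ Real.exp E ^ σ := by
    refine (mul_le_mul_of_nonneg_right hPlen' (by positivity)).trans ?_
    rw [pow_mul, ← mul_pow, ← Real.exp_mul]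
    have h1 : Real.log (C ^ m * 2 ^ ((m + 1) ^ 2)) / σ ≤ L₁ :=
      (le_max_right _ _).trans ((le_max_left _ _).trans ((le_max_left _ _).trans hML))
    rw [div_le_iff₀ hσ, Real.log_le_iff_le_exp (by positivity)] at h1
    refine (pow_le_pow_left₀ (by positivity) h1 R).trans (le_of_eq ?_)
    rw [← Real.exp_nat_mul, hE]
    ring_nf
  obtain ⟨μ, hμ, hμw⟩ := hroth r x (fun h => (x h).den) R (Real.exp E) P hP0 hPbox hr0 hrR hratio
    (Real.one_le_exp hE0.le) (fun h => heightLE_den _)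
    (fun h => by rw [hden]; exact Real.exp_le_exp.2 (hrlo h)) hcond
  have hw : weight r μ ≤ ε * m := hμw.trans (min_le_right _ _)
  set G := hasse μ P with hG
  have hGne : aeval x G ≠ 0 := by
    rw [coeff_taylor, hasse_map, eval_map] at hμ
    rwa [aeval_def, algebraMap_int_eq]
  have hex' : ∀ h, _ := fun h => hex (x h) (hu h).1
  have hrlam : ∀ j h, lam j * E / r h ≤ (ex (x h) j : ℝ) * Real.log (gj j) := fun j h => by
    refine le_trans ?_ ((hband _ (hu h)).1 j)
    rw [div_le_iff₀ (by exact_mod_cast hr0 h)]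
    show lam j * E ≤ lam j * L h * r h
    exact (mul_le_mul_of_nonneg_left (hrlo h) (hlam0 j)).trans (le_of_eq (by ring))
  have hlow := exp_le_den_mul (c := (m : ℝ) * (1 / 2 - 2 * ε)) hr0 (hPbox.hasse μ) hGne hg hD
    (fun h => (hex' h).1) (fun h => (hex' h).2.1) hlam0 hE0.le
    (fun h i => hrlam (Sum.inl i) h) (fun h i => hrlam (Sum.inr i) h)
    (fun s hs => by
      rw [coeff_hasse] at hs
      have h1 := hPmid _ (right_ne_zero_of_mul hs)
      rw [weight_add] at h1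
      have := weight_nonneg r μ
      constructor <;> linarith [h1.1, h1.2, mul_pos hε hm0])
  have hprod : ∏ h, ((x h).den : ℝ) ^ r h ≤ Real.exp (m * ((1 + ε) * E)) := by
    simp only [hden]
    rw [← Real.exp_sum, Real.exp_le_exp]
    exact (sum_le_card_nsmul _ _ _ fun h _ => hrhi h).trans (by simp)
  set κ' := κ₀ - lt with hκ'
  have hκ'0 : 0 < κ' := by linarith
  have hup := norm_aeval_hasse_le (K := ℝ) (fun z => (Real.norm_eq_abs _).le) hPbox hA1
    (by rw [Real.norm_eq_abs]; linarith [abs_nonneg B] : ‖α‖ ≤ A)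
    (fun ν hν => hPvan α (minpoly.aeval ℤ α) ν hν) (x := fun h => (x h : ℝ))
    (E := κ' * E) (by positivity) hr0 (fun h => κ' * L h)
    (fun h => by
      have := mul_le_mul_of_nonneg_left (hrlo h) hκ'0.le
      linarith)
    (fun h => by
      rw [Real.norm_eq_abs, abs_sub_comm]
      refine (hex' h).2.2.1.le.trans (Real.exp_le_exp.2 ?_)
      have h1 := (hband _ (hu h)).2
      simp only [L, κ'] at *
      linarith) μ
  have h8 : (1 : ℝ) ≤ 8 * A := by linarith
  have hbig : (D : ℝ) ^ (∑ h, r h) * ((8 * A) ^ (∑ h, r h) * len P) ≤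
      Real.exp ((m : ℝ) * R * Real.log (8 * A * C * D)) := by
    rw [show (m : ℝ) * R = ((m * R : ℕ) : ℝ) by push_cast; rfl, Real.exp_nat_mul,
      Real.exp_log (by positivity), mul_comm (8 * A * C) (D : ℝ), mul_pow (D : ℝ),
      mul_pow (8 * A)]
    exact mul_le_mul (pow_le_pow_right₀ hD1 hS) (mul_le_mul (pow_le_pow_right₀ h8 hS)
      (hPlen.trans (pow_le_pow_right₀ hC hS)) (len_nonneg P) (by positivity))
      (mul_nonneg (by positivity) (len_nonneg P)) (by positivity)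
  have hfinal : Real.exp ((m : ℝ) * (1 / 2 - 2 * ε) * lt * E) ≤
      Real.exp ((m : ℝ) * R * Real.log (8 * A * C * D) + m * ((1 + ε) * E) +
        -((m * (1 / 2 - ε) - weight r μ) * (κ' * E))) := by
    refine hlow.trans ?_
    rw [Real.exp_add, Real.exp_add]
    calc (D : ℝ) ^ (∑ h, r h) *
          ((∏ h, ((x h).den : ℝ) ^ r h) * |aeval (fun h => (x h : ℝ)) G|)
        ≤ (D : ℝ) ^ (∑ h, r h) * (Real.exp (m * ((1 + ε) * E)) *
            ((8 * A) ^ (∑ h, r h) * len P *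
              Real.exp (-((m * (1 / 2 - ε) - weight r μ) * (κ' * E))))) :=
          mul_le_mul_of_nonneg_left (mul_le_mul hprod ((Real.norm_eq_abs _).symm ▸ hup)
            (abs_nonneg _) (Real.exp_pos _).le)
            (by positivity)
      _ = (D : ℝ) ^ (∑ h, r h) * ((8 * A) ^ (∑ h, r h) * len P) *
            Real.exp (m * ((1 + ε) * E)) *
              Real.exp (-((m * (1 / 2 - ε) - weight r μ) * (κ' * E))) := by ring
      _ ≤ _ := mul_le_mul_of_nonneg_right
          (mul_le_mul_of_nonneg_right hbig (Real.exp_pos _).le) (Real.exp_pos _).le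
  rw [Real.exp_le_exp] at hfinal
  have hM1 : 4 * Real.log (8 * A * C * D) / (κ₀ - 2) + 1 ≤ L₁ :=
    (le_max_right _ _).trans ((le_max_left _ _).trans hML)
  have hkey : Real.log (8 * A * C * D) < (κ₀ - 2) / 4 * L₁ := by
    have h1 : 4 * Real.log (8 * A * C * D) / (κ₀ - 2) < L₁ := by linarith
    rw [div_lt_iff₀ (by linarith)] at h1
    linarith
  have hc1 : κ' * E * ((m : ℝ) * (1 / 2 - 2 * ε)) ≤
      κ' * E * ((m : ℝ) * (1 / 2 - ε) - weight r μ) :=
    mul_le_mul_of_nonneg_left (by linarith) (by positivity)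
  have hc2 : (κ₀ - 2) / 4 * ((m : ℝ) * E) ≤
      (κ₀ / 2 - 1 - ε * (2 * κ₀ + 1)) * ((m : ℝ) * E) :=
    mul_le_mul_of_nonneg_right (by linarith) (by positivity)
  have hc3 := mul_lt_mul_of_pos_left hkey (mul_pos hm0 hRpos)
  rw [hκ'] at hc1 hfinal
  linarith [hE, mul_assoc (m : ℝ) R L₁]

open IntermediateField in
/-- **Ridout's theorem.** -/
theorem finite_good {α : ℝ} (hα : IsAlgebraic ℚ α) {g : ι → ℕ} (hg : ∀ i, 0 < g i) {κ : ℝ}
    (hκ : 2 < κ) : {x : ℚ | |α - x| ≤ 1 ∧ Good g 1 α κ x}.Finite := by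
  classical
  have : Algebra.IsAlgebraic ℤ ℚ := IsLocalization.isAlgebraic ℚ (nonZeroDivisors ℤ)
  obtain ⟨D, hD, hint⟩ :=
    ((IsFractionRing.isAlgebraic_iff ℤ ℚ ℝ).2 hα).exists_integral_multiple
  rw [zsmul_eq_mul] at hint
  have hDR : (D : ℝ) ≠ 0 := Int.cast_ne_zero.2 hD
  set κ' := (2 + κ) / 2 with hκ'
  have hfin := finite_good_of_isIntegral hint hg (Int.natAbs_pos.2 hD)
    (show 2 < κ' by linarith) |(D : ℝ)|
  have hpre := hfin.preimage (f := fun x : ℚ => (D : ℚ) * x)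
    (fun a _ b _ h => mul_left_cancel₀ (Int.cast_ne_zero.2 hD) h)
  have hgap : 0 < κ - κ' := by linarith
  obtain ⟨N, hN⟩ := exists_nat_gt (|(D : ℝ)| ^ (1 / (κ - κ')))
  refine (hpre.union (finite_den_le α 1 N)).subset fun x hx => ?_
  obtain ⟨hx1, a, b, ha, hb, hlt⟩ := hx
  by_cases hxN : x.den ≤ N
  · exact Or.inr ⟨hx1, hxN⟩
  refine Or.inl ?_
  set y := (D : ℚ) * x with hy
  have hid : y.num * x.den = D * x.num * y.den := by
    have h : (y.num : ℚ) * x.den = D * x.num * y.den := by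
      rw [← Rat.mul_den_eq_num y, ← Rat.mul_den_eq_num x, hy]
      ring
    exact_mod_cast h
  have hcop : IsCoprime x.num (x.den : ℤ) := Int.isCoprime_iff_gcd_eq_one.2 (by
    simpa [Int.gcd] using x.reduced)
  have hnum : x.num ∣ y.num := hcop.dvd_of_dvd_mul_right ⟨D * y.den, by linarith⟩
  have hdenD : x.den ∣ D.natAbs * y.den := by
    have h : (x.den : ℤ) ∣ D * y.den :=
      hcop.symm.dvd_of_dvd_mul_left ⟨y.num, by linarith⟩
    have h' := Int.natAbs_dvd_natAbs.2 h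
    rwa [Int.natAbs_mul, Int.natAbs_natCast, Int.natAbs_natCast] at h'
  have hdist : |(D : ℝ) * α - (y : ℝ)| = |(D : ℝ)| * |α - x| := by
    rw [hy, Rat.cast_mul, Rat.cast_intCast, ← mul_sub, abs_mul]
  show |(D : ℝ) * α - (y : ℝ)| ≤ |(D : ℝ)| ∧ Good g D.natAbs ((D : ℝ) * α) κ' y
  rw [hdist]
  refine ⟨mul_le_of_le_one_right (abs_nonneg _) hx1, a, b, ha.trans hnum, ?_, ?_⟩
  · rw [one_mul] at hb
    exact hb.trans hdenD
  rw [hdist]
  have hden : (y.den : ℝ) ≤ x.den := by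
    have h := Rat.mul_den_dvd (D : ℚ) x
    rw [Rat.den_intCast, one_mul] at h
    exact_mod_cast Nat.le_of_dvd x.pos h
  have hd1 : (1 : ℝ) ≤ x.den := by exact_mod_cast x.pos
  have hDx : |(D : ℝ)| ≤ (x.den : ℝ) ^ (κ - κ') := by
    have h1 : |(D : ℝ)| ^ (1 / (κ - κ')) ≤ x.den :=
      hN.le.trans (by exact_mod_cast (not_le.1 hxN).le)
    have h2 := Real.rpow_le_rpow (by positivity) h1 hgap.le
    rwa [← Real.rpow_mul (abs_nonneg _), one_div_mul_cancel hgap.ne', Real.rpow_one] at h2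
  set P := ((∏ i, g i ^ a i : ℕ) : ℝ) * ((∏ i, g i ^ b i : ℕ) : ℝ)
  calc |(D : ℝ)| * |α - x| < |(D : ℝ)| * (P * (x.den : ℝ) ^ (-κ)) :=
        mul_lt_mul_of_pos_left hlt (abs_pos.2 hDR)
    _ ≤ (x.den : ℝ) ^ (κ - κ') * (P * (x.den : ℝ) ^ (-κ)) :=
        mul_le_mul_of_nonneg_right hDx (by positivity)
    _ = P * (x.den : ℝ) ^ (-κ') := by
        rw [mul_left_comm, ← Real.rpow_add (by linarith)]; ring_nf
    _ ≤ P * (y.den : ℝ) ^ (-κ') := mul_le_mul_of_nonneg_left
        (Real.rpow_le_rpow_of_nonpos (by exact_mod_cast y.pos) hden (by linarith)) (by positivity)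

omit [Fintype ι] in
/-- **Roth's theorem.** -/
theorem finite_approximations {α : ℝ} (hα : IsAlgebraic ℚ α) {κ : ℝ} (hκ : 2 < κ) :
    {x : ℚ | |α - x| < (x.den : ℝ) ^ (-κ)}.Finite :=
  (finite_good hα (g := fun i : Fin 0 => i.elim0) (fun i => i.elim0) hκ).subset fun x hx =>
    ⟨hx.le.trans (Real.rpow_le_one_of_one_le_of_nonpos (by exact_mod_cast x.pos) (by linarith)),
      0, 0, by simp, by simp, by simpa using hx⟩

end FA.Roth

end
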