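import Fermat.Agent.Roth.Applications
import Mathlib.Analysis.SpecificLimits.Normed
import Mathlib.Data.Nat.PrimeFin

/-!
# Gaps between integers composed of given primes

By Ridout's theorem two different integers `u, v` composed of finitely many given primes differ by
more than `max u v ^ (1 - ε)`, apart from finitely many exceptions. The same theorem shows that the
denominators and the numerators of the very good approximations of an algebraic number have large
prime factors.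
-/

set_option autoImplicit false

noncomputable section

namespace FA.Roth

open Finset

/-- A number composed of primes from `S` equals its `S`-part. -/
theorem prod_factorization_self {S : Finset ℕ} {n : ℕ} (hn : n ≠ 0) (h : n.primeFactors ⊆ S) :
    ∏ l ∈ S, l ^ n.factorization l = n := by
  refine Eq.trans ?_ (Nat.prod_factorization_pow_eq_self hn)
  rw [Finsupp.prod, Nat.support_factorization]
  refine (prod_subset h fun l _ hl => ?_).symm
  rw [Finsupp.notMem_support_iff.1 (by rwa [Nat.support_factorization]), pow_zero]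

theorem finite_le_rpow {δ ε : ℝ} (hδ : 0 < δ) (hε : 0 < ε) :
    {v : ℕ | δ ≤ (v : ℝ) ^ (-ε)}.Finite := by
  obtain ⟨N, hN⟩ := exists_nat_gt (δ ^ (-(1 / ε)))
  refine (Set.finite_Iic N).subset fun v hv => ?_
  rcases Nat.eq_zero_or_pos v with rfl | hv0
  · exact Nat.zero_le N
  have hvR : (0 : ℝ) < v := by exact_mod_cast hv0
  have h := Real.rpow_le_rpow_of_nonpos hδ (Set.mem_ofPred_eq ▸ hv)
    (show -(1 / ε) ≤ 0 by have := one_div_pos.2 hε; linarith)
  rw [← Real.rpow_mul hvR.le, neg_mul_neg, mul_one_div_cancel hε.ne', Real.rpow_one] at h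
  exact_mod_cast (h.trans hN.le)

/-- **Gaps between numbers composed of given primes.** -/
theorem finite_small_gaps (S : Finset ℕ) (hS : ∀ l ∈ S, l.Prime) {ε : ℝ} (hε : 0 < ε) :
    {p : ℕ × ℕ | 0 < p.1 ∧ p.1 < p.2 ∧ p.1.primeFactors ⊆ S ∧ p.2.primeFactors ⊆ S ∧
      (p.2 : ℝ) - p.1 ≤ (p.2 : ℝ) ^ (1 - ε)}.Finite := by
  set δ := min ε (1 / 2) with hδ
  have hδ0 : 0 < δ := lt_min hε (by norm_num)
  set κ := 2 + δ / 2 with hκ
  have hfin := finite_sPart (α := 1) isAlgebraic_one S (fun l hl => (hS l hl).pos)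
    (show 2 < κ by linarith)
  obtain ⟨V, hV⟩ := exists_nat_gt ((3 : ℝ) ^ (2 / δ))
  suffices h : (Prod.snd '' {p : ℕ × ℕ | 0 < p.1 ∧ p.1 < p.2 ∧ p.1.primeFactors ⊆ S ∧
      p.2.primeFactors ⊆ S ∧ (p.2 : ℝ) - p.1 ≤ (p.2 : ℝ) ^ (1 - ε)}).Finite by
    refine ((h.biUnion fun v _ => ((Set.finite_Iio v).prod (Set.finite_singleton v)))).subset
      fun p hp => ?_
    exact Set.mem_biUnion ⟨p, hp, rfl⟩ ⟨hp.2.1, rfl⟩
  refine (((Set.finite_Iic V).union ((hfin.subset (Set.sep_subset _ fun x => x ≠ 1)).biUnion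
    fun x hx => finite_le_rpow (δ := |(1 : ℝ) - x|) ?_ hδ0))).subset ?_
  · rw [abs_pos, sub_ne_zero]
    intro h
    exact hx.2 (by exact_mod_cast h.symm)
  rintro _ ⟨⟨u, v⟩, ⟨hu, huv, huS, hvS, hgap⟩, rfl⟩
  simp only at hu huv huS hvS hgap ⊢
  rcases le_or_gt v V with hvV | hvV
  · exact Or.inl hvV
  refine Or.inr ?_
  have hv0 : 0 < v := hu.trans huv
  obtain ⟨u₀, v₀, hcop, hu₀, hv₀⟩ := Nat.exists_coprime u v
  set g := Nat.gcd u v
  have hg0 : 0 < g := Nat.gcd_pos_of_pos_left v hu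
  have hv₀0 : 0 < v₀ := Nat.pos_of_mul_pos_right (hv₀ ▸ hv0)
  have hu₀0 : 0 < u₀ := Nat.pos_of_mul_pos_right (hu₀ ▸ hu)
  have huS₀ : u₀.primeFactors ⊆ S :=
    (Nat.primeFactors_mono ⟨g, hu₀⟩ hu.ne').trans huS
  have hvS₀ : v₀.primeFactors ⊆ S :=
    (Nat.primeFactors_mono ⟨g, hv₀⟩ hv0.ne').trans hvS
  set x : ℚ := ((u₀ : ℤ) : ℚ) / ((v₀ : ℤ) : ℚ) with hx
  have hnum : x.num = u₀ :=
    Rat.num_div_eq_of_coprime (by exact_mod_cast hv₀0) (by simpa using hcop)
  have hden : x.den = v₀ := by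
    have h := Rat.den_div_eq_of_coprime (a := (u₀ : ℤ)) (b := (v₀ : ℤ))
      (by exact_mod_cast hv₀0) (by simpa using hcop)
    rw [← hx] at h
    exact Int.ofNat_inj.1 h
  have hvR : (0 : ℝ) < v := by exact_mod_cast hv0
  have hv1 : (1 : ℝ) ≤ v := by exact_mod_cast hv0
  have hxR : (x : ℝ) = (u : ℝ) / v := by
    rw [hx, hu₀, hv₀]
    push_cast
    rw [mul_div_mul_right _ _ (by exact_mod_cast hg0.ne' : (g : ℝ) ≠ 0)]
  have huR : (u : ℝ) < v := by exact_mod_cast huv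
  have hdist : |(1 : ℝ) - x| = ((v : ℝ) - u) / v := by
    rw [hxR, one_sub_div hvR.ne', abs_of_nonneg (div_nonneg (by linarith) hvR.le)]
  have hclose : |(1 : ℝ) - x| ≤ (v : ℝ) ^ (-δ) := by
    rw [hdist, div_le_iff₀ hvR, ← Real.rpow_add_one hvR.ne']
    exact hgap.trans (Real.rpow_le_rpow_of_exponent_le hv1 (by
      linarith [min_le_left ε (1 / 2 : ℝ)]))
  have hvbig : 3 < (v : ℝ) ^ (δ / 2) := by
    have h1 : (3 : ℝ) ^ (2 / δ) < v := hV.trans (by exact_mod_cast hvV)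
    have h2 := Real.rpow_lt_rpow (by positivity) h1 (half_pos hδ0)
    rwa [← Real.rpow_mul (by norm_num), div_mul_div_cancel₀ hδ0.ne', div_self two_ne_zero,
      Real.rpow_one] at h2
  have hsmall : (v : ℝ) ^ (-δ) < 1 / 2 * (v : ℝ) ^ (-(δ / 2)) := by
    rw [show -δ = -(δ / 2) + -(δ / 2) by ring, Real.rpow_add hvR]
    refine mul_lt_mul_of_pos_right ?_ (Real.rpow_pos_of_pos hvR _)
    rw [Real.rpow_neg hvR.le, one_div]
    exact inv_strictAnti₀ two_pos (by linarith)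
  have hhalf : (v : ℝ) ^ (-(δ / 2)) ≤ 1 :=
    Real.rpow_le_one_of_one_le_of_nonpos hv1 (by linarith)
  have hx12 : 1 / 2 ≤ (x : ℝ) := by linarith [le_abs_self ((1 : ℝ) - x)]
  refine Set.mem_biUnion (x := x) ⟨⟨?_, ?_⟩, ?_⟩ hclose
  · linarith
  · rw [hnum, hden, Int.natAbs_natCast, prod_factorization_self hu₀0.ne' huS₀,
      prod_factorization_self hv₀0.ne' hvS₀]
    refine hclose.trans_lt (hsmall.trans_le ?_)
    have hv₀R : (0 : ℝ) < v₀ := by exact_mod_cast hv₀0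
    have hle : (v₀ : ℝ) ≤ v := by exact_mod_cast Nat.le_of_dvd hv0 ⟨g, hv₀⟩
    have hu₀R : (u₀ : ℝ) = x * v₀ := by
      rw [hx]
      push_cast
      rw [div_mul_cancel₀ _ hv₀R.ne']
    rw [hu₀R, mul_assoc, mul_assoc]
    refine mul_le_mul hx12 ?_ (Real.rpow_nonneg hvR.le _) (by linarith)
    calc (v : ℝ) ^ (-(δ / 2)) ≤ (v₀ : ℝ) ^ (-(δ / 2)) :=
          Real.rpow_le_rpow_of_nonpos hv₀R hle (by linarith)
      _ = _ := by
          rw [← Real.rpow_one_add' hv₀R.le (by linarith), ← Real.rpow_one_add' hv₀R.le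
            (by linarith)]
          congr 1
          ring
  · intro h
    rw [h, Rat.cast_one] at hxR
    rw [eq_div_iff hvR.ne', one_mul] at hxR
    linarith

/-- The same for unordered pairs. -/
theorem finite_small_differences (S : Finset ℕ) (hS : ∀ l ∈ S, l.Prime) {ε : ℝ} (hε : 0 < ε) :
    {p : ℕ × ℕ | 0 < p.1 ∧ 0 < p.2 ∧ p.1 ≠ p.2 ∧ p.1.primeFactors ⊆ S ∧ p.2.primeFactors ⊆ S ∧
      |(p.1 : ℝ) - p.2| ≤ (max p.1 p.2 : ℕ) ^ (1 - ε)}.Finite := by
  refine ((finite_small_gaps S hS hε).union ((finite_small_gaps S hS hε).image Prod.swap)).subset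
    ?_
  rintro ⟨u, v⟩ ⟨hu, hv, hne, huS, hvS, h⟩
  rcases lt_or_gt_of_ne hne with hlt | hgt
  · refine Or.inl ⟨hu, hlt, huS, hvS, ?_⟩
    rw [max_eq_right hlt.le] at h
    exact le_trans (neg_sub (u : ℝ) v ▸ neg_le_abs _) h
  · refine Or.inr ⟨(v, u), ⟨hv, hgt, hvS, huS, ?_⟩, rfl⟩
    rw [max_eq_left hgt.le] at h
    exact le_trans (le_abs_self _) h

/-- Numbers composed of given primes at a given distance are finite in number. -/
theorem finite_shift (S : Finset ℕ) (hS : ∀ l ∈ S, l.Prime) {k : ℕ} (hk : 0 < k) :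
    {n : ℕ | 0 < n ∧ n.primeFactors ⊆ S ∧ (n + k).primeFactors ⊆ S}.Finite := by
  refine (((finite_small_gaps S hS (show (0 : ℝ) < 1 / 2 by norm_num)).image Prod.fst).union
    (Set.finite_Iic (k ^ 2))).subset fun n hn => ?_
  rcases le_or_gt n (k ^ 2) with h | h
  · exact Or.inr h
  refine Or.inl ⟨(n, n + k), ⟨hn.1, Nat.lt_add_of_pos_right hk, hn.2.1, hn.2.2, ?_⟩, rfl⟩
  have h1 : ((k : ℝ) ^ 2) ≤ (n + k : ℕ) := by exact_mod_cast (by omega : k ^ 2 ≤ n + k)
  rw [show (1 : ℝ) - 1 / 2 = 1 / 2 by norm_num, ← Real.sqrt_eq_rpow]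
  refine le_trans (le_of_eq ?_) (Real.le_sqrt_of_sq_le h1)
  push_cast
  ring

/-- The S-smooth successor is far away. -/
theorem exists_gap_bound (S : Finset ℕ) (hS : ∀ l ∈ S, l.Prime) {ε : ℝ} (hε : 0 < ε)
    (hε1 : ε ≤ 1) :
    ∃ N : ℕ, ∀ n n', N ≤ n → n < n' → n.primeFactors ⊆ S → n'.primeFactors ⊆ S →
      (n : ℝ) ^ (1 - ε) < (n' : ℝ) - n := by
  obtain ⟨N, hN⟩ := ((finite_small_gaps S hS hε).image Prod.fst).bddAbove
  refine ⟨N + 1, fun n n' hn hnn' hS1 hS2 => not_le.1 fun h => ?_⟩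
  have h1 : n ≤ N := hN ⟨(n, n'), ⟨by omega, hnn', hS1, hS2, h.trans (Real.rpow_le_rpow
    (Nat.cast_nonneg _) (by exact_mod_cast hnn'.le) (by linarith))⟩, rfl⟩
  omega

theorem primeFactors_pow_subset (a x : ℕ) : (a ^ x).primeFactors ⊆ a.primeFactors := by
  rcases Nat.eq_zero_or_pos x with rfl | hx
  · simp
  · rw [Nat.primeFactors_pow _ hx.ne']

/-- **Pillai's theorem** in Ridout's form. -/
theorem finite_power_gaps {a b : ℕ} (ha : 2 ≤ a) (hb : 2 ≤ b) {ε : ℝ} (hε : 0 < ε) :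
    {p : ℕ × ℕ | a ^ p.1 ≠ b ^ p.2 ∧
      |((a : ℝ) ^ p.1) - (b : ℝ) ^ p.2| ≤ (max (a ^ p.1) (b ^ p.2) : ℕ) ^ (1 - ε)}.Finite := by
  set S := (a * b).primeFactors with hS
  have haS : a.primeFactors ⊆ S := Nat.primeFactors_mono (dvd_mul_right a b) (by positivity)
  have hbS : b.primeFactors ⊆ S := Nat.primeFactors_mono (dvd_mul_left b a) (by positivity)
  refine Set.Finite.of_finite_image (f := fun p : ℕ × ℕ => (a ^ p.1, b ^ p.2))
    ((finite_small_differences S (fun l hl => Nat.prime_of_mem_primeFactors hl) hε).subset ?_) ?_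
  · rintro _ ⟨p, ⟨hne, h⟩, rfl⟩
    exact ⟨pow_pos (by omega) _, pow_pos (by omega) _, hne, (primeFactors_pow_subset a _).trans haS,
      (primeFactors_pow_subset b _).trans hbS, by push_cast at h ⊢; exact h⟩
  · intro p _ q _ h
    exact Prod.ext (Nat.pow_right_injective ha (congrArg Prod.fst h))
      (Nat.pow_right_injective hb (congrArg Prod.snd h))

/-- `a ^ x - b ^ y = P x` has finitely many solutions with non-zero right hand side. -/
theorem finite_pillai {a b : ℕ} (ha : 2 ≤ a) (hb : 2 ≤ b) (P : Polynomial ℤ) :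
    {p : ℕ × ℕ | (a : ℤ) ^ p.1 - (b : ℤ) ^ p.2 = P.eval (p.1 : ℤ) ∧
      P.eval (p.1 : ℤ) ≠ 0}.Finite := by
  set d := P.natDegree
  set C : ℝ := ∑ i ∈ range (d + 1), |(P.coeff i : ℝ)| with hC
  have hsqrt : (1 : ℝ) < Real.sqrt a := by
    rw [Real.lt_sqrt zero_le_one]
    exact_mod_cast (show 1 ^ 2 < a by omega)
  obtain ⟨N, hN⟩ : ∃ N : ℕ, ∀ x, N ≤ x → |((P.eval (x : ℤ) : ℤ) : ℝ)| ≤ Real.sqrt a ^ x := by
    have ho := (isLittleO_pow_const_const_pow_of_one_lt (R := ℝ) d hsqrt).def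
      (show (0 : ℝ) < 1 / (C + 1) by positivity)
    rw [Filter.eventually_atTop] at ho
    obtain ⟨N, hN⟩ := ho
    refine ⟨max N 1, fun x hx => ?_⟩
    have hx1 : (1 : ℝ) ≤ x := by exact_mod_cast (le_max_right N 1).trans hx
    have h := hN x ((le_max_left N 1).trans hx)
    rw [Real.norm_of_nonneg (by positivity), Real.norm_of_nonneg (by positivity)] at h
    rw [Polynomial.eval_eq_sum_range]
    push_cast
    refine (abs_sum_le_sum_abs _ _).trans ((sum_le_sum (g := fun i =>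
      |(P.coeff i : ℝ)| * (x : ℝ) ^ d) fun i hi => ?_).trans ?_)
    · rw [abs_mul, abs_pow, Nat.abs_cast]
      exact mul_le_mul_of_nonneg_left
        (pow_le_pow_right₀ hx1 (Nat.lt_succ_iff.1 (mem_range.1 hi))) (abs_nonneg _)
    · rw [← sum_mul, ← hC]
      have hC0 : 0 ≤ C := sum_nonneg fun _ _ => abs_nonneg _
      calc C * (x : ℝ) ^ d ≤ C * (1 / (C + 1) * Real.sqrt a ^ x) :=
            mul_le_mul_of_nonneg_left h hC0
        _ = C / (C + 1) * Real.sqrt a ^ x := by ring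
        _ ≤ Real.sqrt a ^ x := mul_le_of_le_one_left (by positivity)
            ((div_le_one (by positivity)).2 (by linarith))
  refine ((finite_power_gaps ha hb (show (0 : ℝ) < 1 / 2 by norm_num)).union
    ((Set.finite_Iio N).biUnion fun x _ =>
      Set.Finite.image (fun y => (x, y)) (s := {y : ℕ | (b : ℤ) ^ y = a ^ x - P.eval (x : ℤ)})
        (Set.Subsingleton.finite fun y hy z hz => Nat.pow_right_injective hb
          (by exact_mod_cast hy.trans hz.symm)))).subset ?_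
  rintro ⟨x, y⟩ ⟨heq, hne⟩
  simp only at heq hne
  rcases lt_or_ge x N with hxN | hxN
  · exact Or.inr (Set.mem_biUnion (x := x) hxN ⟨y, by
      show (b : ℤ) ^ y = a ^ x - P.eval (x : ℤ); linarith, rfl⟩)
  · refine Or.inl ⟨fun e => hne ?_, ?_⟩
    · rw [← heq, sub_eq_zero]
      exact_mod_cast e
    · have h1 : ((a : ℝ) ^ x - (b : ℝ) ^ y) = ((P.eval (x : ℤ) : ℤ) : ℝ) := by exact_mod_cast heq
      rw [h1, show (1 : ℝ) - 1 / 2 = 1 / 2 by norm_num, ← Real.sqrt_eq_rpow]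
      refine (hN x hxN).trans (Real.le_sqrt_of_sq_le ?_)
      rw [← pow_mul, mul_comm, pow_mul, Real.sq_sqrt (Nat.cast_nonneg a)]
      exact_mod_cast le_max_left (a ^ x) (b ^ y)

/-- Very good approximations with denominators composed of given primes are finite in number. -/
theorem finite_smooth_den {α : ℝ} (hα : IsAlgebraic ℚ α) (S : Finset ℕ) (hS : ∀ l ∈ S, l.Prime) :
    {x : ℚ | |α - x| < 1 / (x.den : ℝ) ^ 2 ∧ x.den.primeFactors ⊆ S}.Finite := by
  refine ((finite_sPart hα S (fun l hl => (hS l hl).pos) (show (2 : ℝ) < 3 by norm_num))).subset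
    fun x hx => ?_
  have hd : (1 : ℝ) ≤ x.den := by exact_mod_cast x.pos
  refine ⟨hx.1.le.trans ((div_le_one (by positivity)).2 (one_le_pow₀ hd)), hx.1.trans_le ?_⟩
  rw [prod_factorization_self x.den_nz hx.2, mul_assoc,
    ← Real.rpow_one_add' (by linarith) (by norm_num),
    show (1 : ℝ) + -3 = -((2 : ℕ) : ℝ) by norm_num,
    Real.rpow_neg (by linarith), Real.rpow_natCast, one_div]
  refine le_mul_of_one_le_left (by positivity) ?_
  exact_mod_cast Finset.one_le_prod' fun l hl => Nat.one_le_pow _ _ (hS l hl).pos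

/-- Very good approximations with numerators composed of given primes are finite in number. -/
theorem finite_smooth_num {α : ℝ} (hα : IsAlgebraic ℚ α) (h0 : α ≠ 0) (S : Finset ℕ)
    (hS : ∀ l ∈ S, l.Prime) :
    {x : ℚ | |α - x| < 1 / (x.den : ℝ) ^ 2 ∧ x.num.natAbs.primeFactors ⊆ S}.Finite := by
  obtain ⟨B, hB⟩ := exists_nat_gt (max (4 / α ^ 2) (2 / |α|))
  refine ((finite_sPart hα S (fun l hl => (hS l hl).pos) (show (2 : ℝ) < 5 / 2 by norm_num)).union
    (finite_den_le α 1 B)).subset fun x hx => ?_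
  have hd : (1 : ℝ) ≤ x.den := by exact_mod_cast x.pos
  have hx1 : |α - x| ≤ 1 :=
    hx.1.le.trans ((div_le_one (by positivity)).2 (one_le_pow₀ hd))
  rcases le_or_gt x.den B with hxB | hxB
  · exact Or.inr ⟨hx1, hxB⟩
  refine Or.inl ⟨hx1, hx.1.trans_le ?_⟩
  have hαp := abs_pos.2 h0
  have hq : max (4 / α ^ 2) (2 / |α|) < x.den := hB.trans (by exact_mod_cast hxB)
  have hhalf : |α| / 2 ≤ |(x : ℝ)| := by
    have h1 : 1 / (x.den : ℝ) ^ 2 ≤ |α| / 2 := by
      have h2 := (le_max_right _ _).trans hq.le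
      rw [div_le_iff₀ hαp] at h2
      rw [div_le_iff₀ (by positivity)]
      have h3 : (x.den : ℝ) * |α| ≤ (x.den : ℝ) ^ 2 * |α| :=
        mul_le_mul_of_nonneg_right (le_self_pow₀ hd two_ne_zero) hαp.le
      linarith
    linarith [abs_sub_abs_le_abs_sub α (x : ℝ), hx.1]
  have hnum : (x.num.natAbs : ℝ) = |(x : ℝ)| * x.den := by
    rw [Nat.cast_natAbs, Int.cast_abs, show (x.num : ℝ) = (x : ℝ) * x.den by
      exact_mod_cast (Rat.mul_den_eq_num x).symm, abs_mul, Nat.abs_cast]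
  have hnum0 : x.num.natAbs ≠ 0 := fun e => by
    rw [e, Nat.cast_zero] at hnum
    have : 0 < |(x : ℝ)| * x.den := mul_pos (by linarith) (by linarith)
    linarith
  rw [prod_factorization_self hnum0 hx.2, mul_assoc]
  have hqrt : (x.den : ℝ) ^ (1 / 2 : ℝ) ≤ x.num.natAbs := by
    have h2 := (le_max_left _ _).trans hq.le
    rw [div_le_iff₀ (by positivity)] at h2
    rw [hnum, ← Real.sqrt_eq_rpow, Real.sqrt_le_iff]
    refine ⟨by positivity, ?_⟩
    have h4 : |α| ^ 2 / 4 ≤ |(x : ℝ)| ^ 2 := by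
      have := pow_le_pow_left₀ (by positivity) hhalf 2
      linarith [show (|α| / 2) ^ 2 = |α| ^ 2 / 4 by ring]
    rw [sq_abs] at h4
    calc (x.den : ℝ) ≤ α ^ 2 / 4 * (x.den : ℝ) * x.den :=
          le_mul_of_one_le_left (by linarith) (by linarith)
      _ ≤ |(x : ℝ)| ^ 2 * (x.den : ℝ) * x.den := by gcongr
      _ = _ := by ring
  have h3 : 1 / (x.den : ℝ) ^ 2 = (x.den : ℝ) ^ (1 / 2 : ℝ) * (x.den : ℝ) ^ (-(5 / 2) : ℝ) := by
    rw [← Real.rpow_add (by linarith), show (1 / 2 : ℝ) + -(5 / 2) = -((2 : ℕ) : ℝ) by norm_num,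
      Real.rpow_neg (by linarith), Real.rpow_natCast, one_div]
  rw [h3]
  refine mul_le_mul hqrt (le_mul_of_one_le_left (Real.rpow_nonneg (by linarith) _) ?_)
    (Real.rpow_nonneg (by linarith) _) (Nat.cast_nonneg _)
  exact_mod_cast Finset.one_le_prod' fun l hl => Nat.one_le_pow _ _ (hS l hl).pos

/-- The greatest prime factors of the denominators and numerators of very good approximations of
an algebraic number tend to infinity. -/
theorem exists_large_prime {α : ℝ} (hα : IsAlgebraic ℚ α) (h0 : α ≠ 0) (B : ℕ) :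
    ∃ N : ℕ, ∀ x : ℚ, N < x.den → |α - x| < 1 / (x.den : ℝ) ^ 2 →
      (∃ l, B < l ∧ l ∈ x.den.primeFactors) ∧ ∃ l, B < l ∧ l ∈ x.num.natAbs.primeFactors := by
  have hS : ∀ l ∈ (range (B + 1)).filter Nat.Prime, l.Prime := fun l hl => (mem_filter.1 hl).2
  obtain ⟨N, hN⟩ := (((finite_smooth_den hα _ hS).union
    (finite_smooth_num hα h0 _ hS)).image Rat.den).bddAbove
  refine ⟨N, fun x hx hlt => ?_⟩
  have key : ∀ n : ℕ, ¬n.primeFactors ⊆ (range (B + 1)).filter Nat.Prime →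
      ∃ l, B < l ∧ l ∈ n.primeFactors := fun n hn => by
    obtain ⟨l, hl, hl'⟩ := Finset.not_subset.1 hn
    refine ⟨l, not_le.1 fun h => hl' (mem_filter.2 ⟨mem_range.2 (Nat.lt_succ_of_le h),
      Nat.prime_of_mem_primeFactors hl⟩), hl⟩
  exact ⟨key _ fun h => absurd (hN ⟨x, Or.inl ⟨hlt, h⟩, rfl⟩) (not_le.2 hx),
    key _ fun h => absurd (hN ⟨x, Or.inr ⟨hlt, h⟩, rfl⟩) (not_le.2 hx)⟩

end FA.Roth

end
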