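import Fermat.Agent.Roth.Wronskian
import Fermat.Agent.Thue.Approximation
import Mathlib.LinearAlgebra.FreeModule.Finite.Basic
import Mathlib.LinearAlgebra.Matrix.FiniteDimensional

/-!
# Roth's lemma

An integer polynomial of bounded partial degrees with small coefficients has small index at a
point whose coordinates are rationals with large denominators, provided that the degrees decrease
fast. The proof is by induction on the number of variables: a generalised Wronskian factors as a
product of a polynomial in the first variable and one in the others.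
Of the points only one property is used:
a number `q` bounding from below the coefficients of an integer polynomial that vanishes there
(`HeightLE`), such as the denominator of a rational or the absolute height of an algebraic number.
-/

set_option autoImplicit false

noncomputable section

namespace FA.Roth

open MvPolynomial Finset

theorem sum_range_id_cast (m : ℕ) : ∑ j ∈ range m, (j : ℝ) = (m : ℝ) * (m - 1) / 2 := by
  induction m with
  | zero => simp
  | succ m ih => rw [sum_range_succ, ih]; push_cast; ring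

theorem sum_max_ge {k r : ℕ} (hk : k ≤ r + 1) (hr : 0 < r) {δ σ : ℝ} (hδ : 0 < δ) (hδ1 : δ ≤ 1)
    (hσ : 0 ≤ σ) :
    (k : ℝ) * δ ^ 2 / 4 - k * σ ≤ ∑ j ∈ range k, max (δ - σ - (j : ℝ) / r) 0 := by
  have hr' : (0 : ℝ) < r := by exact_mod_cast hr
  have hstep : ∀ j : ℕ, max (δ - (j : ℝ) / r) 0 - σ ≤ max (δ - σ - (j : ℝ) / r) 0 := fun j => by
    have h1 := le_max_left (δ - σ - (j : ℝ) / r) 0
    have h2 := le_max_right (δ - σ - (j : ℝ) / r) 0
    rcases max_choice (δ - (j : ℝ) / r) 0 with h | h <;> rw [h] <;> linarith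
  refine le_trans ?_ (sum_le_sum fun j _ => hstep j)
  rw [sum_sub_distrib, sum_const, card_range, nsmul_eq_mul, sub_le_sub_iff_right]
  suffices h : ∃ m ≤ k, ((m : ℝ) - 1) ≤ δ * r ∧ (k : ℝ) * δ ^ 2 / 4 ≤ m * δ / 2 by
    obtain ⟨m, hmk, hm, hge⟩ := h
    refine hge.trans (le_trans ?_ ((sum_le_sum (s := range m) fun j _ =>
      le_max_left (δ - (j : ℝ) / r) 0).trans
      (sum_le_sum_of_subset_of_nonneg (range_subset_range.2 hmk) fun j _ _ =>
        le_max_right (δ - (j : ℝ) / r) 0)))
    rw [sum_sub_distrib, sum_const, card_range, nsmul_eq_mul, ← sum_div, sum_range_id_cast]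
    have h1 : (m : ℝ) * ((m : ℝ) - 1) / 2 / r ≤ m * δ / 2 := by
      rw [div_le_iff₀ hr']
      have := mul_le_mul_of_nonneg_left hm (Nat.cast_nonneg (α := ℝ) m)
      linarith
    linarith
  have hk0 : (0 : ℝ) ≤ k := Nat.cast_nonneg k
  have hsq : δ ^ 2 ≤ δ := by nlinarith
  by_cases hcase : (k : ℝ) - 1 ≤ δ * r
  · refine ⟨k, le_rfl, hcase, ?_⟩
    have := mul_le_mul_of_nonneg_left hsq hk0
    have := mul_nonneg hk0 hδ.le
    linarith
  refine ⟨⌊δ * r⌋₊ + 1, ?_, ?_, ?_⟩
  · have h1 := Nat.floor_le (mul_nonneg hδ.le hr'.le)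
    have h2 : (⌊δ * r⌋₊ : ℝ) + 1 < k := by linarith [not_le.1 hcase]
    exact_mod_cast h2.le
  · push_cast
    linarith [Nat.floor_le (mul_nonneg hδ.le hr'.le)]
  · have h1 := (Nat.lt_floor_add_one (δ * r)).le
    have h2 : (k : ℝ) ≤ 2 * r := by exact_mod_cast (show k ≤ 2 * r by omega)
    push_cast
    nlinarith [mul_le_mul_of_nonneg_right h2 (sq_nonneg δ), mul_le_mul_of_nonneg_left h1 hδ.le]

/-- A separated decomposition with independent factors. -/
theorem exists_decomposition {n : ℕ} {r : Fin (n + 1) → ℕ} {P : MvPolynomial (Fin (n + 1)) ℚ}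
    (hP : BoxDeg r P) :
    ∃ (k : ℕ) (φ : Fin k → MvPolynomial (Fin n) ℚ) (ψ : Fin k → Polynomial ℚ),
      k ≤ r 0 + 1 ∧ LinearIndependent ℚ φ ∧ LinearIndependent ℚ ψ ∧
        P = ∑ l, sep (φ l) (ψ l) := by
  classical
  set S : Fin (r 0 + 1) → MvPolynomial (Fin n) ℚ := fun b => slice (b : ℕ) P with hS
  set V := Submodule.span ℚ (Set.range S) with hV
  have : Module.Finite ℚ V := Module.Finite.span_of_finite ℚ (Set.finite_range S)
  set B := Module.finBasis ℚ V with hB
  set k := Module.finrank ℚ V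
  set φ : Fin k → MvPolynomial (Fin n) ℚ := fun l => (B l : MvPolynomial (Fin n) ℚ) with hφ
  set c : Fin (r 0 + 1) → Fin k → ℚ :=
    fun b l => B.repr ⟨S b, Submodule.subset_span ⟨b, rfl⟩⟩ l with hc
  set ψ : Fin k → Polynomial ℚ := fun l =>
    ∑ b : Fin (r 0 + 1), Polynomial.monomial (b : ℕ) (c b l) with hψ
  have hψc : ∀ l (b : Fin (r 0 + 1)), (ψ l).coeff b = c b l := fun l b => by
    simp [ψ, Polynomial.coeff_monomial, Fin.val_inj]
  refine ⟨k, φ, ψ, ?_, ?_, ?_, ?_⟩
  · exact (finrank_range_le_card S).trans_eq (Fintype.card_fin _)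
  · exact B.linearIndependent.map' V.subtype (Submodule.ker_subtype V)
  · rw [Fintype.linearIndependent_iff]
    intro a ha j
    set F : V →ₗ[ℚ] ℚ := ∑ l, a l • B.coord l with hF
    have hFS : ∀ b, F ⟨S b, Submodule.subset_span ⟨b, rfl⟩⟩ = 0 := fun b => by
      have h := congrArg (fun p => Polynomial.coeff p (b : ℕ)) ha
      simp only [Polynomial.finsetSum_coeff, Polynomial.coeff_smul, hψc, Polynomial.coeff_zero,
        smul_eq_mul] at h
      simpa [F] using h
    obtain ⟨e, he⟩ := (Submodule.mem_span_range_iff_exists_fun ℚ).1 (B j).2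
    have hBj : B j = ∑ b, e b • (⟨S b, Submodule.subset_span ⟨b, rfl⟩⟩ : V) :=
      Subtype.ext (by simpa using he.symm)
    have : F (B j) = 0 := by
      rw [hBj, map_sum]
      exact sum_eq_zero fun b _ => by rw [map_smul, hFS, smul_zero]
    simpa [F, Finsupp.single_apply] using this
  · refine ext_cons fun j μ => ?_
    simp only [coeff_sum, coeff_sep]
    rcases lt_or_ge j (r 0 + 1) with hj | hj
    · have h1 : ∑ l, c ⟨j, hj⟩ l • φ l = S ⟨j, hj⟩ := by
        have := congrArg V.subtype (B.sum_repr ⟨S ⟨j, hj⟩, Submodule.subset_span ⟨_, rfl⟩⟩)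
        simp only [map_sum, map_smul, Submodule.coe_subtype] at this
        exact this
      have h2 := congrArg (coeff μ) h1
      simp only [coeff_sum, coeff_smul, smul_eq_mul, S, coeff_slice] at h2
      rw [← h2]
      exact sum_congr rfl fun l _ => by rw [← hψc l ⟨j, hj⟩]
    · have hψ0 : ∀ l, (ψ l).coeff j = 0 := fun l => by
        simp only [ψ, Polynomial.finsetSum_coeff, Polynomial.coeff_monomial]
        exact sum_eq_zero fun b _ => if_neg (by omega)
      simp only [hψ0, zero_mul, sum_const_zero]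
      by_contra h
      have := hP _ h 0
      rw [Finsupp.cons_zero] at this
      omega

/-- `q` is a lower bound for the height of `x`: the `t`-th power of `q` is at most the sum of the
absolute values of the coefficients of an integer polynomial with a `t`-fold zero at `x`. -/
def HeightLE {L : Type*} [CommRing L] (x : L) (q : ℝ) : Prop :=
  0 ≤ q ∧ ∀ (V : Polynomial ℤ) (t : ℕ), V ≠ 0 →
    (Polynomial.X - Polynomial.C x) ^ t ∣ V.map (Int.castRingHom L) →
      q ^ t ≤ ∑ j ∈ V.support, |(V.coeff j : ℝ)|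

theorem heightLE_den (x : ℚ) : HeightLE x x.den := by
  refine ⟨Nat.cast_nonneg _, fun V t hV h =>
    ((pow_le_pow_left₀ (Nat.cast_nonneg _) (Thue.den_le_height x) t).trans
      (Thue.height_pow_le hV h).1).trans ?_⟩
  exact max_le
    (single_le_sum (f := fun j => |(V.coeff j : ℝ)|) (fun _ _ => abs_nonneg _)
      (Polynomial.natDegree_mem_support_of_nonzero hV))
    (single_le_sum (f := fun j => |(V.coeff j : ℝ)|) (fun _ _ => abs_nonneg _)
      (Polynomial.natTrailingDegree_mem_support_of_nonzero hV))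

/-- The index of a polynomial with small coefficients at a point of large heights. -/
def SmallIndex (L : Type*) [Field L] [CharZero L] (n : ℕ) (δ σ : ℝ) : Prop :=
  ∀ (r : Fin n → ℕ) (x : Fin n → L) (q : Fin n → ℝ) (R : ℕ) (Q : ℝ)
    (P : MvPolynomial (Fin n) ℤ),
    P ≠ 0 → BoxDeg r P → (∀ h, 0 < r h) → (∀ h, r h ≤ R) →
    (∀ h h', h < h' → (r h : ℝ) ≤ σ * r h') → 1 ≤ Q → (∀ h, HeightLE (x h) (q h)) →
    (∀ h, Q ≤ q h ^ r h) → len P * 2 ^ ((n + 1) ^ 2 * R) ≤ Q ^ σ →
    ∃ μ, coeff μ (taylor x (MvPolynomial.map (Int.castRingHom L) P)) ≠ 0 ∧ weight r μ ≤ δ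

theorem smallIndex_succ {L : Type*} [Field L] [CharZero L] {n : ℕ} {δ σ σ' : ℝ} (hδ : 0 < δ)
    (hδ1 : δ ≤ 1) (hσ : 0 < σ)
    (hσσ' : σ ≤ σ') (hσδ : σ ≤ δ ^ 2 / 32) (ih : SmallIndex L n (δ ^ 2 / 16) σ') :
    SmallIndex L (n + 1) δ σ := by
  classical
  intro r x q R Q P hP hbox hr hR hratio hQ hxq hxQ hlen
  by_contra! hno
  set c : ℤ →+* ℚ := Int.castRingHom ℚ
  have hc : Function.Injective c := Int.cast_injective
  set ι : ℚ →+* L := algebraMap ℚ L
  have hι : ι.comp c = Int.castRingHom L := RingHom.ext_int _ _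
  set Pq := MvPolynomial.map c P with hPq
  have hPq0 : Pq ≠ 0 := fun e => hP (map_injective c hc (by rw [map_zero]; exact e))
  obtain ⟨k, φ, ψ, hkr, hφ, hψ, hdec⟩ := exists_decomposition (hbox.map c)
  have hk0 : 0 < k := Nat.pos_of_ne_zero fun e => by subst e; exact hPq0 (by simpa using hdec)
  obtain ⟨μs, hμs, hU0⟩ := exists_wronskian_ne_zero hφ
  have hV0 := det_hasseDeriv_ne_zero hψ
  set A := Matrix.of fun i l : Fin k => hasse (μs i) (φ l)
  set B := Matrix.of fun i l : Fin k => Polynomial.hasseDeriv i (ψ l)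
  set W := (Matrix.of fun i j : Fin k => hasse (Finsupp.cons (j : ℕ) (μs i)) P).det with hW
  have hWq : MvPolynomial.map c W = sep A.det B.det := by
    rw [hW, RingHom.map_det, sep, ← Matrix.det_transpose B, AlgHom.map_det, AlgHom.map_det,
      ← Matrix.det_mul]
    congr 1
    ext1 i j
    show MvPolynomial.map c (hasse (Finsupp.cons (j : ℕ) (μs i)) P) = _
    rw [← hasse_map, hdec, map_sum]
    simp [Matrix.mul_apply, hasse_sep, A, B]
    rfl
  have hWc : ∀ j μ, (c (coeff (Finsupp.cons j μ) W)) = B.det.coeff j * coeff μ A.det :=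
    fun j μ => by rw [← coeff_map, hWq, coeff_sep]
  have hboxW : BoxDeg (k • r) W := by
    have := BoxDeg.det (r := r) (M := Matrix.of fun i j : Fin k =>
      hasse (Finsupp.cons (j : ℕ) (μs i)) P) fun i j => hbox.hasse _
    simpa using this
  have hr0R : r 0 ≤ R := hR 0
  have hR1 : 1 ≤ R := by have := hr 0; omega
  have hL1 : 1 ≤ len P := one_le_len hP
  have hlenW : len W ≤ (2 ^ ((n + 2) * R) * len P) ^ k := by
    refine (len_det_le (B := 2 ^ ((n + 1) * R) * len P) fun i j => ?_).trans ?_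
    · refine (len_hasse_le hbox _).trans (mul_le_mul_of_nonneg_right ?_ (len_nonneg P))
      refine pow_le_pow_right₀ one_le_two ((sum_le_card_nsmul _ _ R fun h _ => hR h).trans ?_)
      simp
    · have h1 : k.factorial ≤ (2 ^ R) ^ k := (Nat.factorial_le_pow k).trans
        (Nat.pow_le_pow_left ((hkr.trans (Nat.succ_le_succ hr0R)).trans Nat.lt_two_pow_self) k)
      rw [Fintype.card_fin, show (n + 2) * R = R + (n + 1) * R by ring, pow_add, mul_assoc,
        mul_pow (2 ^ R : ℝ)]
      exact mul_le_mul_of_nonneg_right (by exact_mod_cast h1)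
        (pow_nonneg (mul_nonneg (by positivity) (len_nonneg P)) k)
  have hQ0 : 0 < Q := by linarith
  have hbase : 2 ^ ((n + 2) * R) * len P * 2 ^ ((n + 1) ^ 2 * R) ≤ Q ^ σ := by
    refine le_trans ?_ hlen
    rw [mul_comm (2 ^ ((n + 2) * R)), mul_assoc, ← pow_add]
    refine mul_le_mul_of_nonneg_left (pow_le_pow_right₀ one_le_two ?_) (len_nonneg P)
    rw [← add_mul]
    exact Nat.mul_le_mul_right R (by ring_nf; omega)
  -- the factor in the last variables
  have hsl : MvPolynomial.map c (slice B.det.natDegree W) = B.det.leadingCoeff • A.det := by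
    ext μ
    rw [coeff_map, coeff_slice, hWc, coeff_smul, smul_eq_mul, Polynomial.coeff_natDegree]
  have hU' : slice B.det.natDegree W ≠ 0 := fun e => by
    rw [e, map_zero] at hsl
    exact smul_ne_zero (Polynomial.leadingCoeff_ne_zero.2 hV0) hU0 hsl.symm
  obtain ⟨μ, hμU, hμw⟩ := ih (fun h => k * r h.succ) (fun h => x h.succ) (fun h => q h.succ)
    (k * R) (Q ^ k)
    (slice B.det.natDegree W) hU' (hboxW.slice _) (fun h => Nat.mul_pos hk0 (hr _))
    (fun h => Nat.mul_le_mul_left k (hR _))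
    (fun h h' hh => by
      push_cast
      rw [mul_left_comm σ']
      refine mul_le_mul_of_nonneg_left ((hratio _ _ (Fin.succ_lt_succ_iff.2 hh)).trans ?_)
        (Nat.cast_nonneg k)
      exact mul_le_mul_of_nonneg_right hσσ' (Nat.cast_nonneg _))
    (one_le_pow₀ hQ) (fun h => hxq _)
    (fun h => by
      rw [mul_comm k, pow_mul]
      exact pow_le_pow_left₀ hQ0.le (hxQ _) k)
    (by
      refine (mul_le_mul_of_nonneg_right ((len_slice_le _ W).trans hlenW)
        (pow_nonneg zero_le_two _)).trans ?_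
      rw [show (n + 1) ^ 2 * (k * R) = (n + 1) ^ 2 * R * k by ring,
        pow_mul (2 : ℝ) ((n + 1) ^ 2 * R) k, ← mul_pow,
        ← Real.rpow_natCast_mul hQ0.le, mul_comm (k : ℝ), Real.rpow_mul_natCast hQ0.le]
      exact pow_le_pow_left₀ (mul_nonneg (mul_nonneg (by positivity) (len_nonneg P))
        (by positivity)) (hbase.trans (Real.rpow_le_rpow_of_exponent_le hQ hσσ')) k)
  rw [← hι, ← MvPolynomial.map_map, hsl, MvPolynomial.smul_eq_C_mul, map_mul, map_C, map_mul,
    taylor,
    aeval_C, MvPolynomial.algebraMap_eq, coeff_C_mul, ← taylor] at hμU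
  -- the order of the factor in the first variable
  obtain ⟨μ₀, hμ₀⟩ := ne_zero_iff.1 hU0
  set V' : Polynomial ℤ := ∑ j ∈ range (k * r 0 + 1),
    Polynomial.monomial j (coeff (Finsupp.cons j μ₀) W) with hV'
  have hV'c : ∀ j, V'.coeff j = coeff (Finsupp.cons j μ₀) W := fun j => by
    simp only [hV', Polynomial.finsetSum_coeff, Polynomial.coeff_monomial, sum_ite_eq',
      mem_range]
    split_ifs with hj
    · rfl
    · by_contra h
      have := hboxW _ (Ne.symm h) 0
      simp at this
      omega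
  have hV'map : V'.map c = Polynomial.C (coeff μ₀ A.det) * B.det := by
    ext j
    rw [Polynomial.coeff_map, Polynomial.coeff_C_mul, hV'c, hWc, mul_comm]
  have hV'0 : V' ≠ 0 := fun e => by
    rw [e, Polynomial.map_zero] at hV'map
    exact mul_ne_zero (Polynomial.C_ne_zero.2 hμ₀) hV0 hV'map.symm
  set T := Polynomial.taylor (x 0) (B.det.map ι) with hT
  have hT0 : T ≠ 0 := fun e => (Polynomial.map_ne_zero_iff ι.injective).2 hV0
    (Polynomial.taylor_injective (x 0) (by rw [map_zero]; exact e))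
  set t := T.natTrailingDegree
  have hTt : T.coeff t ≠ 0 := Polynomial.trailingCoeff_nonzero_iff_nonzero.2 hT0
  have hdvd : (Polynomial.X - Polynomial.C (x 0)) ^ t ∣ V'.map (Int.castRingHom L) := by
    rw [← hι, ← Polynomial.map_map, hV'map, Polynomial.map_mul]
    refine Dvd.dvd.mul_left (Thue.pow_dvd_iff.2 fun j hj => ?_) _
    rw [← Polynomial.taylor_coeff]
    exact Polynomial.coeff_eq_zero_of_lt_natTrailingDegree hj
  have hden : q 0 ^ t ≤ (Q ^ σ) ^ k := by
    refine ((hxq 0).2 V' t hV'0 hdvd).trans (le_trans ?_ (hlenW.trans (pow_le_pow_left₀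
      (mul_nonneg (by positivity) (len_nonneg P))
      (le_trans (le_mul_of_one_le_right (mul_nonneg (by positivity) (len_nonneg P))
        (one_le_pow₀ one_le_two)) hbase) k)))
    simp only [hV'c]
    rw [← sum_image (f := fun s => |((coeff s W : ℤ) : ℝ)|)
      (g := fun j : ℕ => Finsupp.cons j μ₀)
      fun a _ b _ h => by simpa using DFunLike.congr_fun h 0]
    refine sum_le_sum_of_subset_of_nonneg (fun s hs => ?_) fun _ _ _ => abs_nonneg _
    obtain ⟨j, hj, rfl⟩ := mem_image.1 hs
    rwa [mem_support_iff, ← hV'c, ← Polynomial.mem_support_iff]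
  have hq1 : 1 < q 0 := by
    by_contra hle
    have h2 : Q = 1 :=
      le_antisymm ((hxQ 0).trans (pow_le_one₀ (hxq 0).1 (not_lt.1 hle))) hQ
    rw [h2, Real.one_rpow] at hlen
    have h3 : (2 : ℝ) ≤ len P * 2 ^ ((n + 1 + 1) ^ 2 * R) :=
      le_trans (le_self_pow₀ one_le_two (Nat.mul_pos (by positivity) hR1).ne')
        (le_mul_of_one_le_left (by positivity) hL1)
    linarith
  have htb : (t : ℝ) ≤ r 0 * σ * k := by
    rw [← Real.rpow_le_rpow_left_iff hq1, Real.rpow_natCast, Real.rpow_mul_natCast (by linarith),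
      Real.rpow_natCast_mul (by linarith)]
    exact hden.trans (pow_le_pow_left₀ (by positivity)
      (Real.rpow_le_rpow hQ0.le (hxQ 0) hσ.le) k)
  have hne : coeff (Finsupp.cons t μ)
      (taylor x (MvPolynomial.map (Int.castRingHom L) W)) ≠ 0 := by
    rw [← hι, ← MvPolynomial.map_map, hWq, map_sep, taylor_sep, coeff_sep]
    exact mul_ne_zero hTt (right_ne_zero_of_mul hμU)
  -- the Wronskian vanishes to a higher order
  have hr0 : (0 : ℝ) < r 0 := by exact_mod_cast hr 0
  have hsmall : ∀ i : Fin k, weight (Fin.tail r) (μs i) ≤ σ := by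
    intro i
    calc weight (Fin.tail r) (μs i) ≤ ∑ h, σ / r 0 * (μs i h : ℝ) := by
          refine sum_le_sum fun h _ => ?_
          have hrh : (0 : ℝ) < r h.succ := by exact_mod_cast hr h.succ
          show (μs i h : ℝ) / r h.succ ≤ σ / r 0 * (μs i h : ℝ)
          rw [div_eq_inv_mul]
          refine mul_le_mul_of_nonneg_right ?_ (Nat.cast_nonneg _)
          rw [inv_le_iff_one_le_mul₀ hrh, div_mul_eq_mul_div, one_le_div hr0]
          exact hratio 0 h.succ (Fin.succ_pos h)
      _ ≤ σ / r 0 * r 0 := by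
          rw [← mul_sum]
          refine mul_le_mul_of_nonneg_left ?_ (by positivity)
          have := hμs i
          have := i.isLt
          exact_mod_cast (show ∑ h, μs i h ≤ r 0 by omega)
      _ = σ := div_mul_cancel₀ σ hr0.ne'
  have hvan : VanishBelow x r δ (MvPolynomial.map (Int.castRingHom L) P) := fun ν hν => by
    by_contra h
    exact (hno ν h).not_gt hν
  have hvanW : VanishBelow x r (∑ j : Fin k, max (δ - σ - ((j : ℕ) : ℝ) / r 0) 0)
      (MvPolynomial.map (Int.castRingHom L) W) := by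
    rw [hW, RingHom.map_det]
    refine VanishBelow.det fun i j => ?_
    show VanishBelow x r _ (MvPolynomial.map (Int.castRingHom L) (hasse _ P))
    rw [← hasse_map]
    rcases max_choice (δ - σ - ((j : ℕ) : ℝ) / r 0) 0 with h | h <;> rw [h]
    · refine (hvan.hasse _).mono ?_
      rw [weight_cons]
      linarith [hsmall i]
    · exact VanishBelow.of_nonpos le_rfl _
  refine hne (hvanW _ (lt_of_lt_of_le ?_ ((sum_max_ge hkr (hr 0) hδ hδ1 hσ.le).trans
    (le_of_eq (Fin.sum_univ_eq_sum_range (fun j => max (δ - σ - (j : ℝ) / r 0) 0) k).symm))))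
  have hk : (0 : ℝ) < k := by exact_mod_cast hk0
  have hw : weight (fun h : Fin n => k * r h.succ) μ = weight (Fin.tail r) μ / k :=
    weight_smul (Fin.tail r) k μ
  rw [hw, div_le_iff₀ hk] at hμw
  rw [weight_cons]
  have h1 : (t : ℝ) / r 0 ≤ σ * k := by
    rw [div_le_iff₀ hr0]
    linarith
  have h2 := mul_le_mul_of_nonneg_left hσδ hk.le
  have h3 : 0 < (k : ℝ) * δ ^ 2 := by positivity
  linarith

/-- **Roth's lemma.** -/
theorem exists_smallIndex (L : Type*) [Field L] [CharZero L] (n : ℕ) : ∀ δ : ℝ, 0 < δ → δ ≤ 1 →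
    ∃ σ : ℝ, 0 < σ ∧ σ < 1 ∧ SmallIndex L n δ σ := by
  induction n with
  | zero =>
    refine fun δ hδ _ => ⟨1 / 2, by norm_num, by norm_num, ?_⟩
    intro r x q R Q P hP _ _ _ _ _ _ _ _
    obtain ⟨μ, hμ⟩ := ne_zero_iff.1 (taylor_ne_zero x (P := MvPolynomial.map (Int.castRingHom L) P)
      fun e => hP (map_injective _ Int.cast_injective (by rw [map_zero]; exact e)))
    exact ⟨μ, hμ, by simpa [weight] using hδ.le⟩
  | succ n ih =>
    intro δ hδ hδ1
    obtain ⟨σ', hσ', hσ'1, h⟩ := ih (δ ^ 2 / 16) (by positivity) (by nlinarith)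
    exact ⟨min σ' (δ ^ 2 / 32), lt_min hσ' (by positivity), (min_le_left _ _).trans_lt hσ'1,
      smallIndex_succ hδ hδ1 (lt_min hσ' (by positivity)) (min_le_left _ _) (min_le_right _ _) h⟩

end FA.Roth

end
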