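import Mathlib.Algebra.MvPolynomial.CommRing
import Mathlib.Algebra.MvPolynomial.Equiv
import Mathlib.Algebra.Polynomial.HasseDeriv
import Mathlib.Algebra.Polynomial.Taylor
import Mathlib.Algebra.Polynomial.AlgebraMap
import Mathlib.Algebra.BigOperators.Field
import Mathlib.Data.Nat.Choose.Bounds
import Mathlib.Data.Real.Basic
import Mathlib.LinearAlgebra.Matrix.Determinant.Basic

/-!
# Hasse derivatives in several variables

The divided partial derivatives of a polynomial, its Taylor coefficients at a point, the sum of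
the absolute values of the coefficients of an integer polynomial and the weighted order of
vanishing (the index of Roth).
-/

set_option autoImplicit false

noncomputable section

namespace FA.Roth

open MvPolynomial Finset

section Hasse

variable {σ R : Type*} [CommRing R]

/-- `P ↦ P (x + y)` as a polynomial in `y` over the polynomials in `x`. -/
def shift : MvPolynomial σ R →ₐ[R] MvPolynomial σ (MvPolynomial σ R) :=
  aeval fun h => X h + C (X h)

/-- The divided partial derivative `∂^μ / μ!`. -/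
def hasse (μ : σ →₀ ℕ) : MvPolynomial σ R →ₗ[R] MvPolynomial σ R where
  toFun P := coeff μ (shift P)
  map_add' P Q := by simp
  map_smul' c P := by simp [coeff_smul]

theorem hasse_apply (μ : σ →₀ ℕ) (P : MvPolynomial σ R) : hasse μ P = coeff μ (shift P) := rfl

/-- The expansion of `P` at the point `a`. -/
def taylor (a : σ → R) : MvPolynomial σ R →ₐ[R] MvPolynomial σ R :=
  aeval fun h => X h + C (a h)

theorem map_eval_shift (a : σ → R) (P : MvPolynomial σ R) :
    MvPolynomial.map (eval a) (shift P) = taylor a P := by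
  induction P using MvPolynomial.induction_on with
  | C r => simp [shift, taylor]
  | add p q hp hq => simp [hp, hq]
  | mul_X p h hp => simp [shift, taylor] at hp ⊢; rw [hp]

theorem coeff_taylor (a : σ → R) (P : MvPolynomial σ R) (μ : σ →₀ ℕ) :
    coeff μ (taylor a P) = eval a (hasse μ P) := by
  rw [hasse_apply, ← map_eval_shift, coeff_map]

theorem taylor_ne_zero (a : σ → R) {P : MvPolynomial σ R} (hP : P ≠ 0) : taylor a P ≠ 0 := by
  intro h
  have hcomp : (taylor (fun i => -a i)).comp (taylor a) = AlgHom.id R _ :=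
    MvPolynomial.algHom_ext fun i => by simp [taylor]
  have := DFunLike.congr_fun hcomp P
  rw [AlgHom.comp_apply, h, map_zero, AlgHom.id_apply] at this
  exact hP this.symm

variable [Fintype σ]

/-- The product of the binomial coefficients of a divided derivative. -/
def binom (μ ν : σ →₀ ℕ) : ℕ := ∏ h, (μ h + ν h).choose (μ h)

theorem binom_succ (μ ν : σ →₀ ℕ) [DecidableEq σ] (h : σ) (hne : μ h + ν h ≠ 0) :
    binom μ ν = (if μ h ≠ 0 then binom (μ - Finsupp.single h 1) ν else 0) +
      (if ν h ≠ 0 then binom μ (ν - Finsupp.single h 1) else 0) := by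
  have hsplit : ∀ (μ' ν' : σ →₀ ℕ), (∀ k, k ≠ h → μ' k = μ k) → (∀ k, k ≠ h → ν' k = ν k) →
      binom μ' ν' = (μ' h + ν' h).choose (μ' h) *
        ∏ k ∈ univ.erase h, (μ k + ν k).choose (μ k) := by
    intro μ' ν' hμ hν
    rw [binom, ← mul_prod_erase univ _ (mem_univ h)]
    congr 1
    refine prod_congr rfl fun k hk => ?_
    rw [hμ k (ne_of_mem_erase hk), hν k (ne_of_mem_erase hk)]
  have hsub : ∀ (μ' : σ →₀ ℕ) (k : σ), k ≠ h → (μ' - (Finsupp.single h 1 : σ →₀ ℕ)) k = μ' k :=
    fun μ' k hk => by simp [Finsupp.single_eq_of_ne hk]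
  rw [hsplit μ ν (fun _ _ => rfl) (fun _ _ => rfl), hsplit _ ν (hsub μ) (fun _ _ => rfl),
    hsplit μ _ (fun _ _ => rfl) (hsub ν)]
  simp only [Finsupp.tsub_apply, Finsupp.single_eq_same]
  rcases Nat.eq_zero_or_pos (μ h) with hμ | hμ
  · simp [hμ, show ν h ≠ 0 by omega]
  · rcases Nat.eq_zero_or_pos (ν h) with hν | hν
    · simp [hν, hμ.ne']
    · rw [if_pos hμ.ne', if_pos hν.ne', ← add_mul]
      congr 1
      obtain ⟨a, ha⟩ : ∃ a, μ h = a + 1 := ⟨μ h - 1, by omega⟩
      obtain ⟨b, hb⟩ : ∃ b, ν h = b + 1 := ⟨ν h - 1, by omega⟩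
      rw [ha, hb, show a + 1 + (b + 1) = (a + b + 1) + 1 by omega, Nat.choose_succ_succ]
      congr 2
      omega

/-- The coefficients of a divided derivative. -/
theorem coeff_hasse (P : MvPolynomial σ R) (μ ν : σ →₀ ℕ) :
    coeff ν (hasse μ P) = (binom μ ν : R) * coeff (μ + ν) P := by
  classical
  rw [hasse_apply]
  induction P using MvPolynomial.induction_on generalizing μ ν with
  | C r =>
    have hs : shift (C r : MvPolynomial σ R) = C (C r) := by simp [shift]
    rw [hs, coeff_C, coeff_C]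
    by_cases hμ : μ = 0
    · subst hμ
      by_cases hν : ν = 0
      · subst hν; simp [binom]
      · simp [coeff_C, Ne.symm hν]
    · have hne : μ + ν ≠ 0 := fun e => hμ (by simp_all)
      simp [Ne.symm hμ, Ne.symm hne]
  | add p q hp hq => simp [hp, hq, mul_add]
  | mul_X p h hp =>
    have hs : shift (p * X h) = shift p * X h + shift p * C (X h) := by
      simp [shift, mul_add]
    rw [hs, coeff_add, coeff_mul_X', mul_comm (shift p) (C (X h)),
      coeff_C_mul, mul_comm (X h), coeff_add, coeff_mul_X' ν, coeff_mul_X']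
    simp only [Finsupp.mem_support_iff, Finsupp.add_apply]
    by_cases hne : μ h + ν h = 0
    · have h1 : μ h = 0 := by omega
      have h2 : ν h = 0 := by omega
      simp [h1, h2]
    rw [binom_succ μ ν h hne, if_pos hne]
    have e1 : μ h ≠ 0 → μ - Finsupp.single h 1 + ν = μ + ν - Finsupp.single h 1 := fun hm => by
      refine tsub_add_eq_add_tsub ?_
      rw [Finsupp.single_le_iff]; omega
    have e2 : ν h ≠ 0 → μ + (ν - Finsupp.single h 1) = μ + ν - Finsupp.single h 1 := fun hm => by
      refine (add_tsub_assoc_of_le ?_ _).symm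
      rw [Finsupp.single_le_iff]; omega
    by_cases h1 : μ h = 0 <;> by_cases h2 : ν h = 0
    · omega
    · simp [h1, h2, hp, e2 h2]
    · simp [h1, h2, hp, e1 h1]
    · simp [h1, h2, hp, e1 h1, e2 h2, add_mul]

theorem hasse_map {S : Type*} [CommRing S] (f : R →+* S) (μ : σ →₀ ℕ) (P : MvPolynomial σ R) :
    hasse μ (MvPolynomial.map f P) = MvPolynomial.map f (hasse μ P) := by
  ext ν
  simp [coeff_hasse, coeff_map]

theorem hasse_hasse (μ ν : σ →₀ ℕ) (P : MvPolynomial σ R) :
    hasse ν (hasse μ P) = (binom μ ν : R) • hasse (μ + ν) P := by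
  ext ρ
  rw [coeff_hasse, coeff_hasse, coeff_smul, coeff_hasse, smul_eq_mul, ← mul_assoc, ← mul_assoc,
    ← Nat.cast_mul, ← Nat.cast_mul, add_assoc]
  congr 2
  rw [binom, binom, binom, binom, ← prod_mul_distrib, ← prod_mul_distrib]
  refine prod_congr rfl fun h _ => ?_
  simp only [Finsupp.add_apply]
  have := Nat.choose_mul (n := μ h + ν h + ρ h) (k := μ h + ν h) (s := μ h) (by omega)
  rw [show μ h + ν h + ρ h - μ h = ν h + ρ h by omega,
    show μ h + ν h - μ h = ν h by omega] at this
  rw [add_assoc (μ h) (ν h) (ρ h)] at this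
  rw [add_assoc (μ h) (ν h) (ρ h)]
  linarith

theorem coeff_taylor_hasse (a : σ → R) (μ ν : σ →₀ ℕ) (P : MvPolynomial σ R) :
    coeff ν (taylor a (hasse μ P)) = (binom μ ν : R) * coeff (μ + ν) (taylor a P) := by
  rw [coeff_taylor, coeff_taylor, hasse_hasse, smul_eval]

end Hasse

section Box

variable {σ R : Type*} [CommRing R]

/-- The partial degrees are bounded by `r`. -/
def BoxDeg (r : σ → ℕ) (P : MvPolynomial σ R) : Prop :=
  ∀ s : σ →₀ ℕ, coeff s P ≠ 0 → ∀ h, s h ≤ r h

theorem BoxDeg.zero (r : σ → ℕ) : BoxDeg r (0 : MvPolynomial σ R) := fun s hs => by simp at hs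

theorem BoxDeg.add {r : σ → ℕ} {P Q : MvPolynomial σ R} (hP : BoxDeg r P) (hQ : BoxDeg r Q) :
    BoxDeg r (P + Q) := by
  intro s hs h
  by_cases h1 : coeff s P = 0
  · exact hQ s (by simpa [h1] using hs) h
  · exact hP s h1 h

theorem BoxDeg.sum {ι : Type*} {r : σ → ℕ} {s : Finset ι} {f : ι → MvPolynomial σ R}
    (h : ∀ i ∈ s, BoxDeg r (f i)) : BoxDeg r (∑ i ∈ s, f i) :=
  Finset.sum_induction _ (BoxDeg r) (fun _ _ => BoxDeg.add) (BoxDeg.zero r) h

theorem BoxDeg.smul {r : σ → ℕ} {P : MvPolynomial σ R} (hP : BoxDeg r P) (c : R) :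
    BoxDeg r (c • P) := fun s hs h => hP s (fun e => hs (by simp [coeff_smul, e])) h

theorem BoxDeg.mul {r r' : σ → ℕ} {P Q : MvPolynomial σ R} (hP : BoxDeg r P) (hQ : BoxDeg r' Q) :
    BoxDeg (r + r') (P * Q) := by
  classical
  intro s hs h
  rw [coeff_mul] at hs
  obtain ⟨⟨a, b⟩, hab, hne⟩ := exists_ne_zero_of_sum_ne_zero hs
  rw [mem_antidiagonal] at hab
  rw [← hab, Finsupp.add_apply, Pi.add_apply]
  exact add_le_add (hP a (left_ne_zero_of_mul hne) h) (hQ b (right_ne_zero_of_mul hne) h)

theorem BoxDeg.one : BoxDeg (0 : σ → ℕ) (1 : MvPolynomial σ R) := by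
  classical
  intro s hs h
  rw [coeff_one] at hs
  split_ifs at hs with h0
  · simp [← h0]
  · exact absurd rfl hs

theorem BoxDeg.prod {ι : Type*} {r : ι → σ → ℕ} {s : Finset ι} {f : ι → MvPolynomial σ R}
    (h : ∀ i ∈ s, BoxDeg (r i) (f i)) : BoxDeg (∑ i ∈ s, r i) (∏ i ∈ s, f i) := by
  classical
  induction s using Finset.induction with
  | empty => simpa using BoxDeg.one
  | insert a s ha ih =>
    rw [sum_insert ha, prod_insert ha]
    exact (h a (mem_insert_self a s)).mul (ih fun i hi => h i (mem_insert_of_mem hi))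

theorem BoxDeg.det {ι : Type*} [Fintype ι] [DecidableEq ι] {r : σ → ℕ}
    {M : Matrix ι ι (MvPolynomial σ R)} (h : ∀ i j, BoxDeg r (M i j)) :
    BoxDeg (Fintype.card ι • r) M.det := by
  rw [Matrix.det_apply]
  refine BoxDeg.sum fun p _ => ?_
  have hp : BoxDeg (Fintype.card ι • r) (∏ i, M (p i) i) := by
    have := BoxDeg.prod (s := univ) (r := fun _ => r) fun i _ => h (p i) i
    simpa using this
  rcases Int.units_eq_one_or (Equiv.Perm.sign p) with hs | hs <;> rw [hs]
  · simpa using hp
  · intro s hs' k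
    exact hp s (fun e => hs' (by simp [Units.smul_def, e])) k

theorem BoxDeg.map {S : Type*} [CommRing S] (f : R →+* S) {r : σ → ℕ} {P : MvPolynomial σ R}
    (hP : BoxDeg r P) : BoxDeg r (MvPolynomial.map f P) :=
  fun s hs h => hP s (fun e => hs (by rw [coeff_map, e, map_zero])) h

variable [Fintype σ]

theorem BoxDeg.hasse {r : σ → ℕ} {P : MvPolynomial σ R} (hP : BoxDeg r P) (μ : σ →₀ ℕ) :
    BoxDeg r (FA.Roth.hasse μ P) := by
  intro s hs h
  have := hP (μ + s) (fun e => hs (by rw [coeff_hasse, e, mul_zero])) h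
  rw [Finsupp.add_apply] at this
  omega

theorem BoxDeg.le_of_hasse_ne_zero {r : σ → ℕ} {P : MvPolynomial σ R} (hP : BoxDeg r P)
    {μ : σ →₀ ℕ} (hne : FA.Roth.hasse μ P ≠ 0) (h : σ) : μ h ≤ r h := by
  obtain ⟨s, hs⟩ := ne_zero_iff.1 hne
  have := hP (μ + s) (fun e => hs (by rw [coeff_hasse, e, mul_zero])) h
  rw [Finsupp.add_apply] at this
  omega

end Box

section Length

variable {σ : Type*}

/-- The sum of the absolute values of the coefficients. -/
def len (P : MvPolynomial σ ℤ) : ℝ := ∑ s ∈ P.support, |((coeff s P : ℤ) : ℝ)|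

theorem len_eq_sum {P : MvPolynomial σ ℤ} {t : Finset (σ →₀ ℕ)} (h : P.support ⊆ t) :
    len P = ∑ s ∈ t, |((coeff s P : ℤ) : ℝ)| :=
  sum_subset h fun s _ hs => by simp [notMem_support_iff.1 hs]

theorem len_nonneg (P : MvPolynomial σ ℤ) : 0 ≤ len P := sum_nonneg fun _ _ => abs_nonneg _

theorem len_zero : len (0 : MvPolynomial σ ℤ) = 0 := by simp [len]

theorem abs_coeff_le_len (P : MvPolynomial σ ℤ) (s : σ →₀ ℕ) :
    |((coeff s P : ℤ) : ℝ)| ≤ len P := by
  classical
  rw [len_eq_sum (subset_insert s P.support)]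
  exact single_le_sum (f := fun s => |((coeff s P : ℤ) : ℝ)|) (fun _ _ => abs_nonneg _)
    (mem_insert_self s _)

theorem one_le_len {P : MvPolynomial σ ℤ} (hP : P ≠ 0) : 1 ≤ len P := by
  obtain ⟨s, hs⟩ := ne_zero_iff.1 hP
  exact le_trans (by exact_mod_cast Int.one_le_abs hs) (abs_coeff_le_len P s)

theorem len_monomial_le (s : σ →₀ ℕ) (z : ℤ) : len (monomial s z) ≤ |(z : ℝ)| := by
  classical
  rw [len_eq_sum (t := {s}) support_monomial_subset, sum_singleton]
  simp

theorem len_add_le (P Q : MvPolynomial σ ℤ) : len (P + Q) ≤ len P + len Q := by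
  classical
  rw [len_eq_sum (t := P.support ∪ Q.support) support_add,
    len_eq_sum (P := P) (t := P.support ∪ Q.support) subset_union_left,
    len_eq_sum (P := Q) (t := P.support ∪ Q.support) subset_union_right, ← sum_add_distrib]
  refine sum_le_sum fun s _ => ?_
  rw [coeff_add, Int.cast_add]
  exact abs_add_le _ _

theorem len_sum_le {ι : Type*} (s : Finset ι) (f : ι → MvPolynomial σ ℤ) :
    len (∑ i ∈ s, f i) ≤ ∑ i ∈ s, len (f i) :=
  le_sum_of_subadditive _ len_zero.le len_add_le s f

theorem len_neg (P : MvPolynomial σ ℤ) : len (-P) = len P := by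
  simp [len, MvPolynomial.support_neg]

theorem len_mul_le (P Q : MvPolynomial σ ℤ) : len (P * Q) ≤ len P * len Q := by
  classical
  have h : P * Q = ∑ a ∈ P.support, ∑ b ∈ Q.support, monomial (a + b) (coeff a P * coeff b Q) := by
    conv_lhs => rw [as_sum P, as_sum Q, sum_mul_sum]
    simp only [monomial_mul]
  rw [h]
  conv_rhs => rw [len, len, sum_mul_sum]
  refine (len_sum_le _ _).trans (sum_le_sum fun a _ => (len_sum_le _ _).trans
    (sum_le_sum fun b _ => (len_monomial_le _ _).trans (le_of_eq ?_)))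
  push_cast
  exact abs_mul _ _

theorem len_prod_le {ι : Type*} (s : Finset ι) (f : ι → MvPolynomial σ ℤ) :
    len (∏ i ∈ s, f i) ≤ ∏ i ∈ s, len (f i) := by
  classical
  induction s using Finset.induction with
  | empty =>
    simp only [prod_empty]
    exact (len_monomial_le 0 1).trans (by simp)
  | insert a s ha ih =>
    rw [prod_insert ha, prod_insert ha]
    exact (len_mul_le _ _).trans (mul_le_mul_of_nonneg_left ih (len_nonneg _))

theorem len_det_le {ι : Type*} [Fintype ι] [DecidableEq ι] {B : ℝ}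
    {M : Matrix ι ι (MvPolynomial σ ℤ)} (h : ∀ i j, len (M i j) ≤ B) :
    len M.det ≤ (Fintype.card ι).factorial * B ^ Fintype.card ι := by
  rw [Matrix.det_apply]
  refine (len_sum_le _ _).trans ((sum_le_card_nsmul _ _ (B ^ Fintype.card ι) fun p _ => ?_).trans
    (le_of_eq (by simp [Fintype.card_perm])))
  have hp : len (∏ i, M (p i) i) ≤ B ^ Fintype.card ι := by
    refine (len_prod_le _ _).trans ((prod_le_prod (fun i _ => len_nonneg _)
      fun i _ => h (p i) i).trans (le_of_eq (by simp)))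
  rcases Int.units_eq_one_or (Equiv.Perm.sign p) with hs | hs <;> rw [hs]
  · simpa using hp
  · simpa [len_neg] using hp

variable [Fintype σ]

theorem binom_le {r : σ → ℕ} (μ ν : σ →₀ ℕ) (h : ∀ k, μ k + ν k ≤ r k) :
    binom μ ν ≤ 2 ^ ∑ k, r k := by
  rw [← prod_pow_eq_pow_sum]
  exact prod_le_prod' fun k _ =>
    (Nat.choose_le_two_pow _ _).trans (Nat.pow_le_pow_right two_pos (h k))

theorem len_hasse_le {r : σ → ℕ} {P : MvPolynomial σ ℤ} (hP : BoxDeg r P) (μ : σ →₀ ℕ) :
    len (hasse μ P) ≤ 2 ^ (∑ k, r k) * len P := by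
  classical
  have h1 : hasse μ P = ∑ s ∈ P.support.filter (μ ≤ ·),
      monomial (s - μ) ((binom μ (s - μ) : ℤ) * coeff s P) := by
    ext ν
    rw [coeff_hasse, coeff_sum]
    simp only [coeff_monomial]
    rw [sum_eq_single (μ + ν)]
    · rw [add_tsub_cancel_left, if_pos rfl]
    · intro s hs hne
      rw [if_neg]
      intro e
      rw [← e, add_tsub_cancel_of_le (mem_filter.1 hs).2] at hne
      exact hne rfl
    · intro hnot
      rw [mem_filter] at hnot
      simp only [le_add_iff_nonneg_right, zero_le, and_true, mem_support_iff, not_not] at hnot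
      simp [hnot]
  rw [h1]
  conv_rhs => rw [len, mul_sum]
  refine (len_sum_le _ _).trans ((sum_le_sum fun s hs => ?_).trans
    (sum_le_sum_of_subset_of_nonneg (filter_subset _ _) fun _ _ _ => by positivity))
  refine (len_monomial_le _ _).trans ?_
  push_cast
  rw [abs_mul, Nat.abs_cast]
  refine mul_le_mul_of_nonneg_right ?_ (abs_nonneg _)
  have hb : binom μ (s - μ) ≤ 2 ^ ∑ k, r k := binom_le μ (s - μ) fun k => by
    have := hP s (mem_support_iff.1 (mem_filter.1 hs).1) k
    have := (mem_filter.1 hs).2 k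
    simp only [Finsupp.tsub_apply]
    omega
  exact_mod_cast hb

/-- The value of an integer polynomial with bounded partial degrees. -/
theorem abs_aeval_le {r : σ → ℕ} {P : MvPolynomial σ ℤ} (hP : BoxDeg r P) {A : ℝ} (hA : 1 ≤ A)
    {x : σ → ℝ} (hx : ∀ k, |x k| ≤ A) : |aeval x P| ≤ len P * A ^ ∑ k, r k := by
  rw [aeval_def, eval₂_eq', len, sum_mul]
  refine (abs_sum_le_sum_abs _ _).trans (sum_le_sum fun s hs => ?_)
  rw [abs_mul, abs_prod, algebraMap_int_eq, eq_intCast]
  refine mul_le_mul_of_nonneg_left ?_ (abs_nonneg _)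
  rw [← prod_pow_eq_pow_sum]
  refine prod_le_prod (fun k _ => abs_nonneg _) fun k _ => ?_
  rw [abs_pow]
  exact (pow_le_pow_left₀ (abs_nonneg _) (hx k) _).trans
    (pow_le_pow_right₀ hA (hP s (mem_support_iff.1 hs) k))

end Length

section Index

variable {σ R : Type*} [Fintype σ] [CommRing R]

/-- The weighted degree `∑ μ h / r h`. -/
def weight (r : σ → ℕ) (μ : σ →₀ ℕ) : ℝ := ∑ h, (μ h : ℝ) / r h

theorem weight_nonneg (r : σ → ℕ) (μ : σ →₀ ℕ) : 0 ≤ weight r μ :=
  sum_nonneg fun _ _ => by positivity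

theorem weight_add (r : σ → ℕ) (μ ν : σ →₀ ℕ) :
    weight r (μ + ν) = weight r μ + weight r ν := by
  simp [weight, add_div, sum_add_distrib]

theorem weight_smul (r : σ → ℕ) (k : ℕ) (μ : σ →₀ ℕ) :
    weight (k • r) μ = weight r μ / k := by
  rw [weight, weight, sum_div]
  refine sum_congr rfl fun h _ => ?_
  simp [div_div, mul_comm]

/-- `P` has index at least `θ` at the point `a`. -/
def VanishBelow (a : σ → R) (r : σ → ℕ) (θ : ℝ) (P : MvPolynomial σ R) : Prop :=
  ∀ μ, weight r μ < θ → coeff μ (taylor a P) = 0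

variable {a : σ → R} {r : σ → ℕ}

theorem VanishBelow.of_nonpos {θ : ℝ} (h : θ ≤ 0) (P : MvPolynomial σ R) :
    VanishBelow a r θ P := fun μ hμ => absurd hμ (by linarith [weight_nonneg r μ])

theorem VanishBelow.mono {θ θ' : ℝ} {P : MvPolynomial σ R} (hP : VanishBelow a r θ P)
    (h : θ' ≤ θ) : VanishBelow a r θ' P := fun μ hμ => hP μ (hμ.trans_le h)

theorem VanishBelow.sum {ι : Type*} {θ : ℝ} {s : Finset ι} {f : ι → MvPolynomial σ R}
    (h : ∀ i ∈ s, VanishBelow a r θ (f i)) : VanishBelow a r θ (∑ i ∈ s, f i) := fun μ hμ => by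
  rw [map_sum, coeff_sum]
  exact sum_eq_zero fun i hi => h i hi μ hμ

theorem VanishBelow.mul {θ θ' : ℝ} {P Q : MvPolynomial σ R} (hP : VanishBelow a r θ P)
    (hQ : VanishBelow a r θ' Q) : VanishBelow a r (θ + θ') (P * Q) := by
  classical
  intro μ hμ
  rw [map_mul, coeff_mul]
  refine sum_eq_zero ?_
  rintro ⟨b, c⟩ hbc
  rw [mem_antidiagonal] at hbc
  rw [← hbc, weight_add] at hμ
  by_cases hb : weight r b < θ
  · rw [hP b hb, zero_mul]
  · rw [hQ c (by linarith), mul_zero]

theorem VanishBelow.prod {ι : Type*} {θ : ι → ℝ} {s : Finset ι} {f : ι → MvPolynomial σ R}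
    (h : ∀ i ∈ s, VanishBelow a r (θ i) (f i)) :
    VanishBelow a r (∑ i ∈ s, θ i) (∏ i ∈ s, f i) := by
  classical
  induction s using Finset.induction with
  | empty => exact VanishBelow.of_nonpos (by simp) _
  | insert b s hb ih =>
    rw [sum_insert hb, prod_insert hb]
    exact (h b (mem_insert_self b s)).mul (ih fun i hi => h i (mem_insert_of_mem hi))

theorem VanishBelow.det {ι : Type*} [Fintype ι] [DecidableEq ι] {θ : ι → ℝ}
    {M : Matrix ι ι (MvPolynomial σ R)} (h : ∀ i j, VanishBelow a r (θ j) (M i j)) :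
    VanishBelow a r (∑ j, θ j) M.det := by
  rw [Matrix.det_apply]
  refine VanishBelow.sum fun p _ μ hμ => ?_
  have hp := VanishBelow.prod (s := univ) (θ := θ) (fun j _ => h (p j) j) μ hμ
  rcases Int.units_eq_one_or (Equiv.Perm.sign p) with hs | hs <;> rw [hs]
  · simpa using hp
  · simpa [Units.smul_def] using hp

theorem VanishBelow.hasse {θ : ℝ} {P : MvPolynomial σ R} (hP : VanishBelow a r θ P)
    (ν : σ →₀ ℕ) : VanishBelow a r (θ - weight r ν) (hasse ν P) := fun μ hμ => by
  rw [coeff_taylor_hasse, hP (ν + μ) (by rw [weight_add]; linarith), mul_zero]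

end Index

section Separated

variable {n : ℕ} {R : Type*} [CommRing R]

/-- The product of a polynomial in the last variables and one in the first. -/
def sep (U : MvPolynomial (Fin n) R) (V : Polynomial R) : MvPolynomial (Fin (n + 1)) R :=
  rename Fin.succ U * Polynomial.aeval (X 0) V

theorem finSuccEquiv_sep (U : MvPolynomial (Fin n) R) (V : Polynomial R) :
    finSuccEquiv R n (sep U V) = Polynomial.C U * V.map C := by
  have h1 : finSuccEquiv R n (rename Fin.succ U) = Polynomial.C U := by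
    induction U using MvPolynomial.induction_on with
    | C r => simp [finSuccEquiv_apply]
    | add p q hp hq => simp [hp, hq]
    | mul_X p h hp => simp [hp, finSuccEquiv_X_succ]
  have h2 : finSuccEquiv R n (Polynomial.aeval (X 0) V) = V.map C := by
    induction V using Polynomial.induction_on' with
    | add p q hp hq => simp [hp, hq]
    | monomial i c =>
      simp [← Polynomial.C_mul_X_pow_eq_monomial, finSuccEquiv_apply]
  rw [sep, map_mul, h1, h2]

theorem coeff_sep (U : MvPolynomial (Fin n) R) (V : Polynomial R) (j : ℕ) (μ : Fin n →₀ ℕ) :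
    coeff (Finsupp.cons j μ) (sep U V) = V.coeff j * coeff μ U := by
  rw [← finSuccEquiv_coeff_coeff, finSuccEquiv_sep, Polynomial.coeff_C_mul, Polynomial.coeff_map,
    mul_comm U, coeff_C_mul]

theorem ext_cons {P Q : MvPolynomial (Fin (n + 1)) R}
    (h : ∀ j μ, coeff (Finsupp.cons j μ) P = coeff (Finsupp.cons j μ) Q) : P = Q := by
  ext s
  rw [← Finsupp.cons_tail s]
  exact h _ _

theorem binom_cons (j b : ℕ) (μ ν : Fin n →₀ ℕ) :
    binom (Finsupp.cons j μ) (Finsupp.cons b ν) = (j + b).choose j * binom μ ν := by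
  simp [binom, Fin.prod_univ_succ]

theorem cons_add_cons (j b : ℕ) (μ ν : Fin n →₀ ℕ) :
    Finsupp.cons j μ + Finsupp.cons b ν = Finsupp.cons (j + b) (μ + ν) := by
  ext i
  refine Fin.cases ?_ (fun i => ?_) i <;> simp

theorem weight_cons (r : Fin (n + 1) → ℕ) (j : ℕ) (μ : Fin n →₀ ℕ) :
    weight r (Finsupp.cons j μ) = (j : ℝ) / r 0 + weight (Fin.tail r) μ := by
  simp [weight, Fin.sum_univ_succ, Fin.tail]

theorem hasse_sep (U : MvPolynomial (Fin n) R) (V : Polynomial R) (j : ℕ) (μ : Fin n →₀ ℕ) :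
    hasse (Finsupp.cons j μ) (sep U V) = sep (hasse μ U) (Polynomial.hasseDeriv j V) := by
  refine ext_cons fun b ν => ?_
  rw [coeff_hasse, binom_cons, cons_add_cons, coeff_sep, coeff_sep, coeff_hasse,
    Polynomial.hasseDeriv_coeff, add_comm j b]
  push_cast
  ring

theorem map_sep {S : Type*} [CommRing S] (f : R →+* S) (U : MvPolynomial (Fin n) R)
    (V : Polynomial R) :
    MvPolynomial.map f (sep U V) = sep (MvPolynomial.map f U) (V.map f) := by
  refine ext_cons fun j μ => ?_
  simp [coeff_map, coeff_sep, Polynomial.coeff_map]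

theorem taylor_sep (x : Fin (n + 1) → R) (U : MvPolynomial (Fin n) R) (V : Polynomial R) :
    taylor x (sep U V) = sep (taylor (Fin.tail x) U) (Polynomial.taylor (x 0) V) := by
  have h1 : (taylor x).comp (rename Fin.succ) =
      (rename Fin.succ).comp (taylor (Fin.tail x)) :=
    MvPolynomial.algHom_ext fun i => by simp [taylor, Fin.tail]
  have h2 : taylor x (Polynomial.aeval (X 0 : MvPolynomial (Fin (n + 1)) R) V) =
      Polynomial.aeval (X 0) (Polynomial.taylor (x 0) V) := by
    rw [← Polynomial.aeval_algHom_apply, Polynomial.taylor_apply, Polynomial.aeval_comp]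
    simp [taylor]
  rw [sep, map_mul, h2, sep]
  congr 1
  exact DFunLike.congr_fun h1 U

/-- The coefficient of `x₀ ^ j`. -/
def slice (j : ℕ) : MvPolynomial (Fin (n + 1)) R →ₗ[R] MvPolynomial (Fin n) R where
  toFun P := (finSuccEquiv R n P).coeff j
  map_add' P Q := by simp
  map_smul' c P := by simp

theorem coeff_slice (j : ℕ) (μ : Fin n →₀ ℕ) (P : MvPolynomial (Fin (n + 1)) R) :
    coeff μ (slice j P) = coeff (Finsupp.cons j μ) P :=
  finSuccEquiv_coeff_coeff μ P j

theorem BoxDeg.slice {r : Fin (n + 1) → ℕ} {P : MvPolynomial (Fin (n + 1)) R} (hP : BoxDeg r P)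
    (j : ℕ) : BoxDeg (Fin.tail r) (slice j P) := fun s hs h => by
  rw [coeff_slice] at hs
  simpa [Fin.tail] using hP _ hs h.succ

theorem len_slice_le (j : ℕ) (P : MvPolynomial (Fin (n + 1)) ℤ) : len (slice j P) ≤ len P := by
  classical
  rw [len]
  simp only [coeff_slice]
  rw [← sum_image (f := fun s => |((coeff s P : ℤ) : ℝ)|) (g := Finsupp.cons j)
    fun a _ b _ h => by simpa using congrArg Finsupp.tail h]
  refine sum_le_sum_of_subset_of_nonneg (fun s hs => ?_) fun _ _ _ => abs_nonneg _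
  obtain ⟨a, ha, rfl⟩ := mem_image.1 hs
  rw [mem_support_iff] at ha ⊢
  rwa [coeff_slice] at ha

end Separated

end FA.Roth

end
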