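import Fermat.Agent.Roth.Multi
import Fermat.Agent.Thue.Auxiliary
import Mathlib.Algebra.Polynomial.BigOperators
import Mathlib.LinearAlgebra.Dimension.Constructions
import Mathlib.LinearAlgebra.Vandermonde
import Mathlib.RingTheory.Polynomial.Pochhammer
import Mathlib.Algebra.BigOperators.Fin
import Mathlib.LinearAlgebra.Finsupp.LinearCombination
import Mathlib.LinearAlgebra.FiniteDimensional.Basic

/-!
# Generalised Wronskians

Linearly independent polynomials have a non-zero Wronskian of Hasse derivatives, in one variable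
by comparing the leading coefficients in a basis of distinct degrees, and in several variables by
the substitution `X h ↦ t ^ (N ^ h)`.
-/

set_option autoImplicit false

noncomputable section

namespace FA.Roth

open Finset

section Univariate

open Polynomial

variable {R : Type*} [CommRing R]

/-- The top coefficient of a product. -/
theorem coeff_prod_top {ι : Type*} (s : Finset ι) (f : ι → R[X]) (d : ι → ℕ)
    (h : ∀ i ∈ s, (f i).natDegree ≤ d i) :
    (∏ i ∈ s, f i).coeff (∑ i ∈ s, d i) = ∏ i ∈ s, (f i).coeff (d i) := by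
  classical
  induction s using Finset.induction with
  | empty => simp
  | insert a s ha ih =>
    rw [prod_insert ha, prod_insert ha, sum_insert ha, coeff_mul_add_eq_of_natDegree_le
      (h a (mem_insert_self a s)) ((natDegree_prod_le s f).trans (sum_le_sum fun i hi =>
        h i (mem_insert_of_mem hi))), ih fun i hi => h i (mem_insert_of_mem hi)]

/-- The top coefficient of a determinant. -/
theorem coeff_det_top {ι : Type*} [Fintype ι] [DecidableEq ι] (M : Matrix ι ι R[X]) (d : ι → ℕ)
    (h : ∀ i j, (M i j).natDegree ≤ d j) :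
    M.det.coeff (∑ j, d j) = (Matrix.of fun i j => (M i j).coeff (d j)).det := by
  rw [Matrix.det_apply, Matrix.det_apply, finsetSum_coeff]
  refine sum_congr rfl fun p _ => ?_
  rw [Units.smul_def, Units.smul_def, coeff_smul, coeff_prod_top univ _ d fun j _ => h (p j) j]
  rfl

theorem det_choose_ne_zero {k : ℕ} {d : Fin k → ℕ} (hd : Function.Injective d) :
    (Matrix.of fun i l : Fin k => ((d l).choose i : ℚ)).det ≠ 0 := by
  have hv : Function.Injective fun l => (d l : ℚ) := fun a b h => hd (Nat.cast_injective h)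
  have h := Matrix.det_eval_matrixOfPolynomials_eq_det_vandermonde (fun l => (d l : ℚ))
    (fun i : Fin k => descPochhammer ℚ i) (fun i => descPochhammer_natDegree ℚ i)
    (fun i => monic_descPochhammer ℚ i)
  intro h0
  refine Matrix.det_vandermonde_ne_zero_iff.2 hv (h.trans ?_)
  rw [← Matrix.det_transpose, show (Matrix.of fun l i : Fin k =>
      (descPochhammer ℚ i).eval (d l : ℚ)).transpose =
      Matrix.of fun i l : Fin k => ((i : ℕ).factorial : ℚ) * ((d l).choose i : ℚ) from ?_]
  · have := Matrix.det_mul_column (fun i : Fin k => ((i : ℕ).factorial : ℚ))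
      (Matrix.of fun i l : Fin k => ((d l).choose i : ℚ))
    simp only [Matrix.of_apply] at this
    rw [this, h0, mul_zero]
  · ext i l
    simp [Matrix.transpose_apply, descPochhammer_eval_eq_descFactorial,
      Nat.descFactorial_eq_factorial_mul_choose]

theorem det_hasseDeriv_ne_zero_of_degree {k : ℕ} {f : Fin k → ℚ[X]} (hf : ∀ l, f l ≠ 0)
    (hd : Function.Injective fun l => (f l).natDegree) :
    (Matrix.of fun i l : Fin k => hasseDeriv i (f l)).det ≠ 0 := by
  intro h0
  set d : Fin k → ℕ := fun l => (f l).natDegree with hd_def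
  set M : Matrix (Fin k) (Fin k) ℚ[X] :=
    Matrix.of fun i l : Fin k => X ^ (i : ℕ) * hasseDeriv i (f l) with hM
  have hdeg : ∀ i l, (M i l).natDegree ≤ d l := by
    intro i l
    show (X ^ (i : ℕ) * hasseDeriv i (f l)).natDegree ≤ d l
    rcases lt_or_ge (f l).natDegree i with hlt | hge
    · rw [hasseDeriv_eq_zero_of_lt_natDegree _ _ hlt, mul_zero, natDegree_zero]
      exact Nat.zero_le _
    · refine natDegree_mul_le.trans ?_
      rw [natDegree_X_pow, natDegree_hasseDeriv]
      show (i : ℕ) + ((f l).natDegree - i) ≤ (f l).natDegree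
      omega
  have hco : ∀ i l, (M i l).coeff (d l) = (f l).leadingCoeff * ((d l).choose i : ℚ) := by
    intro i l
    show (X ^ (i : ℕ) * hasseDeriv i (f l)).coeff (d l) = _
    rw [coeff_X_pow_mul', hasseDeriv_coeff]
    split_ifs with h
    · rw [Nat.sub_add_cancel h, leadingCoeff, mul_comm]
    · rw [Nat.choose_eq_zero_of_lt (not_le.1 h)]
      simp
  have h1 : M.det = (∏ i : Fin k, X ^ (i : ℕ)) * (Matrix.of fun i l : Fin k =>
      hasseDeriv i (f l)).det := by
    rw [hM, ← Matrix.det_mul_column]
    rfl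
  have h2 := coeff_det_top M d hdeg
  rw [h1, h0, mul_zero, coeff_zero] at h2
  simp only [hco] at h2
  have h3 := Matrix.det_mul_row (fun l => (f l).leadingCoeff)
    (Matrix.of fun i l : Fin k => ((d l).choose i : ℚ))
  simp only [Matrix.of_apply] at h3
  rw [h3] at h2
  rcases mul_eq_zero.1 h2.symm with h | h
  · obtain ⟨l, -, hl⟩ := prod_eq_zero_iff.1 h
    exact hf l (leadingCoeff_eq_zero.1 hl)
  · exact det_choose_ne_zero hd h

/-- **The Wronskian** of linearly independent polynomials is not zero. -/
theorem det_hasseDeriv_ne_zero {k : ℕ} {g : Fin k → ℚ[X]} (hg : LinearIndependent ℚ g) :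
    (Matrix.of fun i l : Fin k => hasseDeriv i (g l)).det ≠ 0 := by
  classical
  set V : Submodule ℚ ℚ[X] := Submodule.span ℚ (Set.range g) with hV
  set N := univ.sup fun l => (g l).natDegree with hN
  have hVN : ∀ p ∈ V, p.natDegree ≤ N := by
    intro p hp
    obtain ⟨c, rfl⟩ := (Submodule.mem_span_range_iff_exists_fun ℚ).1 hp
    exact natDegree_sum_le_of_forall_le _ _ fun l _ =>
      (natDegree_smul_le _ _).trans (le_sup (f := fun l => (g l).natDegree) (mem_univ l))
  set D := (range (N + 1)).filter fun d => ∃ p ∈ V, p ≠ 0 ∧ p.natDegree = d with hD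
  have hcard : k ≤ D.card := by
    have : Module.Finite ℚ V := Module.Finite.span_of_finite ℚ (Set.finite_range g)
    have hinj : Function.Injective
        (LinearMap.pi fun d : D => (lcoeff ℚ (d : ℕ)).comp V.subtype) := by
      rw [← LinearMap.ker_eq_bot, LinearMap.ker_eq_bot']
      rintro ⟨p, hp⟩ hp0
      by_contra hne
      have hpne : p ≠ 0 := fun e => hne (Subtype.ext e)
      have hmem : p.natDegree ∈ D :=
        mem_filter.2 ⟨mem_range.2 (Nat.lt_succ_of_le (hVN p hp)), p, hp, hpne, rfl⟩
      exact leadingCoeff_ne_zero.2 hpne (congrFun hp0 ⟨_, hmem⟩)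
    have h := LinearMap.finrank_le_finrank_of_injective hinj
    rw [hV, finrank_span_eq_card hg, Module.finrank_pi] at h
    simpa using h
  obtain ⟨D', hD', hcard'⟩ := exists_subset_card_eq hcard
  set e : Fin k → ℕ := fun l => (D'.orderEmbOfFin hcard' l : ℕ) with he
  have hmem : ∀ l, ∃ p ∈ V, p ≠ 0 ∧ p.natDegree = e l := fun l =>
    (mem_filter.1 (hD' (orderEmbOfFin_mem D' hcard' l))).2
  choose f hfV hf0 hfd using hmem
  have hA : ∀ l, ∃ c : Fin k → ℚ, ∑ j, c j • g j = f l := fun l =>
    (Submodule.mem_span_range_iff_exists_fun ℚ).1 (hfV l)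
  choose A hA using hA
  intro h0
  refine det_hasseDeriv_ne_zero_of_degree hf0 (fun a b hab => ?_) ?_
  · simp only [hfd] at hab
    exact (D'.orderEmbOfFin hcard').injective hab
  · have hmul : (Matrix.of fun i l : Fin k => hasseDeriv i (f l)) =
        (Matrix.of fun i l : Fin k => hasseDeriv i (g l)) *
          (Matrix.of fun j l : Fin k => C (A l j)) := by
      ext1 i l
      simp [Matrix.mul_apply, ← hA, mul_comm, map_sum, ← smul_eq_C_mul]
    rw [hmul, Matrix.det_mul, h0, zero_mul]

end Univariate

section Multivariate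

open MvPolynomial

variable {n : ℕ}

/-- Kronecker's substitution. -/
def kron (N : ℕ) (h : Fin n) : Polynomial ℚ := Polynomial.X ^ (N ^ (h : ℕ))

theorem kron_injective {N : ℕ} {f : MvPolynomial (Fin n) ℚ}
    (hf : BoxDeg (fun _ => N) f) (h0 : aeval (kron (N + 1)) f = 0) : f = 0 := by
  classical
  by_contra hne
  obtain ⟨s₀, hs₀⟩ := ne_zero_iff.1 hne
  set e : (Fin n →₀ ℕ) → ℕ := fun s => ∑ h, s h * (N + 1) ^ (h : ℕ) with he
  have hev : aeval (kron (N + 1)) f =
      ∑ s ∈ f.support, Polynomial.C (coeff s f) * Polynomial.X ^ e s := by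
    rw [aeval_def, eval₂_eq']
    refine sum_congr rfl fun s _ => ?_
    simp only [kron, ← pow_mul, prod_pow_eq_pow_sum, Polynomial.algebraMap_eq, he]
    simp only [mul_comm (((N + 1) ^ _ : ℕ))]
  have hinj : ∀ s ∈ f.support, e s = e s₀ → s = s₀ := by
    intro s hs heq
    have hb : ∀ h, s h < N + 1 := fun h => Nat.lt_succ_of_le (hf s (mem_support_iff.1 hs) h)
    have hb₀ : ∀ h, s₀ h < N + 1 := fun h => Nat.lt_succ_of_le (hf s₀ hs₀ h)
    have : (fun h => (⟨s h, hb h⟩ : Fin (N + 1))) = fun h => ⟨s₀ h, hb₀ h⟩ := by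
      refine finFunctionFinEquiv.injective (Fin.ext ?_)
      rw [finFunctionFinEquiv_apply, finFunctionFinEquiv_apply]
      exact heq
    exact Finsupp.ext fun h => congrArg Fin.val (congrFun this h)
  rw [hev] at h0
  have := congrArg (fun p => Polynomial.coeff p (e s₀)) h0
  simp only [Polynomial.finsetSum_coeff, Polynomial.coeff_C_mul_X_pow,
    Polynomial.coeff_zero] at this
  rw [sum_eq_single_of_mem s₀ (mem_support_iff.2 hs₀)
    fun s hs hne => if_neg fun e' => hne (hinj s hs e'.symm)] at this
  exact hs₀ (by simpa using this)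

/-- The multi-indices of order at most `i`. -/
def orderLe (n i : ℕ) : Finset (Fin n →₀ ℕ) :=
  ((Fintype.piFinset fun _ : Fin n => range (i + 1)).filter fun μ => ∑ h, μ h ≤ i).map
    Finsupp.equivFunOnFinite.symm.toEmbedding

theorem mem_orderLe {i : ℕ} {μ : Fin n →₀ ℕ} : μ ∈ orderLe n i ↔ ∑ h, μ h ≤ i := by
  rw [orderLe, mem_map_equiv, Equiv.symm_symm, mem_filter, Fintype.mem_piFinset]
  refine ⟨fun h => h.2, fun h => ⟨fun k => mem_range.2 (Nat.lt_succ_of_le ?_), h⟩⟩
  exact le_trans (single_le_sum (f := fun h => μ h) (fun _ _ => Nat.zero_le _) (mem_univ k)) h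

/-- The chain rule for Hasse derivatives. -/
theorem hasseDeriv_aeval (γ : Fin n → Polynomial ℚ) (i : ℕ) :
    ∃ c : (Fin n →₀ ℕ) → Polynomial ℚ, ∀ f : MvPolynomial (Fin n) ℚ,
      Polynomial.hasseDeriv i (aeval γ f) =
        ∑ μ ∈ orderLe n i, c μ * aeval γ (hasse μ f) := by
  classical
  set T : Polynomial ℚ →+* Polynomial (Polynomial ℚ) :=
    (Polynomial.taylorAlgHom (Polynomial.X : Polynomial ℚ)).toRingHom.comp
      (Polynomial.mapRingHom Polynomial.C) with hT
  have hTcoeff : ∀ (j : ℕ) (p : Polynomial ℚ), (T p).coeff j = Polynomial.hasseDeriv j p := by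
    intro j p
    show (Polynomial.taylor Polynomial.X (p.map Polynomial.C)).coeff j = _
    rw [Polynomial.taylor_coeff, Thue.map_hasseDeriv, Polynomial.eval_map, Polynomial.eval₂_C_X]
  set w : Fin n → Polynomial (Polynomial ℚ) := fun h => T (γ h) - Polynomial.C (γ h) with hw
  have hwdvd : ∀ h, Polynomial.X ∣ w h := fun h => by
    rw [Polynomial.X_dvd_iff, hw, Polynomial.coeff_sub, hTcoeff, Polynomial.coeff_C_zero,
      Polynomial.hasseDeriv_zero']
    exact sub_self _
  refine ⟨fun μ => (∏ h, w h ^ μ h).coeff i, fun f => ?_⟩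
  have hkey : T (aeval γ f) =
      eval₂Hom (Polynomial.C.comp (aeval γ).toRingHom) w (shift f) := by
    induction f using MvPolynomial.induction_on with
    | C a => simp [T, shift]
    | add p q hp hq => simp [hp, hq]
    | mul_X p h hp =>
      rw [map_mul, map_mul, hp, map_mul, map_mul]
      congr 1
      simp [shift, w]
  rw [← hTcoeff, hkey, coe_eval₂Hom, eval₂_eq', Polynomial.finsetSum_coeff]
  have hzero : ∀ μ ∉ orderLe n i, (∏ h, w h ^ μ h).coeff i = 0 := by
    intro μ hμ
    rw [mem_orderLe, not_le] at hμ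
    have hdvd : Polynomial.X ^ (∑ h, μ h) ∣ ∏ h, w h ^ μ h := by
      rw [← prod_pow_eq_pow_sum]
      exact prod_dvd_prod_of_dvd _ _ fun h _ => pow_dvd_pow_of_dvd (hwdvd h) _
    exact Polynomial.X_pow_dvd_iff.1 hdvd i hμ
  simp only [RingHom.coe_comp, Function.comp_apply, Polynomial.coeff_C_mul]
  rw [sum_congr rfl fun μ _ => mul_comm _ ((∏ h, w h ^ μ h).coeff i)]
  refine (sum_subset (subset_union_left (s₂ := orderLe n i)) fun μ _ hμ => ?_).trans
    (sum_subset subset_union_right fun μ _ hμ => ?_).symm
  · rw [notMem_support_iff.1 hμ]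
    simp
  · rw [hzero μ hμ, zero_mul]

/-- **The generalised Wronskian.** Linearly independent polynomials in several variables have a
non-zero Wronskian formed with derivatives of orders at most `0, 1, 2, ...`. -/
theorem exists_wronskian_ne_zero {k : ℕ} {φ : Fin k → MvPolynomial (Fin n) ℚ}
    (hφ : LinearIndependent ℚ φ) :
    ∃ r : Fin k → (Fin n →₀ ℕ), (∀ i, ∑ h, r i h ≤ (i : ℕ)) ∧
      (Matrix.of fun i l : Fin k => hasse (r i) (φ l)).det ≠ 0 := by
  classical
  set N := univ.sup fun l => (φ l).support.sup fun s => univ.sup fun h => s h with hN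
  have hbox : ∀ l, BoxDeg (fun _ => N) (φ l) := fun l s hs h =>
    ((le_sup (f := fun h => s h) (mem_univ h)).trans
      (le_sup (f := fun s : Fin n →₀ ℕ => univ.sup fun h => s h) (mem_support_iff.2 hs))).trans
      (le_sup (f := fun l => (φ l).support.sup fun s => univ.sup fun h => s h) (mem_univ l))
  set γ := kron (n := n) (N + 1)
  have hg : LinearIndependent ℚ fun l => aeval γ (φ l) := by
    rw [Fintype.linearIndependent_iff]
    intro c hc
    refine Fintype.linearIndependent_iff.1 hφ c (kron_injective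
      (BoxDeg.sum fun l _ => (hbox l).smul (c l)) ?_)
    simpa using hc
  have hne := det_hasseDeriv_ne_zero hg
  choose c hc using fun i : Fin k => hasseDeriv_aeval γ (i : ℕ)
  by_contra! hall
  refine hne ?_
  set A : (Fin n →₀ ℕ) → Fin k → Polynomial ℚ := fun μ l => aeval γ (hasse μ (φ l)) with hA
  have hrows : (Matrix.of fun i l : Fin k => Polynomial.hasseDeriv i (aeval γ (φ l))) =
      fun i : Fin k => ∑ μ ∈ orderLe n i, c i μ • A μ := by
    funext i l
    simp [hc i, A]
  rw [hrows]
  show Matrix.detRowAlternating.toMultilinearMap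
    (fun i : Fin k => ∑ μ ∈ orderLe n i, c i μ • A μ) = 0
  rw [MultilinearMap.map_sum_finset]
  refine sum_eq_zero fun r hr => ?_
  rw [MultilinearMap.map_smul_univ]
  refine smul_eq_zero_of_right _ ?_
  show (Matrix.of fun i l : Fin k => aeval γ (hasse (r i) (φ l))).det = 0
  have := congrArg (aeval γ) (hall r fun i => mem_orderLe.1 (Fintype.mem_piFinset.1 hr i))
  rw [AlgHom.map_det, map_zero] at this
  exact this

end Multivariate

end FA.Roth

end
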